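import Mathlib

/-!
# The fixed field of `Aut(ℂ)` is `ℚ` (towards S23)
-/

set_option autoImplicit false

namespace Fermat.Agent.S23x

open MvPolynomial

/-- Ring automorphisms of a polynomial ring on a transcendence basis extend to the algebraically
closed field. -/
theorem af_exists_ringEquiv {k K : Type*} [Field k] [Field K] [Algebra k K] [IsAlgClosed K]
    {ι : Type*} (v : ι → K) (hv : IsTranscendenceBasis k v)
    (τ : MvPolynomial ι k ≃+* MvPolynomial ι k) :
    ∃ σ : K ≃+* K, ∀ p : MvPolynomial ι k, σ (aeval v p) = aeval v (τ p) := by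
  let _ := IsAlgClosed.isAlgClosure_of_transcendence_basis v hv
  let e : Algebra.adjoin k (Set.range v) ≃+* Algebra.adjoin k (Set.range v) :=
    hv.1.aevalEquiv.symm.toRingEquiv.trans (τ.trans hv.1.aevalEquiv.toRingEquiv)
  refine ⟨IsAlgClosure.equivOfEquiv K K e, fun p => ?_⟩
  rw [← hv.1.algebraMap_aevalEquiv p, IsAlgClosure.equivOfEquiv_algebraMap,
    ← hv.1.algebraMap_aevalEquiv (τ p)]
  congr 1
  simp [e]

/-- A transcendental element of an algebraically closed field is moved by some automorphism. -/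
theorem af_exists_ne_of_transcendental {K : Type*} [Field K] [CharZero K] [IsAlgClosed K]
    (z : K) (hz : Transcendental ℚ z) : ∃ σ : K ≃+* K, σ z ≠ z := by
  classical
  have hind : AlgebraicIndepOn ℚ id ({z} : Set K) := by
    rw [AlgebraicIndepOn, algebraicIndependent_unique_type_iff]
    exact hz
  obtain ⟨t, hzt, ht⟩ := exists_isTranscendenceBasis_superset hind
  have hzmem : z ∈ t := hzt rfl
  let i₀ : t := ⟨z, hzmem⟩
  let c : t → ℚ := fun i => if i = i₀ then 1 else 0
  let τ : MvPolynomial t ℚ ≃ₐ[ℚ] MvPolynomial t ℚ :=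
    AlgEquiv.ofAlgHom (aeval fun i => X i + C (c i)) (aeval fun i => X i - C (c i))
      (by ext i; simp) (by ext i; simp)
  obtain ⟨σ, hσ⟩ := af_exists_ringEquiv ((↑) : t → K) ht τ.toRingEquiv
  refine ⟨σ, ?_⟩
  have h1 := hσ (X i₀)
  have h2 : τ.toRingEquiv (X i₀) = X i₀ + C (c i₀) := by simp [τ]
  rw [h2] at h1
  simp only [aeval_X, map_add] at h1
  have h3 : c i₀ = 1 := by simp [c]
  rw [h3] at h1
  simp only [map_one] at h1
  change σ z = z + 1 at h1
  rw [h1]
  intro h
  have : (1 : K) = 0 := by linear_combination h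
  exact one_ne_zero this

/-- An algebraic, non-rational element of an algebraically closed field of characteristic zero is
moved by some automorphism. -/
theorem af_exists_ne_of_algebraic {K : Type*} [Field K] [CharZero K] [IsAlgClosed K]
    (z : K) (hz : IsAlgebraic ℚ z) (hzq : z ∉ Set.range (algebraMap ℚ K)) :
    ∃ σ : K ≃+* K, σ z ≠ z := by
  classical
  let Qb : IntermediateField ℚ K := algebraicClosure ℚ K
  have hzQb : z ∈ Qb := mem_algebraicClosure_iff.mpr hz
  let zb : Qb := ⟨z, hzQb⟩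
  have hclos : IsAlgClosure ℚ Qb := algebraicClosure.isAlgClosure ℚ K
  have hgal : IsGalois ℚ Qb := by
    have h1 : Algebra.IsAlgebraic ℚ Qb := IsAlgClosure.isAlgebraic
    have h2 : Algebra.IsSeparable ℚ Qb := Algebra.IsAlgebraic.isSeparable_of_perfectField
    have h3 : Normal ℚ Qb := IsAlgClosure.normal ℚ Qb
    exact isGalois_iff.mpr ⟨h2, h3⟩
  have hzb : zb ∉ Set.range (algebraMap ℚ Qb) := by
    rintro ⟨r, hr⟩
    apply hzq
    refine ⟨r, ?_⟩
    have := congrArg (fun x : Qb => (x : K)) hr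
    simpa [zb] using this
  rw [InfiniteGalois.mem_range_algebraMap_iff_fixed] at hzb
  push Not at hzb
  obtain ⟨τ0, hτ0⟩ := hzb
  obtain ⟨ι, v, hv⟩ := exists_isTranscendenceBasis' Qb K
  let τ : MvPolynomial ι Qb ≃+* MvPolynomial ι Qb := MvPolynomial.mapEquiv ι τ0.toRingEquiv
  obtain ⟨σ, hσ⟩ := af_exists_ringEquiv v hv τ
  refine ⟨σ, ?_⟩
  have h1 := hσ (C zb)
  have h2 : τ (C zb) = C (τ0 zb) := by simp [τ]
  rw [h2] at h1
  simp only [aeval_C] at h1
  change σ z = ((τ0 zb : Qb) : K) at h1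
  rw [h1]
  intro h
  apply hτ0
  exact Subtype.ext h

/-- **The fixed field of `Aut(K)` is `ℚ`** for an algebraically closed field of characteristic
zero. -/
theorem af_exists_rat_of_fixed {K : Type*} [Field K] [CharZero K] [IsAlgClosed K] (z : K)
    (h : ∀ σ : K ≃+* K, σ z = z) : ∃ r : ℚ, (r : K) = z := by
  by_cases hz : IsAlgebraic ℚ z
  · by_contra hcon
    have hzq : z ∉ Set.range (algebraMap ℚ K) := by
      rintro ⟨r, hr⟩
      exact hcon ⟨r, by simpa using hr⟩
    obtain ⟨σ, hσ⟩ := af_exists_ne_of_algebraic z hz hzq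
    exact hσ (h σ)
  · obtain ⟨σ, hσ⟩ := af_exists_ne_of_transcendental z hz
    exact absurd (h σ) hσ

/-- The complex numbers fixed by every ring automorphism of `ℂ` are the rationals. -/
theorem af_complex_rat_of_fixed (z : ℂ) (h : ∀ σ : ℂ ≃+* ℂ, σ z = z) : ∃ r : ℚ, (r : ℂ) = z :=
  af_exists_rat_of_fixed z h

end Fermat.Agent.S23x
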