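/-
S23 project (integral structure of S₂(Γ₀(N))): core definitions shared by all S23x files.
Route: Galois-conjugation stability of q-expansions via the modular function field ℂ(j, j_N),
then descent to ℚ (echelon basis fixed by all field automorphisms of ℂ), then bounded denominators
from finite generation of the Hecke algebra (S22).
-/
import Mathlib
import Fermat.Prelude.Def_CuspForm_IntegralStructure

set_option autoImplicit false

namespace Fermat.Agent.S23x

open UpperHalfPlane ModularForm ModularFormClass CongruenceSubgroup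
open scoped MatrixGroups Manifold

/-- Laurent series over `ℂ` (a field). -/
abbrev LS : Type := LaurentSeries ℂ

/-- The raw function `f` is (the underlying function of) a modular form of weight `k` for `Γ₀(N)`. -/
def IsMF (N : ℕ) (k : ℤ) (f : ℍ → ℂ) : Prop := ∃ F : ModularForm (Gamma0 N) k, ⇑F = f

/-- The raw function `f` is (the underlying function of) a cusp form of weight `k` for `Γ₀(N)`. -/
def IsCF (N : ℕ) (k : ℤ) (f : ℍ → ℂ) : Prop := ∃ F : CuspForm (Gamma0 N) k, ⇑F = f

/-- The raw function `f` is a modular form of weight `k` and level one. -/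
def IsMF1 (k : ℤ) (f : ℍ → ℂ) : Prop := ∃ F : ModularForm 𝒮ℒ k, ⇑F = f

/-- The `q`-expansion (period `1`) of a function on the upper half plane, as a Laurent series. -/
noncomputable def qL (f : ℍ → ℂ) : LS := ((qExpansion 1 f : PowerSeries ℂ) : LaurentSeries ℂ)

/-- `x` is the `q`-expansion of a ratio `f / g` of modular forms for `Γ₀(N)` of weights
`m + k` and `m` ("meromorphic modular form of weight `k`"). -/
def IsRatio (N : ℕ) (k : ℤ) (x : LS) : Prop :=
  ∃ (m : ℤ) (f g : ℍ → ℂ), IsMF N (m + k) f ∧ IsMF N m g ∧ g ≠ 0 ∧ x * qL g = qL f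

/-- Coefficientwise action of a field automorphism of `ℂ` on power series. -/
noncomputable def sigP (σ : ℂ ≃+* ℂ) : PowerSeries ℂ ≃+* PowerSeries ℂ :=
  RingEquiv.ofRingHom (PowerSeries.map σ.toRingHom) (PowerSeries.map σ.symm.toRingHom)
    (by ext p n; simp) (by ext p n; simp)

/-- Coefficientwise action of a field automorphism of `ℂ` on Laurent series. -/
noncomputable def sigL (σ : ℂ ≃+* ℂ) : LS ≃+* LS :=
  IsFractionRing.ringEquivOfRingEquiv (A := PowerSeries ℂ) (B := PowerSeries ℂ) (sigP σ)

/-- The `q`-expansion of `E₄`, `E₆`, `Δ` as Laurent series. -/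
noncomputable def E4L : LS := qL (⇑E₄)
noncomputable def E6L : LS := qL (⇑E₆)
noncomputable def DeltaL : LS := qL ModularForm.discriminant

/-- The `j`-invariant as a function on `ℍ`. -/
noncomputable def jFn (z : ℍ) : ℂ := E₄ z ^ 3 / ModularForm.discriminant z

/-- Multiplication by `N` on the upper half plane. -/
noncomputable def mulN (N : ℕ) [NeZero N] (z : ℍ) : ℍ :=
  ⟨(N : ℂ) * z, by
    have hN : (0 : ℝ) < N := Nat.cast_pos.mpr (NeZero.pos N)
    simpa using mul_pos hN z.im_pos⟩

/-- `q`-expansion of `j`. -/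
noncomputable def jL : LS := E4L ^ 3 / DeltaL

/-- `q`-expansion of `j_N = j(N z)`. -/
noncomputable def jNL (N : ℕ) [NeZero N] : LS :=
  qL (fun z => E₄ (mulN N z)) ^ 3 / qL (fun z => ModularForm.discriminant (mulN N z))

/-- "Nice" functions: holomorphic on `ℍ`, `1`-periodic, bounded at `i∞`. On these `qL` is an
injective ring homomorphism. -/
def IsNice (f : ℍ → ℂ) : Prop :=
  MDiff f ∧ (∀ z : ℍ, f ((1 : ℝ) +ᵥ z) = f z) ∧ IsBoundedAtImInfty f

/-- The index of `Γ₀(N)` in `SL(2, ℤ)` (as the cardinality of the coset space used by Mathlib's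
norm/trace construction). -/
noncomputable def idx (N : ℕ) : ℕ :=
  Nat.card (↥(𝒮ℒ) ⧸ ((Gamma0 N : Subgroup (GL (Fin 2) ℝ)).subgroupOf 𝒮ℒ))

/-- The subfield `ℂ(j)` of `LS`. -/
noncomputable def Kj : IntermediateField ℂ LS := IntermediateField.adjoin ℂ {jL}

/-- A power series has rational coefficients. -/
def IsRatPS (p : PowerSeries ℂ) : Prop := ∀ n, ∃ r : ℚ, PowerSeries.coeff n p = (r : ℂ)

/-- A power series has integer coefficients. -/
def IsIntPS (p : PowerSeries ℂ) : Prop := ∀ n, ∃ m : ℤ, PowerSeries.coeff n p = (m : ℂ)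

end Fermat.Agent.S23x
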