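/-
S23 project, module M13 (CuspCrit): algebraic criterion for cuspidality.
A modular form `f` of weight `k` for `Γ₀(N)` is a cusp form iff `f ^ N = Δ * g` for some modular
form `g` of weight `N * k - 12` for `Γ₀(N)`.
-/
import Fermat.Agent.S23x.Defs
import Fermat.Agent.S22x.CuspNice

set_option autoImplicit false

namespace Fermat.Agent.S23x

open UpperHalfPlane ModularForm ModularFormClass CongruenceSubgroup Filter Asymptotics
open scoped MatrixGroups Manifold Topology Real

/-- `Δ` is invariant under the weight 12 slash action of every element of `SL(2, ℤ)`. -/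
theorem m13_discriminant_slash (γ : SL(2, ℤ)) :
    (ModularForm.discriminant ∣[(12 : ℤ)] γ) = ModularForm.discriminant :=
  SlashInvariantForm.slash_action_generators_SL2Z ModularForm.discriminant_S_invariant
    ModularForm.discriminant_T_invariant γ

/-- slash of a power. -/
theorem m13_pow_slash (f : ℍ → ℂ) (k : ℤ) (n : ℕ) (γ : SL(2, ℤ)) :
    (f ^ n) ∣[(n : ℤ) * k] γ = (f ∣[k] γ) ^ n := by
  induction n with
  | zero =>
    simp only [pow_zero, Nat.cast_zero, zero_mul]
    exact ModularForm.is_invariant_one γ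
  | succ n ih =>
    have h : ((n + 1 : ℕ) : ℤ) * k = (n : ℤ) * k + k := by push_cast; ring
    rw [pow_succ, pow_succ, h, ModularForm.mul_slash_SL2, ih]

/-- slash of `f ^ n / Δ`. -/
theorem m13_pow_div_slash (f : ℍ → ℂ) (k : ℤ) (n : ℕ) (γ : SL(2, ℤ)) :
    (f ^ n / ModularForm.discriminant) ∣[(n : ℤ) * k - 12] γ
      = (f ∣[k] γ) ^ n / ModularForm.discriminant := by
  rw [ModularForm.div_slash_SL2, m13_pow_slash, m13_discriminant_slash]

/-- slash of `Δ * g`. -/
theorem m13_mul_slash (g : ℍ → ℂ) (l : ℤ) (γ : SL(2, ℤ)) :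
    (ModularForm.discriminant * g) ∣[(12 : ℤ) + l] γ = ModularForm.discriminant * (g ∣[l] γ) := by
  rw [ModularForm.mul_slash_SL2, m13_discriminant_slash]

/-- Key estimate: for a cusp form `F` for `Γ₀(N)` and `γ ∈ SL(2, ℤ)`, the `N`-th power of the slash
`F ∣[k] γ` is `O(Δ)` at `i∞` (the slash has period `N`, hence decays like `exp (-2π Im z / N)`). -/
theorem m13_slash_pow_isBigO (N : ℕ) [NeZero N] {k : ℤ} (F : CuspForm (Gamma0 N) k)
    (γ : SL(2, ℤ)) :
    ((⇑F ∣[k] γ) ^ N) =O[atImInfty] ModularForm.discriminant := by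
  have hN : (0 : ℝ) < N := Nat.cast_pos.mpr (NeZero.pos N)
  have h1 : IsZeroAtImInfty (⇑F ∣[k] γ) := CuspFormClass.zero_at_infty_slash F γ
  have h2 : Function.Periodic ((⇑F ∣[k] γ) ∘ ofComplex) (N : ℝ) :=
    Fermat.Agent.S22x.periodic_slash _ (Fermat.Agent.S22x.slash_eq_of_mem_Gamma0 F) γ
  have h3 : MDiff (⇑F ∣[k] γ) := by
    rw [ModularForm.SL_slash]
    exact (CuspFormClass.holo F).slash k _
  have h4 : IsBoundedAtImInfty (⇑F ∣[k] γ) := ModularFormClass.bdd_at_infty_slash F γ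
  have h5 := UpperHalfPlane.IsZeroAtImInfty.exp_decay_atImInfty h1 hN h2 h3 h4
  have h6 := h5.pow N
  refine (h6.trans ?_).trans ModularForm.exp_isBigO_discriminant
  refine IsBigO.of_bound 1 (Eventually.of_forall fun τ => ?_)
  simp only [one_mul]
  rw [← Real.exp_nat_mul]
  have : (N : ℝ) * (-2 * π * τ.im / N) = -2 * π * τ.im := by field_simp
  rw [this]

/-- forward direction: `F ^ N / Δ` is a modular form of weight `N * k - 12` for `Γ₀(N)`. -/
noncomputable def m13_powDivDisc (N : ℕ) [NeZero N] {k : ℤ} (F : CuspForm (Gamma0 N) k) :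
    ModularForm (Gamma0 N) ((N : ℤ) * k - 12) where
  toFun := (⇑F) ^ N / ModularForm.discriminant
  slash_action_eq' := by
    rintro _ ⟨γ, hγ, rfl⟩
    have h := m13_pow_div_slash (⇑F) k N γ
    rw [Fermat.Agent.S22x.slash_eq_of_mem_Gamma0 F γ hγ] at h
    rw [ModularForm.SL_slash] at h
    exact h
  holo' := by
    have h1 : MDiff ((⇑F) ^ N) := (CuspFormClass.holo F).pow N
    exact h1.div CuspForm.discriminant.holo' discriminant_ne_zero
  bdd_at_cusps' {c} hc := by
    rw [Subgroup.IsArithmetic.isCusp_iff_isCusp_SL2Z] at hc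
    rw [OnePoint.isBoundedAt_iff_forall_SL2Z hc]
    intro γ _
    rw [m13_pow_div_slash, IsBoundedAtImInfty, BoundedAtFilter]
    exact (div_isBoundedUnder_of_isBigO (m13_slash_pow_isBigO N F γ)).isBigO_one ℝ

theorem m13_powDivDisc_coe (N : ℕ) [NeZero N] {k : ℤ} (F : CuspForm (Gamma0 N) k) :
    ⇑(m13_powDivDisc N F) = (⇑F) ^ N / ModularForm.discriminant := rfl

/-- if `x ^ n → 0` along a filter (with `n ≠ 0`) then `x → 0`. -/
theorem m13_tendsto_zero_of_pow {α : Type*} {l : Filter α} {x : α → ℂ} {n : ℕ} (hn : n ≠ 0)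
    (h : Tendsto (fun a => x a ^ n) l (𝓝 0)) : Tendsto x l (𝓝 0) := by
  rw [tendsto_zero_iff_norm_tendsto_zero] at h ⊢
  have h1 : Tendsto (fun a => (‖x a‖ ^ n) ^ ((n : ℝ)⁻¹)) l (𝓝 ((0:ℝ) ^ ((n : ℝ)⁻¹))) := by
    refine Tendsto.rpow_const ?_ (Or.inr (by positivity))
    simpa [norm_pow] using h
  rw [Real.zero_rpow (by positivity)] at h1
  refine h1.congr fun a => ?_
  exact Real.pow_rpow_inv_natCast (norm_nonneg _) hn

/-- backward direction: a modular form whose `N`-th power is `Δ` times a modular form is a cusp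
form. -/
noncomputable def m13_cuspOfPow (N : ℕ) [NeZero N] {k : ℤ} (F : ModularForm (Gamma0 N) k)
    (G : ModularForm (Gamma0 N) ((N : ℤ) * k - 12))
    (h : (⇑F) ^ N = ModularForm.discriminant * ⇑G) : CuspForm (Gamma0 N) k where
  toSlashInvariantForm := F.toSlashInvariantForm
  holo' := F.holo'
  zero_at_cusps' {c} hc := by
    rw [Subgroup.IsArithmetic.isCusp_iff_isCusp_SL2Z] at hc
    rw [OnePoint.isZeroAt_iff_forall_SL2Z hc]
    intro γ _
    change IsZeroAtImInfty (⇑F ∣[k] γ)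
    have h1 : (⇑F ∣[k] γ) ^ N = ModularForm.discriminant * (⇑G ∣[(N : ℤ) * k - 12] γ) := by
      rw [← m13_pow_slash, h, ← m13_mul_slash]
      congr 1
      ring
    have h2 : IsBoundedAtImInfty (⇑G ∣[(N : ℤ) * k - 12] γ) :=
      ModularFormClass.bdd_at_infty_slash G γ
    have h3 : IsZeroAtImInfty (ModularForm.discriminant * (⇑G ∣[(N : ℤ) * k - 12] γ)) :=
      ZeroAtFilter.mul_boundedAtFilter ModularForm.discriminant_isZeroAtImInfty h2
    rw [← h1] at h3
    exact m13_tendsto_zero_of_pow (NeZero.ne N) h3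

theorem m13_cuspOfPow_coe (N : ℕ) [NeZero N] {k : ℤ} (F : ModularForm (Gamma0 N) k)
    (G : ModularForm (Gamma0 N) ((N : ℤ) * k - 12))
    (h : (⇑F) ^ N = ModularForm.discriminant * ⇑G) : ⇑(m13_cuspOfPow N F G h) = ⇑F := rfl

/-- **M13**: algebraic criterion for cuspidality. -/
theorem isCF_iff_pow_eq_discriminant_mul (N : ℕ) [NeZero N] {k : ℤ} {f : ℍ → ℂ}
    (hf : IsMF N k f) :
    IsCF N k f ↔ ∃ g, IsMF N ((N : ℤ) * k - 12) g ∧ f ^ N = ModularForm.discriminant * g := by
  constructor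
  · rintro ⟨F, rfl⟩
    refine ⟨(⇑F) ^ N / ModularForm.discriminant, ⟨m13_powDivDisc N F, rfl⟩, ?_⟩
    ext z
    simp only [Pi.mul_apply, Pi.div_apply, Pi.pow_apply]
    rw [mul_div_cancel₀ _ (discriminant_ne_zero z)]
  · rintro ⟨g, ⟨G, rfl⟩, h⟩
    obtain ⟨F, rfl⟩ := hf
    exact ⟨m13_cuspOfPow N F G h, rfl⟩

end Fermat.Agent.S23x
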