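import Fermat.Agent.S22
import Fermat.Prelude.Def_CuspForm_IntegralStructure
import Fermat.Prelude.Thm_ModularFormClass_qCoeff_heckeT
import Fermat.Prelude.Thm_ModularFormClass_qCoeff_heckeU
import Fermat.Prelude.Thm_CongruenceSubgroup_one_mem_strictPeriods_Gamma0

/-!
# Bounded denominators (towards S23)

If the weight two cusp forms of level `Γ₀(N)` are spanned by forms with *rational* `q`-expansion
coefficients, then they are spanned by forms with *integral* `q`-expansion coefficients.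
The input is the finiteness of the Hecke algebra over `ℤ` (statement S22).
-/

set_option autoImplicit false
open CuspForm ModularFormClass UpperHalfPlane CongruenceSubgroup

namespace Fermat.Agent.S23x

variable {N : ℕ}

theorem bd_qCoeff_add (f g : CuspForm (Gamma0 N) 2) (n : ℕ) :
    qCoeff (⇑(f + g)) n = qCoeff (⇑f) n + qCoeff (⇑g) n := by
  unfold qCoeff
  rw [FunLike.coe_add, ModularForm.qExpansion_add one_pos
    (one_mem_strictPeriods_Gamma0 N) f g, map_add]

theorem bd_qCoeff_smul (c : ℂ) (f : CuspForm (Gamma0 N) 2) (n : ℕ) :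
    qCoeff (⇑(c • f)) n = c * qCoeff (⇑f) n := by
  unfold qCoeff
  rw [FunLike.coe_smul, ModularForm.qExpansion_smul one_pos
    (one_mem_strictPeriods_Gamma0 N) c f, PowerSeries.coeff_smul, smul_eq_mul]

theorem bd_qCoeff_zero_index (f : CuspForm (Gamma0 N) 2) : qCoeff (⇑f) 0 = 0 :=
  CuspFormClass.qExpansion_coeff_zero f one_pos (one_mem_strictPeriods_Gamma0 N)

theorem bd_qCoeff_zero_form (n : ℕ) : qCoeff (⇑(0 : CuspForm (Gamma0 N) 2)) n = 0 := by
  have h := bd_qCoeff_smul (N := N) 0 0 n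
  rw [zero_smul, zero_mul] at h
  exact h

theorem bd_qCoeff_neg (f : CuspForm (Gamma0 N) 2) (n : ℕ) :
    qCoeff (⇑(-f)) n = - qCoeff (⇑f) n := by
  have h := bd_qCoeff_smul (N := N) (-1) f n
  rw [neg_one_smul, neg_one_mul] at h
  exact h

theorem bd_qCoeff_sub (f g : CuspForm (Gamma0 N) 2) (n : ℕ) :
    qCoeff (⇑(f - g)) n = qCoeff (⇑f) n - qCoeff (⇑g) n := by
  rw [sub_eq_add_neg, bd_qCoeff_add, bd_qCoeff_neg, ← sub_eq_add_neg]

theorem bd_qCoeff_zsmul (c : ℤ) (f : CuspForm (Gamma0 N) 2) (n : ℕ) :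
    qCoeff (⇑(c • f)) n = (c : ℂ) * qCoeff (⇑f) n := by
  rw [← Int.cast_smul_eq_zsmul ℂ c f, bd_qCoeff_smul]

theorem bd_qCoeff_heckeTLin {p : ℕ} (hp : p.Prime) (hpN : ¬ p ∣ N) (f : CuspForm (Gamma0 N) 2)
    (n : ℕ) :
    qCoeff (⇑(heckeTLin 2 hp hpN f)) n =
      qCoeff (⇑f) (n * p) + if p ∣ n then (p : ℂ) * qCoeff (⇑f) (n / p) else 0 := by
  rw [coe_heckeTLin_apply,
    ModularFormClass.qCoeff_heckeT f (one_mem_strictPeriods_Gamma0 N) hp.ne_zero n,
    ModularForm.coeffHeckeT_apply]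
  norm_num

theorem bd_qCoeff_heckeULin [NeZero N] {p : ℕ} (hp : p.Prime) (hpN : p ∣ N)
    (f : CuspForm (Gamma0 N) 2) (n : ℕ) :
    qCoeff (⇑(heckeULin 2 hpN f)) n = qCoeff (⇑f) (n * p) := by
  rw [coe_heckeULin_apply,
    ModularFormClass.qCoeff_heckeU f (one_mem_strictPeriods_Gamma0 N) hp.ne_zero n,
    ModularForm.coeffHeckeU_apply]

/-- For every `n ≥ 1` there is an element `T_n` of the integral Hecke algebra with
`a_1(T_n f) = a_n(f)` for all `f`. -/
theorem bd_exists_hecke_coeff [NeZero N] (n : ℕ) (hn : 1 ≤ n) :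
    ∃ T ∈ heckeAlgebra N 2 ∅, ∀ f : CuspForm (Gamma0 N) 2,
      qCoeff (⇑(T f)) 1 = qCoeff (⇑f) n := by
  induction n using Nat.strong_induction_on with
  | _ n ih =>
    rcases eq_or_lt_of_le hn with h1 | h1
    · subst h1
      exact ⟨1, Subalgebra.one_mem _, fun f => rfl⟩
    · have hp : (n.minFac).Prime := Nat.minFac_prime (by omega)
      set p := n.minFac with hpdef
      have hpn : p ∣ n := Nat.minFac_dvd n
      obtain ⟨m, hm⟩ : ∃ m, n = m * p := ⟨n / p, (Nat.div_mul_cancel hpn).symm⟩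
      have hp2 : 2 ≤ p := hp.two_le
      have hm1 : 1 ≤ m := by
        rcases Nat.eq_zero_or_pos m with h0 | h0
        · subst h0; omega
        · exact h0
      have hmn : m < n := by
        rw [hm]; nlinarith
      obtain ⟨Tm, hTm, hTm'⟩ := ih m hmn hm1
      by_cases hpN : p ∣ N
      · refine ⟨Tm * heckeULin 2 hpN,
          mul_mem hTm (heckeULin_mem_heckeAlgebra hp hpN (by simp)), fun f => ?_⟩
        rw [Module.End.mul_apply, hTm', bd_qCoeff_heckeULin hp hpN, hm]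
      · by_cases hpm : p ∣ m
        · have hmp1 : 1 ≤ m / p := Nat.div_pos (Nat.le_of_dvd hm1 hpm) hp.pos
          have hmpn : m / p < n := lt_of_le_of_lt (Nat.div_le_self m p) hmn
          obtain ⟨T', hT', hT''⟩ := ih (m / p) hmpn hmp1
          refine ⟨Tm * heckeTLin 2 hp hpN - (p : ℤ) • T',
            sub_mem (mul_mem hTm (heckeTLin_mem_heckeAlgebra hp hpN (by simp)))
              (Subalgebra.zsmul_mem _ hT' _), fun f => ?_⟩
          rw [LinearMap.sub_apply, bd_qCoeff_sub, Module.End.mul_apply, hTm',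
            bd_qCoeff_heckeTLin hp hpN, if_pos hpm, LinearMap.smul_apply, bd_qCoeff_zsmul, hT'',
            hm]
          push_cast
          ring
        · refine ⟨Tm * heckeTLin 2 hp hpN,
            mul_mem hTm (heckeTLin_mem_heckeAlgebra hp hpN (by simp)), fun f => ?_⟩
          rw [Module.End.mul_apply, hTm', bd_qCoeff_heckeTLin hp hpN, if_neg hpm, add_zero, hm]

/-- A `ℤ`-linear functional on a finite `ℤ`-module has a common denominator for its rational
values. -/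
theorem bd_common_denominator {M : Type*} [AddCommGroup M] [Module.Finite ℤ M]
    (φ : M →ₗ[ℤ] ℂ) :
    ∃ D : ℕ, D ≠ 0 ∧ ∀ x : M, (∃ r : ℚ, φ x = (r : ℂ)) → ∃ m : ℤ, (D : ℂ) * φ x = (m : ℂ) := by
  classical
  let Qsub : Submodule ℤ ℂ := LinearMap.range ((Rat.castHom ℂ).toAddMonoidHom.toIntLinearMap)
  have hQ : ∀ z : ℂ, z ∈ Qsub ↔ ∃ r : ℚ, z = (r : ℂ) := by
    intro z
    constructor
    · rintro ⟨r, rfl⟩; exact ⟨r, rfl⟩
    · rintro ⟨r, rfl⟩; exact ⟨r, rfl⟩
  let K : Submodule ℤ M := Qsub.comap φ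
  have hK : K.FG := IsNoetherian.noetherian K
  obtain ⟨S, hS⟩ := hK
  have hSQ : ∀ s ∈ S, ∃ r : ℚ, φ s = (r : ℂ) := by
    intro s hs
    have : s ∈ K := by rw [← hS]; exact Submodule.subset_span hs
    exact (hQ _).mp this
  choose! r hr using hSQ
  refine ⟨∏ s ∈ S, (r s).den, ?_, ?_⟩
  · exact Finset.prod_ne_zero_iff.mpr fun s _ => (r s).den_ne_zero
  · intro x hx
    have hxK : x ∈ K := (hQ _).mpr hx
    rw [← hS] at hxK
    refine Submodule.span_induction (p := fun x _ => ∃ m : ℤ,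
      ((∏ s ∈ S, (r s).den : ℕ) : ℂ) * φ x = (m : ℂ)) ?_ ?_ ?_ ?_ hxK
    · intro s hs
      obtain ⟨c, hc⟩ : (r s).den ∣ ∏ s ∈ S, (r s).den := Finset.dvd_prod_of_mem _ hs
      refine ⟨(c : ℤ) * (r s).num, ?_⟩
      rw [hr s hs, hc]
      have hden : ((r s).den : ℂ) ≠ 0 := by exact_mod_cast (r s).den_ne_zero
      have hrs : ((r s : ℚ) : ℂ) = ((r s).num : ℂ) / ((r s).den : ℂ) := by
        conv_lhs => rw [← Rat.num_div_den (r s)]
        push_cast
        rfl
      rw [hrs]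
      push_cast
      field_simp
    · exact ⟨0, by simp⟩
    · rintro x y _ _ ⟨a, ha⟩ ⟨b, hb⟩
      exact ⟨a + b, by rw [map_add, mul_add, ha, hb]; push_cast; rfl⟩
    · rintro c x _ ⟨a, ha⟩
      refine ⟨c * a, ?_⟩
      rw [map_smul, zsmul_eq_mul, mul_left_comm, ha]
      push_cast
      rfl

/-- A cusp form with rational `q`-expansion has an integer multiple with integral
`q`-expansion. -/
theorem bd_exists_int_multiple [NeZero N] (f : CuspForm (Gamma0 N) 2)
    (hf : ∀ n, ∃ r : ℚ, qCoeff (⇑f) n = (r : ℂ)) :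
    ∃ D : ℕ, D ≠ 0 ∧ ∀ n, ∃ m : ℤ, qCoeff (⇑((D : ℂ) • f)) n = (m : ℂ) := by
  have : Module.Finite ℤ (heckeAlgebra N 2 ∅) := Fermat.Agent.S22.result N 2 ∅
  let φ : heckeAlgebra N 2 ∅ →ₗ[ℤ] ℂ :=
    { toFun := fun T => qCoeff (⇑((T : Module.End ℂ (CuspForm (Gamma0 N) 2)) f)) 1
      map_add' := fun T T' => by
        show qCoeff (⇑(((T + T' : heckeAlgebra N 2 ∅) :
          Module.End ℂ (CuspForm (Gamma0 N) 2)) f)) 1 = _
        rw [Subalgebra.coe_add, LinearMap.add_apply, bd_qCoeff_add]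
      map_smul' := fun c T => by
        show qCoeff (⇑(((c • T : heckeAlgebra N 2 ∅) :
          Module.End ℂ (CuspForm (Gamma0 N) 2)) f)) 1 = _
        rw [Subalgebra.coe_smul, LinearMap.smul_apply, bd_qCoeff_zsmul]
        simp }
  obtain ⟨D, hD0, hD⟩ := bd_common_denominator φ
  refine ⟨D, hD0, fun n => ?_⟩
  rcases Nat.eq_zero_or_pos n with h0 | h0
  · subst h0
    exact ⟨0, by rw [bd_qCoeff_zero_index]; simp⟩
  · obtain ⟨T, hT, hT'⟩ := bd_exists_hecke_coeff (N := N) n h0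
    have hφ : φ ⟨T, hT⟩ = qCoeff (⇑f) n := hT' f
    obtain ⟨m, hm⟩ := hD ⟨T, hT⟩ (by rw [hφ]; exact hf n)
    exact ⟨m, by rw [bd_qCoeff_smul, ← hφ, hm]⟩

/-- **Bounded denominators**: a rational structure on `S₂(Γ₀(N))` yields an integral one. -/
theorem hasIntegralStructure_of_rational (N : ℕ) [NeZero N]
    (h : Submodule.span ℂ {f : CuspForm (Gamma0 N) 2 | ∀ n, ∃ r : ℚ, qCoeff (⇑f) n = (r : ℂ)}
      = ⊤) :
    CuspForm.HasIntegralStructure N 2 := by
  unfold CuspForm.HasIntegralStructure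
  rw [eq_top_iff, ← h]
  refine Submodule.span_le.mpr fun f hf => ?_
  obtain ⟨D, hD0, hD⟩ := bd_exists_int_multiple f hf
  have hmem : (D : ℂ) • f ∈ CuspForm.intLattice N 2 := Submodule.subset_span hD
  have hDC : (D : ℂ) ≠ 0 := by exact_mod_cast hD0
  have hf' : f = (D : ℂ)⁻¹ • ((D : ℂ) • f) := by
    rw [smul_smul, inv_mul_cancel₀ hDC, one_smul]
  rw [hf']
  exact Submodule.smul_mem _ _ (Submodule.subset_span hmem)

end Fermat.Agent.S23x
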