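import Fermat.Agent.S23x.AutDescent
import Fermat.Agent.S23x.BoundedDenom
import Fermat.Prelude.Thm_ModularForm_sturm_bound_Gamma0

/-!
# S23 from Galois-stability of the space of `q`-expansions

If the set of `q`-expansions of weight two cusp forms on `Γ₀(N)` is stable under the
coefficientwise action of `Aut(ℂ)`, then `S₂(Γ₀(N))` has an integral structure.
-/

set_option autoImplicit false
open CuspForm ModularFormClass UpperHalfPlane CongruenceSubgroup

namespace Fermat.Agent.S23x

variable {N : ℕ}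

/-- a cusp form all of whose `q`-coefficients vanish is zero -/
theorem gs_eq_zero_of_qCoeff_eq_zero [NeZero N] (f : CuspForm (Gamma0 N) 2)
    (h : ∀ n, qCoeff (⇑f) n = 0) : f = 0 := by
  have h0 := ModularForm.sturm_bound_Gamma0 N (ModularFormClass.modularForm f)
    (fun n _ => h n)
  ext z
  have := DFunLike.congr_fun h0 z
  simpa using this

/-- the `q`-expansion map as a linear map -/
noncomputable def gsQ (N : ℕ) : CuspForm (Gamma0 N) 2 →ₗ[ℂ] (ℕ → ℂ) where
  toFun f := fun n => qCoeff (⇑f) n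
  map_add' f g := by ext n; exact bd_qCoeff_add f g n
  map_smul' c f := by ext n; exact bd_qCoeff_smul c f n

theorem gsQ_apply (f : CuspForm (Gamma0 N) 2) (n : ℕ) : gsQ N f n = qCoeff (⇑f) n := rfl

theorem gsQ_injective [NeZero N] : Function.Injective (gsQ N) := by
  rw [← LinearMap.ker_eq_bot, LinearMap.ker_eq_bot']
  intro f hf
  exact gs_eq_zero_of_qCoeff_eq_zero f (fun n => congrFun hf n)

/-- the space of weight two cusp forms on `Γ₀(N)` is finite dimensional (Sturm bound) -/
theorem gs_finiteDimensional [NeZero N] : FiniteDimensional ℂ (CuspForm (Gamma0 N) 2) := by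
  let B : ℕ := ((2 : ℤ) * ((Gamma0 N).index : ℤ)).toNat / 12
  let P : CuspForm (Gamma0 N) 2 →ₗ[ℂ] (Fin (B + 1) → ℂ) :=
    (LinearMap.funLeft ℂ ℂ (fun i : Fin (B + 1) => (i : ℕ))).comp (gsQ N)
  have hP : Function.Injective P := by
    rw [← LinearMap.ker_eq_bot, LinearMap.ker_eq_bot']
    intro f hf
    have h0 := ModularForm.sturm_bound_Gamma0 N (ModularFormClass.modularForm f)
      (fun n hn => by
        have := congrFun hf ⟨n, Nat.lt_succ_of_le hn⟩
        exact this)
    ext z
    have := DFunLike.congr_fun h0 z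
    simpa using this
  exact FiniteDimensional.of_injective P hP

/-- **S23 from Galois stability.** -/
theorem hasIntegralStructure_of_galois_stable (N : ℕ) [NeZero N]
    (hgal : ∀ (f : CuspForm (Gamma0 N) 2) (σ : ℂ ≃+* ℂ), ∃ g : CuspForm (Gamma0 N) 2,
      ∀ n, qCoeff (⇑g) n = σ (qCoeff (⇑f) n)) :
    CuspForm.HasIntegralStructure N 2 := by
  apply hasIntegralStructure_of_rational
  have hfd : FiniteDimensional ℂ (CuspForm (Gamma0 N) 2) := gs_finiteDimensional
  let W : Submodule ℂ (ℕ → ℂ) := LinearMap.range (gsQ N)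
  have hWfd : FiniteDimensional ℂ W := by
    show FiniteDimensional ℂ (LinearMap.range (gsQ N))
    infer_instance
  have hW : ∀ σ : ℂ ≃+* ℂ, ∀ w ∈ W, (fun i => σ (w i)) ∈ W := by
    rintro σ _ ⟨f, rfl⟩
    obtain ⟨g, hg⟩ := hgal f σ
    exact ⟨g, funext fun n => hg n⟩
  have hdesc := ad_descent W hW
  rw [eq_top_iff]
  intro f _
  have hf : gsQ N f ∈ W := ⟨f, rfl⟩
  have h1 := hdesc hf
  have h2 : {w | w ∈ W ∧ ∀ i, ∃ r : ℚ, w i = (r : ℂ)} ⊆
      (gsQ N) '' {f : CuspForm (Gamma0 N) 2 | ∀ n, ∃ r : ℚ, qCoeff (⇑f) n = (r : ℂ)} := by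
    rintro _ ⟨⟨g, rfl⟩, hr⟩
    exact ⟨g, hr, rfl⟩
  have h3 := Submodule.span_mono (R := ℂ) h2 h1
  rw [Submodule.span_image] at h3
  obtain ⟨f', hf', hff'⟩ := h3
  rw [gsQ_injective hff'] at hf'
  exact hf'

end Fermat.Agent.S23x
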