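import Fermat.Agent.S23x.Defs
import Fermat.Agent.S23x.GalStable

/-!
# S23 project: final bridge

`CuspForm.HasIntegralStructure N 2` from the Galois-conjugation statement of module M14
(`exists_isCF_sigP` with `k = 2`), in exactly the shape of `Spec.lean`.
This replaces modules M15 (finite dimensionality), M16 (rational span) and M18 (final algebra).
-/

set_option autoImplicit false

namespace Fermat.Agent.S23x

open UpperHalfPlane ModularFormClass CongruenceSubgroup

/-- **S23 from M14.**  The hypothesis is verbatim the statement `exists_isCF_sigP` of `Spec.lean`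
specialised to weight `2`. -/
theorem hasIntegralStructure_of_exists_isCF_sigP (N : ℕ) [NeZero N]
    (h14 : ∀ (σ : ℂ ≃+* ℂ) {f : ℍ → ℂ}, IsCF N 2 f →
      ∃ f', IsCF N 2 f' ∧ qExpansion 1 f' = sigP σ (qExpansion 1 f)) :
    CuspForm.HasIntegralStructure N 2 := by
  apply hasIntegralStructure_of_galois_stable
  intro F σ
  obtain ⟨f', ⟨G, hG⟩, hq⟩ := h14 σ (f := ⇑F) ⟨F, rfl⟩
  refine ⟨G, fun n => ?_⟩
  unfold qCoeff
  rw [hG, hq]
  simp [sigP]

end Fermat.Agent.S23x
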