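/-
S23 project, module M03_QRing: `qL` is an injective ring homomorphism on "nice" functions
(holomorphic on `ℍ`, `1`-periodic, bounded at `i∞`); compatibility of `sigL`/`sigP` with the
coercion from power series.
-/
import Fermat.Agent.S23x.Defs
import Fermat.Prelude.Thm_CongruenceSubgroup_one_mem_strictPeriods_Gamma0

set_option autoImplicit false

namespace Fermat.Agent.S23x

open UpperHalfPlane ModularForm ModularFormClass CongruenceSubgroup
open scoped MatrixGroups Manifold

/-! ### periodicity and analyticity of the cusp function -/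

theorem IsNice.periodic_comp_ofComplex {f : ℍ → ℂ} (hf : IsNice f) :
    Function.Periodic (f ∘ ofComplex) (1 : ℝ) := by
  intro w
  by_cases hw : 0 < w.im
  · have h1 : 0 < (w + (1 : ℝ)).im := by simpa using hw
    simp only [Function.comp_apply, ofComplex_apply_of_im_pos h1, ofComplex_apply_of_im_pos hw]
    have h2 : (⟨w + (1 : ℝ), h1⟩ : ℍ) = (1 : ℝ) +ᵥ (⟨w, hw⟩ : ℍ) := by
      ext
      simp [add_comm]
    rw [h2]
    exact hf.2.1 _
  · have hw' : w.im ≤ 0 := not_lt.mp hw
    have h1 : (w + ((1 : ℝ) : ℂ)).im ≤ 0 := by simpa using hw'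
    show f (ofComplex (w + ((1 : ℝ) : ℂ))) = f (ofComplex w)
    rw [ofComplex_apply_of_im_nonpos h1, ofComplex_apply_of_im_nonpos hw']

theorem IsNice.analyticAt_cuspFunction {f : ℍ → ℂ} (hf : IsNice f) :
    AnalyticAt ℂ (cuspFunction 1 f) 0 :=
  analyticAt_cuspFunction_zero one_pos hf.periodic_comp_ofComplex hf.1 hf.2.2

/-! ### modular forms are nice -/

theorem IsMF.isNice {N : ℕ} [NeZero N] {k : ℤ} {f : ℍ → ℂ} (h : IsMF N k f) : IsNice f := by
  obtain ⟨F, rfl⟩ := h
  have hΓ := one_mem_strictPeriods_Gamma0 N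
  have : Fact (IsCusp OnePoint.infty (Subgroup.map (Matrix.SpecialLinearGroup.mapGL ℝ) (Gamma0 N))) :=
    ⟨Subgroup.isCusp_of_mem_strictPeriods one_pos hΓ⟩
  refine ⟨ModularFormClass.holo F, fun z => ?_, ModularFormClass.bdd_at_infty F⟩
  exact SlashInvariantForm.vAdd_apply_of_mem_strictPeriods F z hΓ

theorem IsMF1.isNice {k : ℤ} {f : ℍ → ℂ} (h : IsMF1 k f) : IsNice f := by
  obtain ⟨F, rfl⟩ := h
  have hΓ : (1 : ℝ) ∈ (𝒮ℒ).strictPeriods := one_mem_strictPeriods_SL
  have : Fact (IsCusp OnePoint.infty 𝒮ℒ) :=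
    ⟨Subgroup.isCusp_of_mem_strictPeriods one_pos hΓ⟩
  refine ⟨ModularFormClass.holo F, fun z => ?_, ModularFormClass.bdd_at_infty F⟩
  exact SlashInvariantForm.vAdd_apply_of_mem_strictPeriods F z hΓ

/-! ### closure properties of nice functions -/

theorem IsNice.mul {f g : ℍ → ℂ} (hf : IsNice f) (hg : IsNice g) : IsNice (f * g) :=
  ⟨hf.1.mul hg.1, fun z => by simp only [Pi.mul_apply, hf.2.1 z, hg.2.1 z], hf.2.2.mul hg.2.2⟩

theorem IsNice.add {f g : ℍ → ℂ} (hf : IsNice f) (hg : IsNice g) : IsNice (f + g) :=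
  ⟨hf.1.add hg.1, fun z => by simp only [Pi.add_apply, hf.2.1 z, hg.2.1 z], hf.2.2.add hg.2.2⟩

theorem isNice_const (c : ℂ) : IsNice (fun _ => c) :=
  ⟨mdifferentiable_const, fun _ => rfl, Filter.const_boundedAtFilter _ c⟩

theorem IsNice.smul {f : ℍ → ℂ} (hf : IsNice f) (c : ℂ) : IsNice (c • f) := by
  have h : c • f = (fun _ => c) * f := by
    ext z
    simp
  rw [h]
  exact (isNice_const c).mul hf

theorem IsNice.pow {f : ℍ → ℂ} (hf : IsNice f) (n : ℕ) : IsNice (f ^ n) := by
  induction n with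
  | zero =>
    have h : f ^ 0 = fun _ => (1 : ℂ) := by
      ext z
      simp
    rw [h]
    exact isNice_const 1
  | succ n ih =>
    rw [pow_succ]
    exact ih.mul hf

theorem isNice_sum {ι : Type} (s : Finset ι) (f : ι → ℍ → ℂ) (h : ∀ i ∈ s, IsNice (f i)) :
    IsNice (∑ i ∈ s, f i) := by
  classical
  induction s using Finset.induction_on with
  | empty =>
    rw [Finset.sum_empty]
    exact isNice_const 0
  | insert a s ha ih =>
    rw [Finset.sum_insert ha]
    exact (h a (Finset.mem_insert_self a s)).add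
      (ih fun i hi => h i (Finset.mem_insert_of_mem hi))

/-! ### `qL` is a ring homomorphism on nice functions -/

theorem qL_mul {f g : ℍ → ℂ} (hf : IsNice f) (hg : IsNice g) : qL (f * g) = qL f * qL g := by
  unfold qL
  rw [qExpansion_mul hf.analyticAt_cuspFunction hg.analyticAt_cuspFunction]
  push_cast
  rfl

theorem qL_add {f g : ℍ → ℂ} (hf : IsNice f) (hg : IsNice g) : qL (f + g) = qL f + qL g := by
  unfold qL
  rw [qExpansion_add hf.analyticAt_cuspFunction hg.analyticAt_cuspFunction]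
  push_cast
  rfl

theorem qL_const (c : ℂ) : qL (fun _ => c) = algebraMap ℂ LS c := by
  have h1 : (fun _ : ℍ => c) = c • (1 : ℍ → ℂ) := by
    ext z
    simp
  have h2 : AnalyticAt ℂ (cuspFunction 1 (1 : ℍ → ℂ)) 0 := by
    have h3 : (1 : ℍ → ℂ) = fun _ => (1 : ℂ) := rfl
    rw [h3]
    exact (isNice_const 1).analyticAt_cuspFunction
  unfold qL
  rw [h1, qExpansion_smul h2, qExpansion_one]
  rw [HahnSeries.algebraMap_apply']
  congr 1
  ext n
  simp [PowerSeries.coeff_one, PowerSeries.coeff_C]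

theorem qr_algebraMap_eq_C (c : ℂ) : algebraMap ℂ LS c = HahnSeries.C c := by
  rw [HahnSeries.algebraMap_apply']
  have h : algebraMap ℂ (PowerSeries ℂ) c = PowerSeries.C c := by simp
  rw [h, HahnSeries.ofPowerSeries_C]

theorem qL_smul {f : ℍ → ℂ} (hf : IsNice f) (c : ℂ) : qL (c • f) = c • qL f := by
  have h : c • f = (fun _ => c) * f := by
    ext z
    simp
  rw [h, qL_mul (isNice_const c) hf, qL_const, qr_algebraMap_eq_C, HahnSeries.C_mul_eq_smul]

theorem qL_pow {f : ℍ → ℂ} (hf : IsNice f) (n : ℕ) : qL (f ^ n) = qL f ^ n := by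
  induction n with
  | zero =>
    have h : f ^ 0 = fun _ => (1 : ℂ) := by
      ext z
      simp
    rw [h, qL_const, map_one, pow_zero]
  | succ n ih =>
    rw [pow_succ, qL_mul (hf.pow n) hf, ih, pow_succ]

theorem qL_sum {ι : Type} (s : Finset ι) (f : ι → ℍ → ℂ) (h : ∀ i ∈ s, IsNice (f i)) :
    qL (∑ i ∈ s, f i) = ∑ i ∈ s, qL (f i) := by
  classical
  induction s using Finset.induction_on with
  | empty =>
    rw [Finset.sum_empty, Finset.sum_empty]
    have h0 : (0 : ℍ → ℂ) = fun _ => (0 : ℂ) := rfl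
    rw [h0, qL_const, map_zero]
  | insert a s ha ih =>
    rw [Finset.sum_insert ha, Finset.sum_insert ha,
      qL_add (h a (Finset.mem_insert_self a s))
        (isNice_sum s f fun i hi => h i (Finset.mem_insert_of_mem hi)),
      ih fun i hi => h i (Finset.mem_insert_of_mem hi)]

theorem qL_eq_zero_iff {f : ℍ → ℂ} (hf : IsNice f) : qL f = 0 ↔ f = 0 := by
  unfold qL
  rw [← qExpansion_eq_zero_iff one_pos hf.periodic_comp_ofComplex hf.1 hf.2.2]
  constructor
  · intro h
    have h0 : ((0 : PowerSeries ℂ) : LaurentSeries ℂ) = 0 :=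
      map_zero (HahnSeries.ofPowerSeries ℤ ℂ)
    rw [← h0] at h
    exact HahnSeries.ofPowerSeries_injective h
  · intro h
    rw [h]
    exact map_zero (HahnSeries.ofPowerSeries ℤ ℂ)

theorem qL_injective {f g : ℍ → ℂ} (hf : IsNice f) (hg : IsNice g) (h : qL f = qL g) : f = g := by
  have hneg : IsNice ((-1 : ℂ) • g) := hg.smul (-1)
  have h1 : qL (f + (-1 : ℂ) • g) = 0 := by
    rw [qL_add hf hneg, qL_smul hg, h]
    ext n
    simp
  have h2 := (qL_eq_zero_iff (hf.add hneg)).mp h1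
  ext z
  have h3 := congrFun h2 z
  simp only [Pi.add_apply, Pi.smul_apply, smul_eq_mul, Pi.zero_apply] at h3
  linear_combination h3

/-! ### `sigL` and `sigP` -/

theorem sigL_coe (σ : ℂ ≃+* ℂ) (p : PowerSeries ℂ) :
    sigL σ ((p : PowerSeries ℂ) : LaurentSeries ℂ) =
      ((sigP σ p : PowerSeries ℂ) : LaurentSeries ℂ) := by
  unfold sigL
  exact IsFractionRing.ringEquivOfRingEquiv_algebraMap (sigP σ) p

theorem sigL_algebraMap (σ : ℂ ≃+* ℂ) (c : ℂ) :
    sigL σ (algebraMap ℂ LS c) = algebraMap ℂ LS (σ c) := by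
  have h : ∀ d : ℂ, algebraMap ℂ LS d = ((PowerSeries.C d : PowerSeries ℂ) : LaurentSeries ℂ) := by
    intro d
    rw [HahnSeries.algebraMap_apply']
    congr 1
  rw [h, h, sigL_coe]
  congr 1
  unfold sigP
  ext n
  simp [PowerSeries.coeff_C]

theorem sigP_eq_self_of_isRatPS (σ : ℂ ≃+* ℂ) {p : PowerSeries ℂ} (hp : IsRatPS p) :
    sigP σ p = p := by
  ext n
  obtain ⟨r, hr⟩ := hp n
  unfold sigP
  simp [hr]

end Fermat.Agent.S23x
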