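/-
S23 project, module M05 (LevelOne): the ring of level-one modular forms is `ℂ[E₄, E₆]`,
rationality of the `q`-expansions of `E₄`, `E₆`, `Δ`, Galois conjugates of level-one forms,
and ratios of level-one forms of equal weight lie in `ℂ(j)`.
-/
import Fermat.Agent.S23x.Defs
import Fermat.Agent.S23x.QRing

set_option autoImplicit false

namespace Fermat.Agent.S23x

open UpperHalfPlane ModularForm ModularFormClass CongruenceSubgroup EisensteinSeries
open scoped MatrixGroups Manifold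

/-! ### Isobaric polynomials in `E₄`, `E₆` -/

/-- `f` is an isobaric polynomial of weight `k` in `E₄`, `E₆`. -/
def m05_Good (k : ℤ) (f : ℍ → ℂ) : Prop :=
  ∃ P : MvPolynomial (Fin 2) ℂ,
    (∀ m ∈ P.support, (4 * (m 0 : ℤ) + 6 * (m 1 : ℤ)) = k) ∧
    ∀ z : ℍ, f z = MvPolynomial.eval ![E₄ z, E₆ z] P

theorem m05_good_zero (k : ℤ) : m05_Good k 0 :=
  ⟨0, by simp, by simp⟩

theorem m05_good_add {k : ℤ} {f g : ℍ → ℂ} (hf : m05_Good k f) (hg : m05_Good k g) :
    m05_Good k (f + g) := by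
  obtain ⟨P, hP, hPf⟩ := hf
  obtain ⟨Q, hQ, hQg⟩ := hg
  refine ⟨P + Q, fun m hm => ?_, fun z => by simp [hPf z, hQg z]⟩
  rcases Finset.mem_union.mp (MvPolynomial.support_add hm) with h | h
  · exact hP m h
  · exact hQ m h

theorem m05_good_smul {k : ℤ} {f : ℍ → ℂ} (c : ℂ) (hf : m05_Good k f) :
    m05_Good k (c • f) := by
  obtain ⟨P, hP, hPf⟩ := hf
  refine ⟨c • P, fun m hm => hP m (MvPolynomial.support_smul hm), fun z => ?_⟩
  simp [hPf z, MvPolynomial.smul_eval]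

theorem m05_good_mul {k l : ℤ} {f g : ℍ → ℂ} (hf : m05_Good k f) (hg : m05_Good l g) :
    m05_Good (k + l) (f * g) := by
  classical
  obtain ⟨P, hP, hPf⟩ := hf
  obtain ⟨Q, hQ, hQg⟩ := hg
  refine ⟨P * Q, fun m hm => ?_, fun z => by simp [hPf z, hQg z]⟩
  obtain ⟨m₁, h₁, m₂, h₂, rfl⟩ := Finset.mem_add.mp (MvPolynomial.support_mul P Q hm)
  have := hP m₁ h₁
  have := hQ m₂ h₂
  simp only [Finsupp.add_apply, Nat.cast_add]
  linarith

theorem m05_good_cast {k l : ℤ} {f : ℍ → ℂ} (h : k = l) (hf : m05_Good k f) : m05_Good l f :=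
  h ▸ hf

theorem m05_good_const (c : ℂ) : m05_Good 0 (fun _ => c) := by
  classical
  refine ⟨MvPolynomial.C c, fun m hm => ?_, fun z => by simp⟩
  have : m = 0 := by
    have h := MvPolynomial.support_monomial_subset (R := ℂ) (σ := Fin 2) (s := 0) (a := c) hm
    simpa using h
  subst this
  simp

theorem m05_good_one : m05_Good 0 (1 : ℍ → ℂ) := m05_good_const 1

theorem m05_good_pow {k : ℤ} {f : ℍ → ℂ} (hf : m05_Good k f) (n : ℕ) :
    m05_Good (n * k) (f ^ n) := by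
  induction n with
  | zero => simpa using m05_good_one
  | succ n ih =>
    rw [pow_succ]
    exact m05_good_cast (by push_cast; ring) (m05_good_mul ih hf)

theorem m05_good_E4 : m05_Good 4 (⇑E₄) := by
  classical
  refine ⟨MvPolynomial.X 0, fun m hm => ?_, fun z => by simp⟩
  rw [MvPolynomial.support_X, Finset.mem_singleton] at hm
  subst hm
  simp

theorem m05_good_E6 : m05_Good 6 (⇑E₆) := by
  classical
  refine ⟨MvPolynomial.X 1, fun m hm => ?_, fun z => by simp⟩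
  rw [MvPolynomial.support_X, Finset.mem_singleton] at hm
  subst hm
  simp

theorem m05_good_discriminant : m05_Good 12 ModularForm.discriminant := by
  have h1 : m05_Good 12 ((⇑E₄) ^ 3) := m05_good_cast (by norm_num) (m05_good_pow m05_good_E4 3)
  have h2 : m05_Good 12 ((⇑E₆) ^ 2) := m05_good_cast (by norm_num) (m05_good_pow m05_good_E6 2)
  have h3 := m05_good_smul (1 / 1728 : ℂ) (m05_good_add h1 (m05_good_smul (-1 : ℂ) h2))
  convert h3 using 1
  ext z
  simp only [Pi.smul_apply, Pi.add_apply, Pi.pow_apply, smul_eq_mul]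
  rw [ModularForm.discriminant_eq_E₄_cube_sub_E₆_sq z]
  ring

/-! ### The structure theorem -/

theorem m05_exists_exponents {k : ℤ} (hk : 4 ≤ k) (he : Even k) :
    ∃ a b : ℕ, (a : ℤ) * 4 + (b : ℤ) * 6 = k := by
  obtain ⟨r, hr⟩ := he
  rcases Int.even_or_odd r with ⟨s, hs⟩ | ⟨s, hs⟩
  · exact ⟨s.toNat, 0, by omega⟩
  · exact ⟨(s - 1).toNat, 1, by omega⟩

theorem m05_coe_mono (a b : ℕ) :
    ⇑((E₄.pow a).mul (E₆.pow b)) = (⇑E₄) ^ a * (⇑E₆) ^ b := by
  simp [ModularForm.coe_mul, ModularForm.coe_pow]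

theorem m05_qExpansion_mono_coeff_zero (a b : ℕ) :
    (qExpansion 1 ((E₄.pow a).mul (E₆.pow b))).coeff 0 = 1 := by
  have h4 : PowerSeries.constantCoeff (qExpansion 1 ⇑E₄) = 1 := by
    rw [← PowerSeries.coeff_zero_eq_constantCoeff_apply]
    exact E_qExpansion_coeff_zero _ ⟨2, rfl⟩
  have h6 : PowerSeries.constantCoeff (qExpansion 1 ⇑E₆) = 1 := by
    rw [← PowerSeries.coeff_zero_eq_constantCoeff_apply]
    exact E_qExpansion_coeff_zero _ ⟨3, rfl⟩
  rw [ModularForm.qExpansion_mul one_pos one_mem_strictPeriods_SL,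
    ModularForm.qExpansion_pow one_pos one_mem_strictPeriods_SL,
    ModularForm.qExpansion_pow one_pos one_mem_strictPeriods_SL,
    PowerSeries.coeff_zero_eq_constantCoeff, map_mul, map_pow, map_pow, h4, h6]
  simp

theorem m05_good_of_modularForm :
    ∀ (n : ℕ) (k : ℤ), k < n → ∀ F : ModularForm 𝒮ℒ k, m05_Good k (⇑F) := by
  intro n
  induction n with
  | zero =>
    intro k hk F
    rw [levelOne_neg_weight_eq_zero (by exact_mod_cast hk) F]
    exact m05_good_zero k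
  | succ n ih =>
    intro k hk F
    rcases lt_or_ge k 0 with hneg | hnonneg
    · rw [levelOne_neg_weight_eq_zero hneg F]
      exact m05_good_zero k
    rcases Int.even_or_odd k with he | ho
    swap
    · rw [ModularForm.levelOne_odd_weight_eq_zero ho F]
      exact m05_good_zero k
    rcases (show k = 0 ∨ k = 2 ∨ 4 ≤ k by obtain ⟨r, hr⟩ := he; omega) with rfl | rfl | h4
    · obtain ⟨c, hc⟩ := levelOne_weight_zero_const F
      rw [hc]
      exact m05_good_const c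
    · have : F = 0 := rank_zero_iff_forall_zero.mp levelOne_weight_two_rank_zero F
      rw [this]
      exact m05_good_zero 2
    · obtain ⟨a, b, hab⟩ := m05_exists_exponents h4 he
      subst hab
      set G : ModularForm 𝒮ℒ ((a : ℤ) * 4 + (b : ℤ) * 6) := (E₄.pow a).mul (E₆.pow b) with hG
      set c : ℂ := (qExpansion 1 F).coeff 0 with hc
      have hG0 : (qExpansion 1 G).coeff 0 = 1 := m05_qExpansion_mono_coeff_zero a b
      have h0 : (qExpansion 1 (⇑(F - c • G))).coeff 0 = 0 := by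
        rw [FunLike.coe_sub, ModularForm.qExpansion_sub one_pos one_mem_strictPeriods_SL,
          FunLike.coe_smul, ModularForm.qExpansion_smul one_pos one_mem_strictPeriods_SL, map_sub,
          PowerSeries.coeff_smul, hG0, smul_eq_mul, mul_one, sub_self]
      set H := CuspForm.discriminantEquiv (ModularForm.toCuspForm (F - c • G) h0) with hH
      have hmul : ModularForm.discriminant * (⇑H) = ⇑F - c • ⇑G := by
        rw [hH, ModularForm.discriminant_mul_discriminantEquiv]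
        ext z
        simp [ModularForm.toCuspForm_apply]
      have hF : ⇑F = ModularForm.discriminant * (⇑H) + c • ⇑G := by
        rw [hmul]; ring
      have hHgood : m05_Good ((a : ℤ) * 4 + (b : ℤ) * 6 - 12) (⇑H) := ih _ (by omega) H
      have hGgood : m05_Good ((a : ℤ) * 4 + (b : ℤ) * 6) (⇑G) := by
        rw [hG, m05_coe_mono]
        exact m05_good_mul (m05_good_pow m05_good_E4 a) (m05_good_pow m05_good_E6 b)
      rw [hF]
      exact m05_good_add (m05_good_cast (by ring) (m05_good_mul m05_good_discriminant hHgood))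
        (m05_good_smul c hGgood)

/-- structure theorem (by induction on the weight, dividing by Δ) -/
theorem exists_mvPolynomial_of_isMF1 {k : ℤ} {f : ℍ → ℂ} (h : IsMF1 k f) :
    ∃ P : MvPolynomial (Fin 2) ℂ,
      (∀ m ∈ P.support, (4 * (m 0 : ℤ) + 6 * (m 1 : ℤ)) = k) ∧
      ∀ z : ℍ, f z = MvPolynomial.eval ![E₄ z, E₆ z] P := by
  obtain ⟨F, rfl⟩ := h
  exact m05_good_of_modularForm (k.toNat + 1) k (by omega) F

/-! ### Evaluation of polynomials at `E₄`, `E₆` -/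

/-- evaluation of a polynomial at `(E₄, E₆)` as a function on `ℍ`. -/
noncomputable def m05_evF (P : MvPolynomial (Fin 2) ℂ) : ℍ → ℂ :=
  fun z => MvPolynomial.eval ![E₄ z, E₆ z] P

theorem m05_evF_eq_sum (P : MvPolynomial (Fin 2) ℂ) :
    m05_evF P =
      ∑ m ∈ P.support, (MvPolynomial.coeff m P) • ((⇑E₄) ^ (m 0) * (⇑E₆) ^ (m 1)) := by
  ext z
  simp only [m05_evF, Finset.sum_apply, Pi.smul_apply, Pi.mul_apply, Pi.pow_apply, smul_eq_mul]
  rw [MvPolynomial.eval_eq']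
  refine Finset.sum_congr rfl fun m _ => ?_
  rw [Fin.prod_univ_two]
  simp

theorem m05_isMF1_E4 : IsMF1 4 (⇑E₄) := ⟨E₄, rfl⟩
theorem m05_isMF1_E6 : IsMF1 6 (⇑E₆) := ⟨E₆, rfl⟩

theorem m05_isNice_mono (a b : ℕ) : IsNice ((⇑E₄) ^ a * (⇑E₆) ^ b) :=
  (m05_isMF1_E4.isNice.pow a).mul (m05_isMF1_E6.isNice.pow b)

theorem m05_qL_mono (a b : ℕ) : qL ((⇑E₄) ^ a * (⇑E₆) ^ b) = E4L ^ a * E6L ^ b := by
  rw [qL_mul (m05_isMF1_E4.isNice.pow a) (m05_isMF1_E6.isNice.pow b),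
    qL_pow m05_isMF1_E4.isNice, qL_pow m05_isMF1_E6.isNice]
  rfl

theorem m05_isNice_evF (P : MvPolynomial (Fin 2) ℂ) : IsNice (m05_evF P) := by
  rw [m05_evF_eq_sum]
  exact isNice_sum _ _ fun m _ => (m05_isNice_mono _ _).smul _

theorem m05_qL_evF (P : MvPolynomial (Fin 2) ℂ) :
    qL (m05_evF P) =
      ∑ m ∈ P.support, (MvPolynomial.coeff m P) • (E4L ^ (m 0) * E6L ^ (m 1)) := by
  rw [m05_evF_eq_sum, qL_sum _ _ fun m _ => (m05_isNice_mono _ _).smul _]
  refine Finset.sum_congr rfl fun m _ => ?_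
  rw [qL_smul (m05_isNice_mono _ _), m05_qL_mono]

theorem m05_isMF1_zero (k : ℤ) : IsMF1 k 0 := ⟨0, rfl⟩

theorem m05_isMF1_add {k : ℤ} {f g : ℍ → ℂ} (hf : IsMF1 k f) (hg : IsMF1 k g) :
    IsMF1 k (f + g) := by
  obtain ⟨F, rfl⟩ := hf
  obtain ⟨G, rfl⟩ := hg
  exact ⟨F + G, rfl⟩

theorem m05_isMF1_smul {k : ℤ} {f : ℍ → ℂ} (c : ℂ) (hf : IsMF1 k f) : IsMF1 k (c • f) := by
  obtain ⟨F, rfl⟩ := hf
  exact ⟨c • F, rfl⟩

theorem m05_isMF1_sum {k : ℤ} {ι : Type*} (s : Finset ι) (f : ι → ℍ → ℂ)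
    (h : ∀ i ∈ s, IsMF1 k (f i)) : IsMF1 k (∑ i ∈ s, f i) := by
  classical
  induction s using Finset.induction_on with
  | empty => simpa using m05_isMF1_zero k
  | insert a s ha ih =>
    rw [Finset.sum_insert ha]
    exact m05_isMF1_add (h a (Finset.mem_insert_self a s))
      (ih fun i hi => h i (Finset.mem_insert_of_mem hi))

theorem m05_isMF1_mono {k : ℤ} (a b : ℕ) (h : 4 * (a : ℤ) + 6 * (b : ℤ) = k) :
    IsMF1 k ((⇑E₄) ^ a * (⇑E₆) ^ b) :=
  ⟨ModularForm.mcast (by rw [← h]; ring) ((E₄.pow a).mul (E₆.pow b)), by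
    rw [ModularForm.coe_mcast, m05_coe_mono]⟩

/-- an isobaric polynomial of weight `k` in `E₄`, `E₆` is a level-one modular form of weight `k`. -/
theorem m05_isMF1_evF {k : ℤ} (P : MvPolynomial (Fin 2) ℂ)
    (hP : ∀ m ∈ P.support, (4 * (m 0 : ℤ) + 6 * (m 1 : ℤ)) = k) : IsMF1 k (m05_evF P) := by
  rw [m05_evF_eq_sum]
  exact m05_isMF1_sum _ _ fun m hm => m05_isMF1_smul _ (m05_isMF1_mono _ _ (hP m hm))

/-! ### Rationality of the `q`-expansions of `E₄`, `E₆` -/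

theorem m05_isRatPS_E {k : ℕ} (hk : 3 ≤ k) (hk2 : Even k) : IsRatPS (qExpansion 1 (⇑(E hk))) := by
  intro n
  rw [E_qExpansion_coeff hk hk2 n]
  by_cases hn : n = 0
  · exact ⟨1, by simp [hn]⟩
  · refine ⟨-(2 * k / bernoulli k : ℚ) * (ArithmeticFunction.sigma (k - 1) n : ℚ), ?_⟩
    rw [if_neg hn]
    push_cast
    rfl

theorem isRatPS_E4 : IsRatPS (qExpansion 1 (⇑E₄)) := m05_isRatPS_E _ ⟨2, rfl⟩
theorem isRatPS_E6 : IsRatPS (qExpansion 1 (⇑E₆)) := m05_isRatPS_E _ ⟨3, rfl⟩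

theorem m05_sigL_E4L (σ : ℂ ≃+* ℂ) : sigL σ E4L = E4L := by
  unfold E4L qL
  rw [sigL_coe, sigP_eq_self_of_isRatPS σ isRatPS_E4]

theorem m05_sigL_E6L (σ : ℂ ≃+* ℂ) : sigL σ E6L = E6L := by
  unfold E6L qL
  rw [sigL_coe, sigP_eq_self_of_isRatPS σ isRatPS_E6]

theorem m05_smul_def (c : ℂ) (x : LS) : c • x = algebraMap ℂ LS c * x := by
  rw [qr_algebraMap_eq_C, HahnSeries.C_mul_eq_smul]

theorem m05_sigL_smul (σ : ℂ ≃+* ℂ) (c : ℂ) (x : LS) : sigL σ (c • x) = σ c • sigL σ x := by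
  rw [m05_smul_def, m05_smul_def, map_mul, sigL_algebraMap]

/-! ### Rationality of the `q`-expansion of `Δ` -/

theorem m05_isRatPS_iff (p : PowerSeries ℂ) :
    IsRatPS p ↔ ∃ P : PowerSeries ℚ, PowerSeries.map (algebraMap ℚ ℂ) P = p := by
  constructor
  · intro h
    choose r hr using h
    exact ⟨PowerSeries.mk r, by ext n; simp [hr n]⟩
  · rintro ⟨P, rfl⟩ n
    exact ⟨PowerSeries.coeff n P, by simp⟩

theorem m05_isRatPS_mul {p q : PowerSeries ℂ} (hp : IsRatPS p) (hq : IsRatPS q) :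
    IsRatPS (p * q) := by
  rw [m05_isRatPS_iff] at *
  obtain ⟨P, rfl⟩ := hp
  obtain ⟨Q, rfl⟩ := hq
  exact ⟨P * Q, map_mul _ _ _⟩

theorem m05_isRatPS_sub {p q : PowerSeries ℂ} (hp : IsRatPS p) (hq : IsRatPS q) :
    IsRatPS (p - q) := by
  rw [m05_isRatPS_iff] at *
  obtain ⟨P, rfl⟩ := hp
  obtain ⟨Q, rfl⟩ := hq
  exact ⟨P - Q, map_sub _ _ _⟩

theorem m05_isRatPS_add {p q : PowerSeries ℂ} (hp : IsRatPS p) (hq : IsRatPS q) :
    IsRatPS (p + q) := by
  rw [m05_isRatPS_iff] at *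
  obtain ⟨P, rfl⟩ := hp
  obtain ⟨Q, rfl⟩ := hq
  exact ⟨P + Q, map_add _ _ _⟩

theorem m05_isRatPS_pow {p : PowerSeries ℂ} (hp : IsRatPS p) (n : ℕ) : IsRatPS (p ^ n) := by
  rw [m05_isRatPS_iff] at *
  obtain ⟨P, rfl⟩ := hp
  exact ⟨P ^ n, map_pow _ _ _⟩

theorem m05_isRatPS_smul {p : PowerSeries ℂ} (hp : IsRatPS p) (r : ℚ) :
    IsRatPS ((r : ℂ) • p) := by
  intro n
  obtain ⟨s, hs⟩ := hp n
  exact ⟨r * s, by simp [hs]⟩

theorem m05_qExpansion_discriminant :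
    qExpansion 1 ModularForm.discriminant =
      ((1 / 1728 : ℚ) : ℂ) • ((qExpansion 1 (⇑E₄)) ^ 3 - (qExpansion 1 (⇑E₆)) ^ 2) := by
  set A : ModularForm 𝒮ℒ 12 := ModularForm.mcast (by norm_num) (E₄.pow 3) with hA
  set B : ModularForm 𝒮ℒ 12 := ModularForm.mcast (by norm_num) (E₆.pow 2) with hB
  have hfun : ModularForm.discriminant = ⇑(((1 / 1728 : ℚ) : ℂ) • (A - B)) := by
    ext z
    simp only [hA, hB, FunLike.coe_smul, FunLike.coe_sub, ModularForm.coe_mcast,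
      ModularForm.coe_pow, Pi.smul_apply, Pi.sub_apply, Pi.pow_apply, smul_eq_mul]
    rw [ModularForm.discriminant_eq_E₄_cube_sub_E₆_sq z]
    push_cast
    ring
  rw [hfun, FunLike.coe_smul, ModularForm.qExpansion_smul one_pos one_mem_strictPeriods_SL,
    FunLike.coe_sub, ModularForm.qExpansion_sub one_pos one_mem_strictPeriods_SL, hA, hB,
    ModularForm.qExpansion_mcast, ModularForm.qExpansion_mcast,
    ModularForm.qExpansion_pow one_pos one_mem_strictPeriods_SL,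
    ModularForm.qExpansion_pow one_pos one_mem_strictPeriods_SL]

theorem isRatPS_discriminant : IsRatPS (qExpansion 1 ModularForm.discriminant) := by
  rw [m05_qExpansion_discriminant]
  exact m05_isRatPS_smul
    (m05_isRatPS_sub (m05_isRatPS_pow isRatPS_E4 3) (m05_isRatPS_pow isRatPS_E6 2)) _

/-! ### Galois conjugates of level-one forms -/

theorem exists_isMF1_sigP (σ : ℂ ≃+* ℂ) {k : ℤ} {f : ℍ → ℂ} (h : IsMF1 k f) :
    ∃ f', IsMF1 k f' ∧ qExpansion 1 f' = sigP σ (qExpansion 1 f) := by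
  classical
  obtain ⟨P, hP, hPf⟩ := exists_mvPolynomial_of_isMF1 h
  have hf : f = m05_evF P := funext hPf
  have hsupp : (MvPolynomial.map (σ : ℂ →+* ℂ) P).support = P.support :=
    MvPolynomial.support_map_of_injective P σ.injective
  refine ⟨m05_evF (MvPolynomial.map (σ : ℂ →+* ℂ) P),
    m05_isMF1_evF _ (fun m hm => hP m (hsupp ▸ hm)), ?_⟩
  apply HahnSeries.ofPowerSeries_injective (Γ := ℤ) (R := ℂ)
  have h1 : HahnSeries.ofPowerSeries ℤ ℂ
      (qExpansion 1 (m05_evF (MvPolynomial.map (σ : ℂ →+* ℂ) P))) =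
      qL (m05_evF (MvPolynomial.map (σ : ℂ →+* ℂ) P)) := rfl
  have h2 : HahnSeries.ofPowerSeries ℤ ℂ (sigP σ (qExpansion 1 f)) = sigL σ (qL f) := by
    rw [qL, sigL_coe]
  rw [h1, h2, hf, m05_qL_evF, m05_qL_evF, hsupp, map_sum]
  refine Finset.sum_congr rfl fun m _ => ?_
  rw [m05_sigL_smul, map_mul, map_pow, map_pow, m05_sigL_E4L, m05_sigL_E6L,
    MvPolynomial.coeff_map]
  rfl

/-! ### Ratios of level-one forms of equal weight lie in `ℂ(j)` -/

theorem m05_E4L_ne_zero : E4L ≠ 0 := by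
  unfold E4L
  rw [Ne, qL_eq_zero_iff m05_isMF1_E4.isNice]
  intro h
  exact E_ne_zero (by norm_num : 3 ≤ 4) ⟨2, rfl⟩ (DFunLike.coe_injective h)

theorem m05_E6L_ne_zero : E6L ≠ 0 := by
  unfold E6L
  rw [Ne, qL_eq_zero_iff m05_isMF1_E6.isNice]
  intro h
  exact E_ne_zero (by norm_num : 3 ≤ 6) ⟨3, rfl⟩ (DFunLike.coe_injective h)

theorem m05_isMF1_discriminant : IsMF1 12 ModularForm.discriminant := by
  obtain ⟨P, hP, hPf⟩ := m05_good_discriminant
  have : ModularForm.discriminant = m05_evF P := funext hPf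
  rw [this]
  exact m05_isMF1_evF P hP

theorem m05_DeltaL_ne_zero : DeltaL ≠ 0 := by
  unfold DeltaL
  rw [Ne, qL_eq_zero_iff m05_isMF1_discriminant.isNice]
  intro h
  exact ModularForm.discriminant_ne_zero UpperHalfPlane.I (congrFun h _)

theorem m05_DeltaL_eq :
    DeltaL = algebraMap ℂ LS (1 / 1728) * (E4L ^ 3 - E6L ^ 2) := by
  have hfun : ModularForm.discriminant =
      (1 / 1728 : ℂ) • ((⇑E₄) ^ 3 + (-1 : ℂ) • (⇑E₆) ^ 2) := by
    ext z
    simp only [Pi.smul_apply, Pi.add_apply, Pi.pow_apply, smul_eq_mul]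
    rw [ModularForm.discriminant_eq_E₄_cube_sub_E₆_sq z]
    ring
  have h4 := m05_isMF1_E4.isNice
  have h6 := m05_isMF1_E6.isNice
  unfold DeltaL
  rw [hfun, qL_smul ((h4.pow 3).add ((h6.pow 2).smul _)), qL_add (h4.pow 3) ((h6.pow 2).smul _),
    qL_smul (h6.pow 2), qL_pow h4, qL_pow h6, m05_smul_def, m05_smul_def, map_neg, map_one]
  unfold E4L E6L
  ring

/-- the parameter `t = E₆² / E₄³`. -/
noncomputable def m05_t : LS := E6L ^ 2 / E4L ^ 3

theorem m05_jL_mem : jL ∈ Kj := IntermediateField.subset_adjoin ℂ {jL} (Set.mem_singleton jL)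

theorem m05_t_mem : m05_t ∈ Kj := by
  have h4 := m05_E4L_ne_zero
  have hD := m05_DeltaL_ne_zero
  have hc : algebraMap ℂ LS (1 / 1728) ≠ 0 := by
    rw [Ne, map_eq_zero_iff _ (algebraMap ℂ LS).injective]
    norm_num
  have hD' : E4L ^ 3 - E6L ^ 2 ≠ 0 := by
    intro h
    rw [m05_DeltaL_eq, h, mul_zero] at hD
    exact hD rfl
  have ht : m05_t = 1 - (algebraMap ℂ LS (1 / 1728) * jL)⁻¹ := by
    unfold m05_t jL
    rw [m05_DeltaL_eq]
    field_simp
    ring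
  rw [ht]
  exact sub_mem (one_mem _) (inv_mem (mul_mem (Kj.algebraMap_mem _) m05_jL_mem))

theorem m05_mono_eq (a b : ℕ) :
    E4L ^ a * E6L ^ b = E4L ^ (a + 3 * (b / 2)) * E6L ^ (b % 2) * m05_t ^ (b / 2) := by
  have h4 := m05_E4L_ne_zero
  have hb : E6L ^ b = E6L ^ (b % 2) * (E6L ^ 2) ^ (b / 2) := by
    rw [← pow_mul, ← pow_add, Nat.mod_add_div]
  unfold m05_t
  rw [hb, div_pow, pow_add, pow_mul]
  field_simp

/-- the reference monomial of weight `k`. -/
noncomputable def m05_ref (k : ℤ) : LS :=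
  E4L ^ ((k.toNat - 6 * ((k.toNat / 2) % 2)) / 4) * E6L ^ ((k.toNat / 2) % 2)

theorem m05_ref_ne_zero (k : ℤ) : m05_ref k ≠ 0 :=
  mul_ne_zero (pow_ne_zero _ m05_E4L_ne_zero) (pow_ne_zero _ m05_E6L_ne_zero)

theorem m05_qL_evF_factor {k : ℤ} (P : MvPolynomial (Fin 2) ℂ)
    (hP : ∀ m ∈ P.support, (4 * (m 0 : ℤ) + 6 * (m 1 : ℤ)) = k) :
    ∃ r ∈ Kj, qL (m05_evF P) = m05_ref k * r := by
  refine ⟨∑ m ∈ P.support, algebraMap ℂ LS (MvPolynomial.coeff m P) * m05_t ^ (m 1 / 2),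
    sum_mem fun m _ => mul_mem (Kj.algebraMap_mem _) (pow_mem m05_t_mem _), ?_⟩
  rw [m05_qL_evF, Finset.mul_sum]
  refine Finset.sum_congr rfl fun m hm => ?_
  have h := hP m hm
  have h1 : m 1 % 2 = (k.toNat / 2) % 2 := by omega
  have h2 : m 0 + 3 * (m 1 / 2) = (k.toNat - 6 * ((k.toNat / 2) % 2)) / 4 := by omega
  rw [m05_smul_def, m05_mono_eq, h1, h2]
  unfold m05_ref
  ring

theorem qL_div_mem_Kj {k : ℤ} {f g : ℍ → ℂ} (hf : IsMF1 k f) (hg : IsMF1 k g) :
    qL f / qL g ∈ Kj := by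
  obtain ⟨P, hP, hPf⟩ := exists_mvPolynomial_of_isMF1 hf
  obtain ⟨Q, hQ, hQg⟩ := exists_mvPolynomial_of_isMF1 hg
  have hf' : f = m05_evF P := funext hPf
  have hg' : g = m05_evF Q := funext hQg
  obtain ⟨r, hr, hr'⟩ := m05_qL_evF_factor P hP
  obtain ⟨s, hs, hs'⟩ := m05_qL_evF_factor Q hQ
  rw [hf', hg', hr', hs', mul_div_mul_left _ _ (m05_ref_ne_zero k)]
  exact div_mem hr hs

end Fermat.Agent.S23x
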