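/-
S23 project, module M04_Ratio: algebra of modular forms as raw functions (`IsMF`), algebra of
ratios of `Γ₀(N)`-forms inside Laurent series (`IsRatio`), and the field `ratioField N` of
`q`-expansions of weight-0 ratios.
-/
import Fermat.Agent.S23x.QRing

set_option autoImplicit false

namespace Fermat.Agent.S23x

open UpperHalfPlane ModularForm ModularFormClass CongruenceSubgroup
open scoped MatrixGroups Manifold

/-! ### `IsMF` algebra -/

theorem IsMF.cast {N : ℕ} {a b : ℤ} {f : ℍ → ℂ} (h : IsMF N a f) (hab : a = b) : IsMF N b f := by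
  subst hab; exact h

theorem IsMF.mul {N : ℕ} [NeZero N] {k l : ℤ} {f g : ℍ → ℂ} (hf : IsMF N k f) (hg : IsMF N l g) :
    IsMF N (k + l) (f * g) := by
  obtain ⟨F, rfl⟩ := hf
  obtain ⟨G, rfl⟩ := hg
  exact ⟨F.mul G, by simp [ModularForm.coe_mul]⟩

theorem IsMF.add {N : ℕ} [NeZero N] {k : ℤ} {f g : ℍ → ℂ} (hf : IsMF N k f) (hg : IsMF N k g) :
    IsMF N k (f + g) := by
  obtain ⟨F, rfl⟩ := hf
  obtain ⟨G, rfl⟩ := hg
  exact ⟨F + G, by simp⟩

theorem IsMF.smul {N : ℕ} [NeZero N] {k : ℤ} {f : ℍ → ℂ} (hf : IsMF N k f) (c : ℂ) :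
    IsMF N k (c • f) := by
  obtain ⟨F, rfl⟩ := hf
  exact ⟨c • F, by simp⟩

theorem isMF_const (N : ℕ) [NeZero N] (c : ℂ) : IsMF N 0 (fun _ => c) :=
  ⟨ModularForm.const c, by ext z; simp⟩

theorem m04_isMF_zero (N : ℕ) (k : ℤ) : IsMF N k 0 := ⟨0, by simp⟩

theorem IsMF.pow {N : ℕ} [NeZero N] {k : ℤ} {f : ℍ → ℂ} (hf : IsMF N k f) (n : ℕ) :
    IsMF N (n * k) (f ^ n) := by
  induction n with
  | zero =>
    have : (f ^ 0) = fun _ => (1 : ℂ) := by ext z; simp
    rw [this]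
    exact (isMF_const N 1).cast (by simp)
  | succ n ih =>
    rw [pow_succ]
    exact (ih.mul hf).cast (by push_cast; ring)

theorem m04_Gamma0_le (N : ℕ) :
    ((Gamma0 N : Subgroup SL(2, ℤ)) : Subgroup (GL (Fin 2) ℝ)) ≤ 𝒮ℒ := by
  intro g hg
  obtain ⟨x, _, rfl⟩ := hg
  exact ⟨x, rfl⟩

theorem IsMF1.isMF (N : ℕ) [NeZero N] {k : ℤ} {f : ℍ → ℂ} (h : IsMF1 k f) : IsMF N k f := by
  obtain ⟨F, rfl⟩ := h
  refine ⟨{ toFun := F
            slash_action_eq' := fun γ hγ => F.slash_action_eq' γ (m04_Gamma0_le N hγ)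
            holo' := F.holo'
            bdd_at_cusps' := fun hc =>
              F.bdd_at_cusps' ((Subgroup.IsArithmetic.isCusp_iff_isCusp_SL2Z _).mp hc) }, rfl⟩

theorem IsMF.eq_zero_of_neg {N : ℕ} [NeZero N] {k : ℤ} (hk : k < 0) {f : ℍ → ℂ} (h : IsMF N k f) :
    f = 0 := by
  obtain ⟨F, rfl⟩ := h
  rw [ModularForm.isZero_of_neg_weight hk F]
  simp

/-! ### auxiliary facts on `qL` -/

theorem m04_qL_zero : qL (0 : ℍ → ℂ) = 0 :=
  (qL_eq_zero_iff (isNice_const 0)).mpr rfl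

theorem m04_qL_one : qL (fun _ : ℍ => (1 : ℂ)) = 1 := by
  rw [qL_const]; simp

theorem m04_one_ne_zero : (fun _ : ℍ => (1 : ℂ)) ≠ 0 := by
  intro h
  have := congrFun h UpperHalfPlane.I
  simp at this

theorem m04_qL_ne_zero {N : ℕ} [NeZero N] {k : ℤ} {f : ℍ → ℂ} (h : IsMF N k f) (hf : f ≠ 0) :
    qL f ≠ 0 := fun h0 => hf ((qL_eq_zero_iff h.isNice).mp h0)

theorem m04_mul_ne_zero {N : ℕ} [NeZero N] {k l : ℤ} {f g : ℍ → ℂ} (hf : IsMF N k f)
    (hg : IsMF N l g) (hf0 : f ≠ 0) (hg0 : g ≠ 0) : f * g ≠ 0 := by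
  intro h
  have h1 : qL (f * g) = qL f * qL g := qL_mul hf.isNice hg.isNice
  rw [h, m04_qL_zero] at h1
  exact mul_ne_zero (m04_qL_ne_zero hf hf0) (m04_qL_ne_zero hg hg0) h1.symm

/-! ### `IsRatio` algebra -/

theorem IsRatio.cast {N : ℕ} {a b : ℤ} {x : LS} (h : IsRatio N a x) (hab : a = b) :
    IsRatio N b x := by
  subst hab; exact h

theorem isRatio_qL {N : ℕ} [NeZero N] {k : ℤ} {f : ℍ → ℂ} (h : IsMF N k f) : IsRatio N k (qL f) :=
  ⟨0, f, fun _ => 1, h.cast (by ring), isMF_const N 1, m04_one_ne_zero, by rw [m04_qL_one, mul_one]⟩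

theorem IsRatio.mul {N : ℕ} [NeZero N] {k l : ℤ} {x y : LS} (hx : IsRatio N k x)
    (hy : IsRatio N l y) : IsRatio N (k + l) (x * y) := by
  obtain ⟨m, f, g, hf, hg, hg0, hxe⟩ := hx
  obtain ⟨m', f', g', hf', hg', hg0', hye⟩ := hy
  refine ⟨m + m', f * f', g * g', (hf.mul hf').cast (by ring), hg.mul hg',
    m04_mul_ne_zero hg hg' hg0 hg0', ?_⟩
  rw [qL_mul hg.isNice hg'.isNice, qL_mul hf.isNice hf'.isNice, ← hxe, ← hye]
  ring

theorem IsRatio.add {N : ℕ} [NeZero N] {k : ℤ} {x y : LS} (hx : IsRatio N k x)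
    (hy : IsRatio N k y) : IsRatio N k (x + y) := by
  obtain ⟨m, f, g, hf, hg, hg0, hxe⟩ := hx
  obtain ⟨m', f', g', hf', hg', hg0', hye⟩ := hy
  have h1 : IsMF N (m + m' + k) (f * g') := (hf.mul hg').cast (by ring)
  have h2 : IsMF N (m + m' + k) (f' * g) := (hf'.mul hg).cast (by ring)
  refine ⟨m + m', f * g' + f' * g, g * g', h1.add h2, hg.mul hg',
    m04_mul_ne_zero hg hg' hg0 hg0', ?_⟩
  rw [qL_mul hg.isNice hg'.isNice, qL_add h1.isNice h2.isNice, qL_mul hf.isNice hg'.isNice,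
    qL_mul hf'.isNice hg.isNice, ← hxe, ← hye]
  ring

theorem IsRatio.inv {N : ℕ} [NeZero N] {k : ℤ} {x : LS} (hx : IsRatio N k x) :
    IsRatio N (-k) x⁻¹ := by
  obtain ⟨m, f, g, hf, hg, hg0, hxe⟩ := hx
  by_cases hf0 : f = 0
  · have hx0 : x = 0 := by
      rw [hf0, m04_qL_zero] at hxe
      exact (mul_eq_zero.mp hxe).resolve_right (m04_qL_ne_zero hg hg0)
    rw [hx0, inv_zero]
    exact ⟨0, 0, fun _ => 1, m04_isMF_zero N _, isMF_const N 1, m04_one_ne_zero,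
      by rw [m04_qL_zero, zero_mul]⟩
  · have hqf : qL f ≠ 0 := m04_qL_ne_zero hf hf0
    have hx0 : x ≠ 0 := by
      rintro rfl
      rw [zero_mul] at hxe
      exact hqf hxe.symm
    refine ⟨m + k, g, f, hg.cast (by ring), hf, hf0, ?_⟩
    rw [← hxe, ← mul_assoc, inv_mul_cancel₀ hx0, one_mul]

theorem isRatio_algebraMap (N : ℕ) [NeZero N] (c : ℂ) : IsRatio N 0 (algebraMap ℂ LS c) := by
  rw [← qL_const]
  exact isRatio_qL (isMF_const N c)

theorem IsRatio.neg {N : ℕ} [NeZero N] {k : ℤ} {x : LS} (hx : IsRatio N k x) :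
    IsRatio N k (-x) := by
  have h := ((isRatio_algebraMap N (-1)).mul hx).cast (zero_add k)
  have e : algebraMap ℂ LS (-1) * x = -x := by
    rw [map_neg, map_one]; ring
  rwa [e] at h

/-- The field of `q`-expansions of weight-0 ratios of `Γ₀(N)`-forms. -/
noncomputable def ratioField (N : ℕ) [NeZero N] : IntermediateField ℂ LS where
  carrier := {x | IsRatio N 0 x}
  mul_mem' {a b} ha hb := by
    have := IsRatio.mul ha hb
    simpa using this
  one_mem' := by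
    have := isRatio_algebraMap N 1
    simpa using this
  add_mem' {a b} ha hb := IsRatio.add ha hb
  zero_mem' := by
    have := isRatio_algebraMap N 0
    simpa using this
  algebraMap_mem' c := isRatio_algebraMap N c
  inv_mem' x hx := by
    have := IsRatio.inv hx
    simpa using this

theorem mem_ratioField_iff {N : ℕ} [NeZero N] {x : LS} : x ∈ ratioField N ↔ IsRatio N 0 x :=
  Iff.rfl

end Fermat.Agent.S23x
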