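import Fermat.Agent.S23x.QRing
import Fermat.Agent.S23x.Ratio
import Fermat.Agent.S23x.LevelOne
import Fermat.Prelude.Thm_CongruenceSubgroup_one_mem_strictPeriods_Gamma0

/-!
# S23 project, module M08 LevelRaise: the forms `f(Nz)`; `j` and `j_N`
-/

set_option autoImplicit false

namespace Fermat.Agent.S23x

open UpperHalfPlane ModularForm ModularFormClass CongruenceSubgroup Matrix
open scoped MatrixGroups Manifold Pointwise

/-- the matrix `diag(N, 1)` in `GL₂(ℝ)`. -/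
noncomputable def m08_g (N : ℕ) [NeZero N] : GL (Fin 2) ℝ :=
  Matrix.GeneralLinearGroup.mkOfDetNeZero !![(N : ℝ), 0; 0, 1] (by
    simp [Matrix.det_fin_two]; exact NeZero.ne N)

lemma m08_g_det (N : ℕ) [NeZero N] : (m08_g N).det.val = (N : ℝ) := by
  simp [m08_g, Matrix.GeneralLinearGroup.mkOfDetNeZero, Matrix.det_fin_two]

lemma m08_g_det_pos (N : ℕ) [NeZero N] : 0 < (m08_g N).det.val := by
  rw [m08_g_det]; exact Nat.cast_pos.mpr (NeZero.pos N)

lemma m08_g_smul (N : ℕ) [NeZero N] (z : ℍ) : m08_g N • z = mulN N z := by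
  apply UpperHalfPlane.ext
  rw [coe_smul_of_det_pos (m08_g_det_pos N)]
  simp [num, denom, m08_g, mulN, Matrix.GeneralLinearGroup.mkOfDetNeZero]

lemma m08_denom (N : ℕ) [NeZero N] (z : ℍ) : denom (m08_g N) z = 1 := by
  simp [denom, m08_g, Matrix.GeneralLinearGroup.mkOfDetNeZero]


lemma m08_mapGL_apply (g : SL(2, ℤ)) (i j : Fin 2) :
    (SpecialLinearGroup.mapGL ℝ g) i j = ((g i j : ℤ) : ℝ) := by
  simp [SpecialLinearGroup.mapGL]

lemma m08_g_apply (N : ℕ) [NeZero N] (i j : Fin 2) :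
    (m08_g N) i j = (!![(N : ℝ), 0; 0, 1] : Matrix (Fin 2) (Fin 2) ℝ) i j := by
  simp [m08_g, Matrix.GeneralLinearGroup.mkOfDetNeZero]

lemma m08_Gamma0_le (N : ℕ) [NeZero N] :
    ((Gamma0 N : Subgroup SL(2, ℤ)) : Subgroup (GL (Fin 2) ℝ)) ≤
      ConjAct.toConjAct (m08_g N)⁻¹ • 𝒮ℒ := by
  intro γ hγ
  obtain ⟨γ₀, hγ₀, rfl⟩ := Subgroup.mem_map.mp hγ
  rw [map_inv, Subgroup.mem_inv_pointwise_smul_iff, ConjAct.toConjAct_smul]
  rw [Gamma0_mem] at hγ₀
  obtain ⟨c', hc'⟩ : (N : ℤ) ∣ γ₀ 1 0 := (ZMod.intCast_zmod_eq_zero_iff_dvd _ N).mp hγ₀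
  have hdet : γ₀ 0 0 * γ₀ 1 1 - γ₀ 0 1 * γ₀ 1 0 = 1 := by
    have := γ₀.det_coe
    rwa [Matrix.det_fin_two] at this
  have hdet' : (!![γ₀ 0 0, N * γ₀ 0 1; c', γ₀ 1 1] : Matrix (Fin 2) (Fin 2) ℤ).det = 1 := by
    rw [Matrix.det_fin_two]
    simp only [Matrix.of_apply, Matrix.cons_val', Matrix.cons_val_zero, Matrix.cons_val_one,
      Matrix.empty_val', Matrix.cons_val_fin_one]
    rw [hc'] at hdet
    linear_combination hdet
  set δ : SL(2, ℤ) := ⟨!![γ₀ 0 0, N * γ₀ 0 1; c', γ₀ 1 1], hdet'⟩ with hδ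
  have hδ00 : δ 0 0 = γ₀ 0 0 := rfl
  have hδ01 : δ 0 1 = N * γ₀ 0 1 := rfl
  have hδ10 : δ 1 0 = c' := rfl
  have hδ11 : δ 1 1 = γ₀ 1 1 := rfl
  refine ⟨δ, ?_⟩
  rw [eq_mul_inv_iff_mul_eq]
  have hc'' : ((γ₀ 1 0 : ℤ) : ℝ) = (N : ℝ) * (c' : ℝ) := by rw [hc']; push_cast; ring
  apply Matrix.GeneralLinearGroup.ext
  intro i j
  simp only [Matrix.GeneralLinearGroup.coe_mul, Matrix.mul_apply, Fin.sum_univ_two,
    m08_mapGL_apply, m08_g_apply]
  fin_cases i <;> fin_cases j <;>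
    simp [hδ00, hδ01, hδ10, hδ11, hc''] <;> ring

/-- the `Γ₀(N)`-form `z ↦ F(Nz)` attached to a level-one form `F`. -/
noncomputable def m08_form (N : ℕ) [NeZero N] {k : ℤ} (F : ModularForm 𝒮ℒ k) :
    ModularForm (Gamma0 N) k :=
  let cT := ((((N : ℝ)) ^ (k - 1))⁻¹ : ℝ) • ModularForm.translate F (m08_g N)
  { toFun := cT
    slash_action_eq' := fun γ hγ => cT.slash_action_eq' γ (m08_Gamma0_le N hγ)
    holo' := cT.holo'
    bdd_at_cusps' := fun hc => cT.bdd_at_cusps' (hc.mono (m08_Gamma0_le N)) }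

lemma m08_form_apply (N : ℕ) [NeZero N] {k : ℤ} (F : ModularForm 𝒮ℒ k) (z : ℍ) :
    m08_form N F z = F (mulN N z) := by
  show (((((N : ℝ)) ^ (k - 1))⁻¹ : ℝ) • ModularForm.translate F (m08_g N)) z = F (mulN N z)
  have hN : (N : ℝ) ≠ 0 := Nat.cast_ne_zero.mpr (NeZero.ne N)
  have hpos : (0 : ℝ) < N := Nat.cast_pos.mpr (NeZero.pos N)
  rw [_root_.smul_apply, ModularForm.coe_translate, ModularForm.slash_apply, m08_g_smul, m08_denom,
    m08_g_det, _root_.one_zpow, mul_one, abs_of_pos hpos]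
  have hσ : σ (m08_g N) = ContinuousAlgEquiv.refl ℝ ℂ := by
    unfold σ
    rw [if_pos (m08_g_det_pos N)]
  rw [hσ]
  simp only [ContinuousAlgEquiv.refl_apply]
  show ((((N : ℝ)) ^ (k - 1))⁻¹ : ℝ) • (F (mulN N z) * ((N : ℝ) : ℂ) ^ (k - 1)) = F (mulN N z)
  rw [Complex.real_smul]
  have hNc : ((N : ℂ)) ^ (k - 1) ≠ 0 := zpow_ne_zero _ (Nat.cast_ne_zero.mpr (NeZero.ne N))
  push_cast
  rw [mul_comm (F (mulN N z)), ← mul_assoc, inv_mul_cancel₀ hNc, one_mul]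

theorem isMF_comp_mulN (N : ℕ) [NeZero N] {k : ℤ} {f : ℍ → ℂ} (h : IsMF1 k f) :
    IsMF N k (fun z => f (mulN N z)) := by
  obtain ⟨F, rfl⟩ := h
  exact ⟨m08_form N F, funext fun z => m08_form_apply N F z⟩

lemma m08_qParam_mulN (N : ℕ) [NeZero N] (τ : ℍ) :
    Function.Periodic.qParam 1 (mulN N τ) = Function.Periodic.qParam 1 τ ^ N := by
  simp only [Function.Periodic.qParam, mulN, UpperHalfPlane.coe_mk, ← Complex.exp_nat_mul]
  congr 1
  push_cast
  ring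

theorem qExpansion_comp_mulN_coeff (N : ℕ) [NeZero N] {k : ℤ} {f : ℍ → ℂ} (h : IsMF1 k f) (n : ℕ) :
    PowerSeries.coeff n (qExpansion 1 (fun z => f (mulN N z))) =
      if N ∣ n then PowerSeries.coeff (n / N) (qExpansion 1 f) else 0 := by
  obtain ⟨F, rfl⟩ := h
  have hfun : (fun z => F (mulN N z)) = ⇑(m08_form N F) :=
    funext fun z => (m08_form_apply N F z).symm
  rw [hfun]
  symm
  refine ModularFormClass.qExpansion_coeff_unique (c := fun n =>
    if N ∣ n then PowerSeries.coeff (n / N) (qExpansion 1 F) else 0) one_pos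
    (CongruenceSubgroup.one_mem_strictPeriods_Gamma0 N) (fun τ => ?_) n
  have hsum := ModularForm.hasSum_qExpansion (f := F) one_pos one_mem_strictPeriods_SL (mulN N τ)
  rw [m08_form_apply]
  have hNpos : 0 < N := NeZero.pos N
  have hinj : Function.Injective (fun m : ℕ => N * m) :=
    fun a b hab => Nat.eq_of_mul_eq_mul_left hNpos hab
  rw [← hinj.hasSum_iff]
  · convert hsum using 1
    funext m
    simp only [Function.comp_apply, Nat.dvd_mul_right, if_true, Nat.mul_div_cancel_left _ hNpos,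
      smul_eq_mul, m08_qParam_mulN, pow_mul]
  · intro x hx
    have : ¬ N ∣ x := fun ⟨m, hm⟩ => hx ⟨m, hm.symm⟩
    simp [this]

/-! ### level-one building blocks -/

lemma m08_isMF1_E4 : IsMF1 4 (⇑E₄) := ⟨E₄, rfl⟩
lemma m08_isMF1_E6 : IsMF1 6 (⇑E₆) := ⟨E₆, rfl⟩
lemma m08_isMF1_discriminant : IsMF1 12 ModularForm.discriminant :=
  ⟨ModularFormClass.modularForm CuspForm.discriminant, rfl⟩

lemma m08_coe_ne_zero {p : PowerSeries ℂ} (hp : p ≠ 0) : ((p : PowerSeries ℂ) : LaurentSeries ℂ) ≠ 0 := by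
  intro h
  apply hp
  have : ((p : PowerSeries ℂ) : LaurentSeries ℂ) = ((0 : PowerSeries ℂ) : LaurentSeries ℂ) := by
    rw [h]; simp
  exact HahnSeries.ofPowerSeries_injective this

theorem E4L_ne_zero : E4L ≠ 0 := by
  apply m08_coe_ne_zero
  intro h
  have := E₄_qExpansion_coeff_one
  rw [h] at this
  simp at this

theorem E6L_ne_zero : E6L ≠ 0 := by
  apply m08_coe_ne_zero
  intro h
  have := E₆_qExpansion_coeff_one
  rw [h] at this
  simp at this

theorem DeltaL_ne_zero : DeltaL ≠ 0 := by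
  apply m08_coe_ne_zero
  intro h
  have := ModularForm.discriminant_qExpansion_coeff_one
  rw [h] at this
  simp at this

theorem sigL_E4L (σ : ℂ ≃+* ℂ) : sigL σ E4L = E4L := by
  unfold E4L qL
  rw [sigL_coe, sigP_eq_self_of_isRatPS σ isRatPS_E4]

theorem sigL_E6L (σ : ℂ ≃+* ℂ) : sigL σ E6L = E6L := by
  unfold E6L qL
  rw [sigL_coe, sigP_eq_self_of_isRatPS σ isRatPS_E6]

theorem sigL_DeltaL (σ : ℂ ≃+* ℂ) : sigL σ DeltaL = DeltaL := by
  unfold DeltaL qL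
  rw [sigL_coe, sigP_eq_self_of_isRatPS σ isRatPS_discriminant]

theorem sigL_jL (σ : ℂ ≃+* ℂ) : sigL σ jL = jL := by
  unfold jL
  rw [map_div₀, map_pow, sigL_E4L, sigL_DeltaL]

lemma m08_isRatPS_comp_mulN (N : ℕ) [NeZero N] {k : ℤ} {f : ℍ → ℂ} (h : IsMF1 k f)
    (hr : IsRatPS (qExpansion 1 f)) : IsRatPS (qExpansion 1 (fun z => f (mulN N z))) := by
  intro n
  rw [qExpansion_comp_mulN_coeff N h n]
  split_ifs
  · exact hr _
  · exact ⟨0, by simp⟩

theorem sigL_jNL (σ : ℂ ≃+* ℂ) (N : ℕ) [NeZero N] : sigL σ (jNL N) = jNL N := by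
  unfold jNL qL
  rw [map_div₀, map_pow, sigL_coe, sigL_coe,
    sigP_eq_self_of_isRatPS σ (m08_isRatPS_comp_mulN N m08_isMF1_E4 isRatPS_E4),
    sigP_eq_self_of_isRatPS σ
      (m08_isRatPS_comp_mulN N m08_isMF1_discriminant isRatPS_discriminant)]

lemma m08_isMF_cast {N : ℕ} {a b : ℤ} {f : ℍ → ℂ} (h : IsMF N a f) (hab : a = b) : IsMF N b f :=
  hab ▸ h

theorem isRatio_jL (N : ℕ) [NeZero N] : IsRatio N 0 jL := by
  have hE : IsMF N 4 (⇑E₄) := IsMF1.isMF N m08_isMF1_E4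
  have hD : IsMF N 12 ModularForm.discriminant := IsMF1.isMF N m08_isMF1_discriminant
  refine ⟨12, (⇑E₄) ^ 3, ModularForm.discriminant,
    m08_isMF_cast (IsMF.pow hE 3) (by norm_num), hD, ?_, ?_⟩
  · intro h
    have := congrFun h UpperHalfPlane.I
    exact ModularForm.discriminant_ne_zero _ this
  · rw [qL_pow (IsMF.isNice hE) 3]
    show E4L ^ 3 / DeltaL * DeltaL = E4L ^ 3
    exact div_mul_cancel₀ _ DeltaL_ne_zero

theorem isRatio_jNL (N : ℕ) [NeZero N] : IsRatio N 0 (jNL N) := by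
  have hE : IsMF N 4 (fun z => E₄ (mulN N z)) := isMF_comp_mulN N m08_isMF1_E4
  have hD : IsMF N 12 (fun z => ModularForm.discriminant (mulN N z)) :=
    isMF_comp_mulN N m08_isMF1_discriminant
  have hD0 : (fun z => ModularForm.discriminant (mulN N z)) ≠ 0 := by
    intro h
    have := congrFun h UpperHalfPlane.I
    exact ModularForm.discriminant_ne_zero _ this
  have hqD : qL (fun z => ModularForm.discriminant (mulN N z)) ≠ 0 := by
    intro h
    exact hD0 ((qL_eq_zero_iff (IsMF.isNice hD)).mp h)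
  refine ⟨12, (fun z => E₄ (mulN N z)) ^ 3, fun z => ModularForm.discriminant (mulN N z),
    m08_isMF_cast (IsMF.pow hE 3) (by norm_num), hD, hD0, ?_⟩
  rw [qL_pow (IsMF.isNice hE) 3]
  unfold jNL
  exact div_mul_cancel₀ _ hqD

end Fermat.Agent.S23x
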