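import Fermat.Agent.S23x.Defs
import Fermat.Agent.S23x.QRing

/-!
# S23 project, module M14_SigmaCF: conjugates of cusp forms are cusp forms
-/

set_option autoImplicit false

namespace Fermat.Agent.S23x

open UpperHalfPlane ModularForm ModularFormClass CongruenceSubgroup
open scoped MatrixGroups Manifold

/-- a cusp form is a modular form -/
theorem m14_IsCF_isMF {N : ℕ} {k : ℤ} {f : ℍ → ℂ} (hf : IsCF N k f) : IsMF N k f := by
  obtain ⟨F, rfl⟩ := hf
  exact ⟨CuspForm.toModularFormₗ F, rfl⟩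

/-- the discriminant is a level one modular form of weight 12 -/
theorem m14_isMF1_discriminant : IsMF1 12 ModularForm.discriminant :=
  ⟨CuspForm.toModularFormₗ CuspForm.discriminant, rfl⟩

theorem m14_qL_eq_coe (f : ℍ → ℂ) :
    qL f = ((qExpansion 1 f : PowerSeries ℂ) : LaurentSeries ℂ) := rfl

/-- **M14**, with M12 (`hM12`), M13 (`hM13`) and the rationality of `Δ` (`hΔ`, from M08) as explicit
hypotheses: the coefficientwise conjugate of the `q`-expansion of a cusp form is again the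
`q`-expansion of a cusp form (even weight). -/
theorem exists_isCF_sigP_of (N : ℕ) [NeZero N] (σ : ℂ ≃+* ℂ)
    (hM12 : ∀ {k : ℤ}, Even k → ∀ {f : ℍ → ℂ}, IsMF N k f →
      ∃ f', IsMF N k f' ∧ qExpansion 1 f' = sigP σ (qExpansion 1 f))
    (hM13 : ∀ {k : ℤ} {f : ℍ → ℂ}, IsMF N k f →
      (IsCF N k f ↔ ∃ g, IsMF N ((N : ℤ) * k - 12) g ∧ f ^ N = ModularForm.discriminant * g))
    (hΔσ : sigL σ DeltaL = DeltaL)
    {k : ℤ} (hk : Even k) {f : ℍ → ℂ}
    (hf : IsCF N k f) : ∃ f', IsCF N k f' ∧ qExpansion 1 f' = sigP σ (qExpansion 1 f) := by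
  have hfM : IsMF N k f := m14_IsCF_isMF hf
  obtain ⟨g, hg, hfg⟩ := (hM13 hfM).mp hf
  have hk' : Even ((N : ℤ) * k - 12) := by
    obtain ⟨r, hr⟩ := hk
    exact ⟨(N : ℤ) * r - 6, by rw [hr]; ring⟩
  obtain ⟨f', hf'M, hf'q⟩ := hM12 hk hfM
  obtain ⟨g', hg'M, hg'q⟩ := hM12 hk' hg
  refine ⟨f', ?_, hf'q⟩
  refine (hM13 hf'M).mpr ⟨g', hg'M, ?_⟩
  have hΔ : IsNice ModularForm.discriminant := m14_isMF1_discriminant.isNice
  have hfn : IsNice f := hfM.isNice
  have hgn : IsNice g := hg.isNice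
  have hf'n : IsNice f' := hf'M.isNice
  have hg'n : IsNice g' := hg'M.isNice
  have e1 : qL f' = sigL σ (qL f) := by
    rw [m14_qL_eq_coe, m14_qL_eq_coe, sigL_coe, hf'q]
  have e2 : qL g' = sigL σ (qL g) := by
    rw [m14_qL_eq_coe, m14_qL_eq_coe, sigL_coe, hg'q]
  apply qL_injective (hf'n.pow N) (hΔ.mul hg'n)
  have hΔσ' : sigL σ (qL ModularForm.discriminant) = qL ModularForm.discriminant := hΔσ
  rw [qL_pow hf'n, qL_mul hΔ hg'n, e1, e2, ← map_pow, ← qL_pow hfn, hfg, qL_mul hΔ hgn, map_mul,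
    hΔσ']

end Fermat.Agent.S23x
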