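import Fermat.Agent.S23x.PairNorm
import Fermat.Agent.S23x.LevelOne
import Fermat.Agent.S23x.QRing

/-!
# S23 / M07 DegreeLe : every weight-0 ratio is a root of a monic polynomial of degree `idx N`
over `ℂ(j)`.

STATUS: complete, all dependencies real (M03 `QRing`, M05 `LevelOne`, M06 `PairNorm`); no stubs.
-/

set_option autoImplicit false

namespace Fermat.Agent.S23x

open UpperHalfPlane ModularForm ModularFormClass CongruenceSubgroup Polynomial
open scoped MatrixGroups Manifold

/-- change of weight along an equality (level one) -/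
theorem dl_isMF1_cast {k l : ℤ} {f : ℍ → ℂ} (hf : IsMF1 k f) (h : k = l) : IsMF1 l f := h ▸ hf

/-- Pure algebra: a relation `∑_{r ≤ μ} a r * x ^ r = 0` in a field extension `L / K` with
`a μ ≠ 0` and all `a r / a μ ∈ K` gives a monic polynomial of degree `μ` over `K` killing `x`. -/
theorem dl_exists_monic {K L : Type*} [Field K] [Field L] [Algebra K L] (μ : ℕ) (a : ℕ → L)
    (x : L) (hμ : a μ ≠ 0) (hmem : ∀ r ≤ μ, ∃ b : K, algebraMap K L b = a r / a μ)
    (hrel : ∑ r ∈ Finset.range (μ + 1), a r * x ^ r = 0) :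
    ∃ P : Polynomial K, P.Monic ∧ P.natDegree = μ ∧ Polynomial.aeval x P = 0 := by
  classical
  choose! b hb using hmem
  set q : Polynomial K := ∑ r ∈ Finset.range μ, C (b r) * X ^ r with hq
  have hqdeg : q.degree < (μ : WithBot ℕ) := by
    refine (Polynomial.degree_sum_le _ _).trans_lt ?_
    refine (Finset.sup_lt_iff (WithBot.bot_lt_coe μ)).mpr fun r hr => ?_
    refine (Polynomial.degree_C_mul_X_pow_le r (b r)).trans_lt ?_
    exact WithBot.coe_lt_coe.mpr (Finset.mem_range.mp hr)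
  refine ⟨X ^ μ + q, Polynomial.monic_X_pow_add hqdeg, ?_, ?_⟩
  · have h1 : (X ^ μ + q : Polynomial K).degree = (X ^ μ : Polynomial K).degree :=
      Polynomial.degree_add_eq_left_of_degree_lt (by rwa [Polynomial.degree_X_pow])
    rw [Polynomial.degree_X_pow] at h1
    exact Polynomial.natDegree_eq_of_degree_eq_some h1
  · have h2 : Polynomial.aeval x (X ^ μ + q) = ∑ r ∈ Finset.range (μ + 1), (a r / a μ) * x ^ r := by
      rw [Finset.sum_range_succ, div_self hμ, one_mul, map_add, hq, map_sum, add_comm]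
      congr 1
      · refine Finset.sum_congr rfl fun r hr => ?_
        rw [map_mul, Polynomial.aeval_C, map_pow, Polynomial.aeval_X,
          hb r (Finset.mem_range.mp hr).le]
      · rw [map_pow, Polynomial.aeval_X]
    rw [h2]
    have h3 : ∑ r ∈ Finset.range (μ + 1), (a r / a μ) * x ^ r =
        (a μ)⁻¹ * ∑ r ∈ Finset.range (μ + 1), a r * x ^ r := by
      rw [Finset.mul_sum]
      refine Finset.sum_congr rfl fun r _ => ?_
      rw [div_eq_mul_inv]; ring
    rw [h3, hrel, mul_zero]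

theorem exists_monic_of_isRatio (N : ℕ) [NeZero N] {x : LS} (hx : IsRatio N 0 x) :
    ∃ P : Polynomial Kj, P.Monic ∧ P.natDegree = idx N ∧ Polynomial.aeval x P = 0 := by
  obtain ⟨m, f, g, hf, hg, hg0, hxg⟩ := hx
  obtain ⟨c, hc, hcμ, hrel⟩ := exists_pairNorm N hf hg hg0
  set μ := idx N with hμdef
  have hfN := IsMF.isNice hf
  have hgN := IsMF.isNice hg
  have hcN : ∀ r ≤ μ, IsNice (c r) := fun r hr => IsMF1.isNice (hc r hr)
  -- all `c r` have the same weight `μ * m`
  have hcw : ∀ r ≤ μ, IsMF1 ((μ : ℤ) * m) (c r) := fun r hr =>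
    dl_isMF1_cast (hc r hr) (by ring)
  have hqg : qL g ≠ 0 := fun h => hg0 ((qL_eq_zero_iff hgN).mp h)
  have hqc : qL (c μ) ≠ 0 := fun h => hcμ ((qL_eq_zero_iff (hcN μ le_rfl)).mp h)
  -- apply `qL` to the relation
  have hterm : ∀ r ∈ Finset.range (μ + 1), IsNice (c r * f ^ r * g ^ (μ - r)) := fun r hr =>
    IsNice.mul (IsNice.mul (hcN r (Nat.lt_succ_iff.mp (Finset.mem_range.mp hr)))
      (IsNice.pow hfN r)) (IsNice.pow hgN (μ - r))
  have h1 : ∑ r ∈ Finset.range (μ + 1), qL (c r) * qL f ^ r * qL g ^ (μ - r) = 0 := by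
    have h2 := congrArg qL hrel
    rw [qL_sum _ _ hterm] at h2
    have h0 : qL (0 : ℍ → ℂ) = 0 := (qL_eq_zero_iff (by
      have := isNice_const 0
      exact this)).mpr rfl
    rw [h0] at h2
    rw [← h2]
    refine Finset.sum_congr rfl fun r hr => ?_
    have hr' : r ≤ μ := Nat.lt_succ_iff.mp (Finset.mem_range.mp hr)
    rw [qL_mul (IsNice.mul (hcN r hr') (IsNice.pow hfN r))
        (IsNice.pow hgN (μ - r)),
      qL_mul (hcN r hr') (IsNice.pow hfN r), qL_pow hfN, qL_pow hgN]
  -- substitute `qL f = x * qL g` and cancel `qL g ^ μ`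
  have h3 : qL g ^ μ * ∑ r ∈ Finset.range (μ + 1), qL (c r) * x ^ r = 0 := by
    rw [← h1, Finset.mul_sum]
    refine Finset.sum_congr rfl fun r hr => ?_
    have hr' : r ≤ μ := Nat.lt_succ_iff.mp (Finset.mem_range.mp hr)
    rw [← hxg, mul_pow]
    have : qL g ^ μ = qL g ^ r * qL g ^ (μ - r) := by
      rw [← pow_add, Nat.add_sub_cancel' hr']
    rw [this]; ring
  have h4 : ∑ r ∈ Finset.range (μ + 1), qL (c r) * x ^ r = 0 := by
    rcases mul_eq_zero.mp h3 with h | h
    · exact absurd h (pow_ne_zero μ hqg)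
    · exact h
  refine dl_exists_monic (K := Kj) (L := LS) μ (fun r => qL (c r)) x hqc (fun r hr => ?_) h4
  exact ⟨⟨qL (c r) / qL (c μ), qL_div_mem_Kj (hcw r hr) (hcw μ le_rfl)⟩, rfl⟩

end Fermat.Agent.S23x
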