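import Mathlib

/-!
# S23 / E4_PRIM: abstract field theory (primitive element + degree count)

If every element of `k⟮x, y⟯` has degree at most `m ≤ deg x` over `k` (char. zero), then
`y ∈ k⟮x⟯`; and elements of `k⟮x⟯` (with `x` integral) are polynomials in `x`.
-/

set_option autoImplicit false

namespace Fermat.Agent.S23x

open IntermediateField Module

/-- If all elements of `k⟮x, y⟯` have degree `≤ m` and `m ≤ deg x`, then `y ∈ k⟮x⟯`. -/
theorem mem_adjoin_of_natDegree_le {k L : Type*} [Field k] [Field L] [Algebra k L] [CharZero k]
    {x y : L} {m : ℕ} (hx : IsIntegral k x) (hy : IsIntegral k y)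
    (hm : m ≤ (minpoly k x).natDegree)
    (hall : ∀ z ∈ IntermediateField.adjoin k {x, y}, (minpoly k z).natDegree ≤ m) :
    y ∈ IntermediateField.adjoin k {x} := by
  classical
  set F : IntermediateField k L := IntermediateField.adjoin k {x, y} with hF
  set E : IntermediateField k L := IntermediateField.adjoin k {x} with hE
  have hEF : E ≤ F := IntermediateField.adjoin.mono k _ _ (by simp)
  have hfinF : FiniteDimensional k F := by
    apply IntermediateField.finiteDimensional_adjoin
    intro z hz
    rcases hz with rfl | rfl
    · exact hx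
    · exact hy
  -- primitive element of `F / k`
  obtain ⟨α, hα⟩ := Field.exists_primitive_element k F
  have hαint : IsIntegral k α := IsIntegral.of_finite k α
  have h1 : finrank k F = (minpoly k α).natDegree := by
    have h2 : finrank k (k⟮α⟯) = finrank k (⊤ : IntermediateField k F) := by rw [hα]
    rw [IntermediateField.finrank_top'] at h2
    rw [← h2]
    exact IntermediateField.adjoin.finrank hαint
  have h3 : (minpoly k α).natDegree = (minpoly k (α : L)).natDegree := by
    rw [← minpoly.algebraMap_eq (algebraMap F L).injective α]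
    rfl
  have h4 : finrank k E = (minpoly k x).natDegree := IntermediateField.adjoin.finrank hx
  have h5 : finrank k F ≤ finrank k E := by
    rw [h1, h3, h4]
    exact (hall (α : L) α.2).trans hm
  have hEF' : E = F := IntermediateField.eq_of_le_of_finrank_le hEF h5
  rw [hEF']
  exact IntermediateField.subset_adjoin k _ (by simp)

/-- Elements of `k⟮x⟯`, `x` integral, are polynomial expressions in `x`. -/
theorem exists_aeval_eq_of_mem_adjoin {k L : Type*} [Field k] [Field L] [Algebra k L]
    {x y : L} (hx : IsIntegral k x) (hy : y ∈ IntermediateField.adjoin k {x}) :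
    ∃ p : Polynomial k, y = Polynomial.aeval x p := by
  have h1 : y ∈ (IntermediateField.adjoin k {x}).toSubalgebra := hy
  rw [IntermediateField.adjoin_simple_toSubalgebra_of_isAlgebraic hx.isAlgebraic] at h1
  obtain ⟨p, hp⟩ := Algebra.adjoin_singleton_eq_range_aeval k x ▸ h1
  exact ⟨p, hp.symm⟩

/-- Polynomial of bounded degree: elements of `k⟮x⟯` are `aeval x p` with
`p.natDegree < deg x`. -/
theorem exists_aeval_eq_of_mem_adjoin_natDegree_lt {k L : Type*} [Field k] [Field L] [Algebra k L]
    {x y : L} (hx : IsIntegral k x) (hy : y ∈ IntermediateField.adjoin k {x}) :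
    ∃ p : Polynomial k, (p = 0 ∨ p.natDegree < (minpoly k x).natDegree) ∧
      y = Polynomial.aeval x p := by
  obtain ⟨p, hp⟩ := exists_aeval_eq_of_mem_adjoin hx hy
  refine ⟨p %ₘ minpoly k x, ?_, ?_⟩
  · by_cases h0 : p %ₘ minpoly k x = 0
    · exact Or.inl h0
    · right
      have hmonic := minpoly.monic hx
      have hne1 : minpoly k x ≠ 1 := minpoly.ne_one k x
      exact Polynomial.natDegree_modByMonic_lt p hmonic hne1
  · rw [hp, minpoly.aeval_modByMonic_minpoly]

end Fermat.Agent.S23x
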