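import Fermat.Agent.S23x.DegreeGe
import Fermat.Agent.S23x.LevelRaise
import Fermat.Agent.S23x.Ratio
import Fermat.Agent.S23x.DegreeLe
import Fermat.Agent.S23x.QRing
import Fermat.Agent.S23x.PrimElt

/-!
# S23 / M10 FieldGen : the ratio field is `ℂ(j, j_N)`, hence stable under `sigL`

STATUS: complete, all dependencies real (M03 `QRing`, M04 `Ratio`, M07 `DegreeLe`, M08
`LevelRaise`, M09c `DegreeGe`, `PrimElt`); no stubs.
-/

set_option autoImplicit false

namespace Fermat.Agent.S23x

open UpperHalfPlane ModularForm ModularFormClass CongruenceSubgroup Polynomial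
open scoped MatrixGroups Manifold

/-- change of weight along an equality -/
theorem fg_isRatio_cast {N : ℕ} {k l : ℤ} {x : LS} (hx : IsRatio N k x) (h : k = l) :
    IsRatio N l x := h ▸ hx

section fieldgen

variable (N : ℕ) [NeZero N]

theorem fg_Kj_le_ratioField : Kj ≤ ratioField N := by
  unfold Kj
  rw [IntermediateField.adjoin_le_iff]
  rintro _ rfl
  exact mem_ratioField_iff.mpr (isRatio_jL N)

theorem fg_jNL_mem_ratioField : jNL N ∈ ratioField N :=
  mem_ratioField_iff.mpr (isRatio_jNL N)

theorem fg_isIntegral_of_mem {x : LS} (hx : x ∈ ratioField N) : IsIntegral Kj x := by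
  obtain ⟨P, hP, -, h0⟩ := exists_monic_of_isRatio N (mem_ratioField_iff.mp hx)
  exact ⟨P, hP, by rwa [← Polynomial.aeval_def]⟩

theorem fg_natDegree_minpoly_le {x : LS} (hx : x ∈ ratioField N) :
    (minpoly Kj x).natDegree ≤ idx N := by
  obtain ⟨P, hP, hdeg, h0⟩ := exists_monic_of_isRatio N (mem_ratioField_iff.mp hx)
  rw [← hdeg]
  exact Polynomial.natDegree_le_natDegree (minpoly.min Kj x hP h0)

theorem fg_le_natDegree_minpoly_jNL : idx N ≤ (minpoly Kj (jNL N)).natDegree := by
  have hint := fg_isIntegral_of_mem N (fg_jNL_mem_ratioField N)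
  exact natDegree_ge_of_aeval_jNL_eq_zero N _ (minpoly.ne_zero hint) (minpoly.aeval _ _)

theorem ratioField_eq :
    ratioField N = IntermediateField.adjoin ℂ {jL, jNL N} := by
  apply le_antisymm
  · intro x hx
    -- `x ∈ Kj(j_N)` by the degree count
    have hall : ∀ z ∈ IntermediateField.adjoin Kj {jNL N, x}, (minpoly Kj z).natDegree ≤ idx N := by
      intro z hz
      apply fg_natDegree_minpoly_le N
      have hle : IntermediateField.adjoin Kj {jNL N, x} ≤
          IntermediateField.extendScalars (fg_Kj_le_ratioField N) := by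
        rw [IntermediateField.adjoin_le_iff]
        rintro w (rfl | rfl)
        · exact (IntermediateField.mem_extendScalars _).mpr (fg_jNL_mem_ratioField N)
        · exact (IntermediateField.mem_extendScalars _).mpr hx
      exact (IntermediateField.mem_extendScalars _).mp (hle hz)
    have hmem := mem_adjoin_of_natDegree_le (k := Kj) (L := LS)
      (fg_isIntegral_of_mem N (fg_jNL_mem_ratioField N)) (fg_isIntegral_of_mem N hx)
      (fg_le_natDegree_minpoly_jNL N) hall
    -- `Kj(j_N) ⊆ ℂ(j, j_N)`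
    have hKj : Kj ≤ IntermediateField.adjoin ℂ {jL, jNL N} := by
      unfold Kj
      exact IntermediateField.adjoin.mono ℂ _ _ (by simp)
    have hle : IntermediateField.adjoin Kj {jNL N} ≤ IntermediateField.extendScalars hKj := by
      rw [IntermediateField.adjoin_le_iff]
      rintro w rfl
      exact (IntermediateField.mem_extendScalars _).mpr
        (IntermediateField.subset_adjoin ℂ _ (by simp))
    exact (IntermediateField.mem_extendScalars _).mp (hle hmem)
  · rw [IntermediateField.adjoin_le_iff]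
    rintro w (rfl | rfl)
    · exact mem_ratioField_iff.mpr (isRatio_jL N)
    · exact fg_jNL_mem_ratioField N

end fieldgen

section sigma

variable {N : ℕ} [NeZero N]

theorem fg_sigL_mem_adjoin (σ : ℂ ≃+* ℂ) {x : LS}
    (hx : x ∈ IntermediateField.adjoin ℂ {jL, jNL N}) :
    sigL σ x ∈ IntermediateField.adjoin ℂ {jL, jNL N} := by
  induction hx using IntermediateField.adjoin_induction with
  | mem y hy =>
    rcases hy with rfl | rfl
    · rw [sigL_jL]; exact IntermediateField.subset_adjoin ℂ _ (by simp)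
    · rw [sigL_jNL]; exact IntermediateField.subset_adjoin ℂ _ (by simp)
  | algebraMap c =>
    rw [sigL_algebraMap]
    exact IntermediateField.algebraMap_mem _ _
  | add y z _ _ hy hz => rw [map_add]; exact add_mem hy hz
  | inv y _ hy => rw [map_inv₀]; exact inv_mem hy
  | mul y z _ _ hy hz => rw [map_mul]; exact mul_mem hy hz

theorem IsRatio.sigL_zero (σ : ℂ ≃+* ℂ) {x : LS} (hx : IsRatio N 0 x) :
    IsRatio N 0 (sigL σ x) := by
  have h1 : x ∈ ratioField N := mem_ratioField_iff.mpr hx
  rw [ratioField_eq] at h1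
  have h2 := fg_sigL_mem_adjoin σ h1
  rw [← ratioField_eq] at h2
  exact mem_ratioField_iff.mp h2

/-- the weight-2 ratio `E₆ / E₄` -/
noncomputable def fgE : LS := E6L / E4L

theorem fgE_ne_zero : fgE ≠ 0 := div_ne_zero E6L_ne_zero E4L_ne_zero

theorem sigL_fgE (σ : ℂ ≃+* ℂ) : sigL σ fgE = fgE := by
  unfold fgE
  rw [map_div₀, sigL_E4L, sigL_E6L]

theorem isRatio_fgE : IsRatio N 2 fgE := by
  have h6 : IsRatio N 6 E6L := isRatio_qL (IsMF1.isMF N ⟨E₆, rfl⟩)
  have h4 : IsRatio N 4 E4L := isRatio_qL (IsMF1.isMF N ⟨E₄, rfl⟩)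
  have := IsRatio.mul h6 (IsRatio.inv h4)
  rw [← div_eq_mul_inv] at this
  exact fg_isRatio_cast this (by norm_num)

theorem isRatio_fgE_pow (n : ℕ) : IsRatio N (2 * (n : ℤ)) (fgE ^ n) := by
  induction n with
  | zero =>
    have := isRatio_algebraMap N 1
    rw [map_one] at this
    simpa using this
  | succ n ih =>
    rw [pow_succ]
    exact fg_isRatio_cast (IsRatio.mul ih (isRatio_fgE (N := N))) (by push_cast; ring)

theorem isRatio_fgE_zpow (t : ℤ) : IsRatio N (2 * t) (fgE ^ t) := by
  rcases t with n | n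
  · rw [Int.ofNat_eq_natCast, zpow_natCast]
    exact isRatio_fgE_pow n
  · rw [zpow_negSucc]
    exact fg_isRatio_cast (IsRatio.inv (isRatio_fgE_pow (N := N) (n + 1)))
      (by rw [Int.negSucc_eq]; push_cast; ring)

theorem IsRatio.sigL (σ : ℂ ≃+* ℂ) {k : ℤ} (hk : Even k) {x : LS}
    (hx : IsRatio N k x) : IsRatio N k (sigL σ x) := by
  obtain ⟨t, ht⟩ := hk
  have hk2 : k = 2 * t := by omega
  have het : fgE ^ t ≠ 0 := zpow_ne_zero t fgE_ne_zero
  -- the weight-zero part
  have hy : IsRatio N 0 (x * (fgE ^ t)⁻¹) := by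
    have := IsRatio.mul hx (IsRatio.inv (isRatio_fgE_zpow (N := N) t))
    exact fg_isRatio_cast this (by omega)
  have hy' := IsRatio.sigL_zero σ hy
  have hx' : x = x * (fgE ^ t)⁻¹ * fgE ^ t := by
    rw [mul_assoc, inv_mul_cancel₀ het, mul_one]
  have h3 : S23x.sigL σ x = S23x.sigL σ (x * (fgE ^ t)⁻¹) * fgE ^ t := by
    conv_lhs => rw [hx']
    rw [map_mul, map_zpow₀, sigL_fgE]
  rw [h3]
  exact fg_isRatio_cast (IsRatio.mul hy' (isRatio_fgE_zpow (N := N) t)) (by omega)

end sigma

end Fermat.Agent.S23x
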