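/-
S23 project, module M06 (PairNorm): symmetric functions of the `SL(2,ℤ)`-conjugates of a pair of
modular forms for `Γ₀(N)`. Generalises Mathlib's `ModularForm.norm`.
-/
import Fermat.Agent.S23x.Defs

set_option autoImplicit false

namespace Fermat.Agent.S23x

open UpperHalfPlane ModularForm ModularFormClass CongruenceSubgroup SlashInvariantForm
open scoped MatrixGroups Manifold Topology Filter

noncomputable section

section general

variable {𝒢 ℋ : Subgroup (GL (Fin 2) ℝ)} {kf kg : ℤ}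

local notation "𝒬" => ℋ ⧸ (𝒢.subgroupOf ℋ)

/-- factor attached to a coset `q` and a subset `S` of the cosets -/
def m06_fac (F : ModularForm 𝒢 kf) (G : ModularForm 𝒢 kg) (S : Finset 𝒬) (q : 𝒬) : ℍ → ℂ :=
  open scoped Classical in
  if q ∈ S then quotientFunc G q else -quotientFunc F q

/-- weight attached to a coset `q` and a subset `S` of the cosets -/
def m06_wt (kf kg : ℤ) (S : Finset 𝒬) (q : 𝒬) : ℤ :=
  open scoped Classical in
  if q ∈ S then kg else kf

variable (F : ModularForm 𝒢 kf) (G : ModularForm 𝒢 kg)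

lemma m06_fac_slash {h : GL (Fin 2) ℝ} (hh : h ∈ ℋ) (S : Finset 𝒬) (q : 𝒬) :
    m06_fac F G S q ∣[m06_wt kf kg S q] h =
      m06_fac F G (S.map (MulAction.toPerm (⟨h, hh⟩ : ℋ)⁻¹).toEmbedding) ((⟨h, hh⟩ : ℋ)⁻¹ • q) := by
  classical
  have hmem : ((⟨h, hh⟩ : ℋ)⁻¹ • q ∈ S.map (MulAction.toPerm (⟨h, hh⟩ : ℋ)⁻¹).toEmbedding) ↔ q ∈ S := by
    rw [show ((⟨h, hh⟩ : ℋ)⁻¹ • q) = (MulAction.toPerm (⟨h, hh⟩ : ℋ)⁻¹).toEmbedding q from rfl,
      Finset.mem_map']
  unfold m06_fac m06_wt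
  by_cases hq : q ∈ S
  · rw [if_pos hq, if_pos hq, if_pos (hmem.mpr hq), quotientFunc_smul G hh q]
  · rw [if_neg hq, if_neg hq, if_neg (fun h' => hq (hmem.mp h')), SlashAction.neg_slash,
      quotientFunc_smul F hh q]

lemma m06_sum_wt [Fintype 𝒬] (S : Finset 𝒬) :
    ∑ q : 𝒬, m06_wt kf kg S q = (S.card : ℤ) * kg + ((Fintype.card 𝒬 : ℤ) - S.card) * kf := by
  classical
  unfold m06_wt
  rw [Finset.sum_ite, Finset.sum_const, Finset.sum_const, Finset.filter_mem_eq_inter,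
    Finset.univ_inter, Finset.filter_not, Finset.filter_mem_eq_inter, Finset.univ_inter,
    ← Finset.compl_eq_univ_sdiff, Finset.card_compl, nsmul_eq_mul, nsmul_eq_mul,
    Nat.cast_sub (Finset.card_le_univ S)]

/-- the term of the pair norm attached to a subset `S` -/
def m06_term [Fintype 𝒬] (S : Finset 𝒬) : ℍ → ℂ := ∏ q : 𝒬, m06_fac F G S q

variable (ℋ) in
/-- the `r`-th coefficient of `∏_q (G_q a - F_q b)` -/
def m06_coef [Fintype 𝒬] (r : ℕ) : ℍ → ℂ := ∑ S ∈ Finset.powersetCard r (Finset.univ : Finset 𝒬), m06_term F G S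

lemma m06_term_slash [Fintype 𝒬] [ℋ.HasDetPlusMinusOne] {h : GL (Fin 2) ℝ} (hh : h ∈ ℋ) (S : Finset 𝒬) :
    m06_term F G S ∣[(S.card : ℤ) * kg + ((Fintype.card 𝒬 : ℤ) - S.card) * kf] h =
      m06_term F G (S.map (MulAction.toPerm (⟨h, hh⟩ : ℋ)⁻¹).toEmbedding) := by
  classical
  rw [← m06_sum_wt (kf := kf) (kg := kg) S]
  unfold m06_term
  rw [ModularForm.prod_slash_sum_weights]
  simp only [Subgroup.HasDetPlusMinusOne.abs_det hh, one_zpow, one_smul]
  simp_rw [m06_fac_slash F G hh S]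
  exact Equiv.prod_comp (MulAction.toPerm (⟨h, hh⟩ : ℋ)⁻¹)
    (fun q => m06_fac F G (S.map (MulAction.toPerm (⟨h, hh⟩ : ℋ)⁻¹).toEmbedding) q)


lemma m06_coef_slash [Fintype 𝒬] [ℋ.HasDetPlusMinusOne] {h : GL (Fin 2) ℝ} (hh : h ∈ ℋ) (r : ℕ) :
    m06_coef ℋ F G r ∣[(r : ℤ) * kg + ((Fintype.card 𝒬 : ℤ) - r) * kf] h = m06_coef ℋ F G r := by
  classical
  unfold m06_coef
  rw [SlashAction.sum_slash]
  have h1 : ∀ S ∈ Finset.powersetCard r (Finset.univ : Finset 𝒬),
      m06_term F G S ∣[(r : ℤ) * kg + ((Fintype.card 𝒬 : ℤ) - r) * kf] h =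
        m06_term F G (S.map (MulAction.toPerm (⟨h, hh⟩ : ℋ)⁻¹).toEmbedding) := by
    intro S hS
    have hc : S.card = r := (Finset.mem_powersetCard.mp hS).2
    rw [← hc]
    exact m06_term_slash F G hh S
  rw [Finset.sum_congr rfl h1]
  have h2 : Finset.powersetCard r (Finset.univ : Finset 𝒬) =
      (Finset.powersetCard r (Finset.univ : Finset 𝒬)).map
        (Finset.mapEmbedding (MulAction.toPerm (⟨h, hh⟩ : ℋ)⁻¹).toEmbedding).toEmbedding := by
    rw [← Finset.powersetCard_map, Finset.map_univ_equiv]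
  conv_rhs => rw [h2]
  rw [Finset.sum_map]
  rfl

lemma m06_fac_mdiff (S : Finset 𝒬) (q : 𝒬) : MDiff (m06_fac F G S q) := by
  classical
  unfold m06_fac
  induction q using Quotient.inductionOn with
  | h r =>
    split_ifs
    · exact (ModularForm.translate G (r.val)⁻¹).holo'
    · exact ((ModularForm.translate F (r.val)⁻¹).holo').neg

lemma m06_coef_mdiff [Fintype 𝒬] (r : ℕ) : MDiff (m06_coef ℋ F G r) := by
  unfold m06_coef m06_term
  exact MDifferentiable.sum fun S _ => MDifferentiable.prod fun q _ => m06_fac_mdiff F G S q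

lemma m06_fac_bdd [𝒢.IsFiniteRelIndex ℋ] (S : Finset 𝒬) (q : 𝒬) {γ : GL (Fin 2) ℝ}
    (hc : IsCusp (γ • OnePoint.infty) ℋ) :
    IsBoundedAtImInfty (m06_fac F G S q ∣[m06_wt kf kg S q] γ) := by
  classical
  unfold m06_fac m06_wt
  induction q using Quotient.inductionOn with
  | h r =>
    obtain ⟨r, hr⟩ := r
    have hc' := hc.of_isFiniteRelIndex_conj (𝒢 := 𝒢) hr
    split_ifs
    · refine (ModularForm.translate G _).bdd_at_cusps' ?_ γ rfl
      simpa using hc'
    · rw [SlashAction.neg_slash]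
      refine Filter.BoundedAtFilter.neg ((ModularForm.translate F _).bdd_at_cusps' ?_ γ rfl)
      simpa using hc'

lemma m06_coef_bdd [Fintype 𝒬] [𝒢.IsFiniteRelIndex ℋ] (r : ℕ) {c : OnePoint ℝ} (hc : IsCusp c ℋ) :
    c.IsBoundedAt (m06_coef ℋ F G r) ((r : ℤ) * kg + ((Fintype.card 𝒬 : ℤ) - r) * kf) := by
  classical
  intro γ hγ
  subst hγ
  unfold m06_coef
  rw [SlashAction.sum_slash]
  have h1 : ∀ S ∈ Finset.powersetCard r (Finset.univ : Finset 𝒬),
      IsBoundedAtImInfty (m06_term F G S ∣[(r : ℤ) * kg + ((Fintype.card 𝒬 : ℤ) - r) * kf] γ) := by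
    intro S hS
    have hcard : S.card = r := (Finset.mem_powersetCard.mp hS).2
    rw [← hcard, ← m06_sum_wt (kf := kf) (kg := kg) S]
    unfold m06_term
    rw [ModularForm.prod_slash_sum_weights]
    refine Filter.BoundedAtFilter.smul _ (Filter.BoundedAtFilter.prod _ ?_)
    intro q _
    exact m06_fac_bdd F G S q hc
  unfold IsBoundedAtImInfty at h1 ⊢
  exact (Filter.boundedFilterSubmodule ℂ atImInfty).sum_mem h1

variable (ℋ) in
/-- the `r`-th coefficient as a modular form for `ℋ` -/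
def m06_form [Fintype 𝒬] [𝒢.IsFiniteRelIndex ℋ] [ℋ.HasDetPlusMinusOne] (r : ℕ) :
    ModularForm ℋ ((r : ℤ) * kg + ((Fintype.card 𝒬 : ℤ) - r) * kf) where
  toFun := m06_coef ℋ F G r
  slash_action_eq' _ hh := m06_coef_slash F G hh r
  holo' := m06_coef_mdiff F G r
  bdd_at_cusps' hc := m06_coef_bdd F G r hc


open scoped Classical in
lemma m06_term_eq [Fintype 𝒬] (S : Finset 𝒬) :
    m06_term F G S = (∏ q ∈ S, quotientFunc G q) * ∏ q ∈ Sᶜ, (-quotientFunc F q) := by
  classical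
  unfold m06_term m06_fac
  rw [Finset.prod_ite, Finset.filter_mem_eq_inter, Finset.univ_inter, Finset.filter_not,
    Finset.filter_mem_eq_inter, Finset.univ_inter, ← Finset.compl_eq_univ_sdiff]

lemma m06_prod_eq [Fintype 𝒬] (a b : ℍ → ℂ) :
    ∏ q : 𝒬, (quotientFunc G q * a - quotientFunc F q * b) =
      ∑ r ∈ Finset.range (Fintype.card 𝒬 + 1),
        m06_coef ℋ F G r * a ^ r * b ^ (Fintype.card 𝒬 - r) := by
  classical
  have h0 : ∀ q : 𝒬, quotientFunc G q * a - quotientFunc F q * b =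
      quotientFunc G q * a + (-quotientFunc F q) * b := fun q => by ring
  simp_rw [h0]
  rw [Finset.prod_add, Finset.sum_powerset, Finset.card_univ]
  refine Finset.sum_congr rfl fun r _ => ?_
  unfold m06_coef
  rw [Finset.sum_mul, Finset.sum_mul]
  refine Finset.sum_congr rfl fun S hS => ?_
  have hc : S.card = r := (Finset.mem_powersetCard.mp hS).2
  rw [m06_term_eq, Finset.prod_mul_distrib, Finset.prod_mul_distrib, Finset.prod_const,
    Finset.prod_const, ← Finset.compl_eq_univ_sdiff, Finset.card_compl, hc]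
  ring

lemma m06_coef_top [Fintype 𝒬] :
    m06_coef ℋ F G (Fintype.card 𝒬) = ∏ q : 𝒬, quotientFunc G q := by
  classical
  unfold m06_coef
  rw [← Finset.card_univ, Finset.powersetCard_self, Finset.sum_singleton, m06_term_eq,
    Finset.compl_univ, Finset.prod_empty, mul_one]

lemma m06_relation [Fintype 𝒬] :
    ∑ r ∈ Finset.range (Fintype.card 𝒬 + 1),
        m06_coef ℋ F G r * (⇑F) ^ r * (⇑G) ^ (Fintype.card 𝒬 - r) = 0 := by
  classical
  rw [← m06_prod_eq]
  refine Finset.prod_eq_zero (Finset.mem_univ (⟦(1 : ℋ)⟧ : 𝒬)) ?_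
  rw [quotientFunc_mk, quotientFunc_mk]
  simp only [OneMemClass.coe_one, inv_one, SlashAction.slash_one]
  ring

end general


section level

variable (N : ℕ) [NeZero N]

/-- the coset space `SL₂ℤ / Γ₀(N)` used by Mathlib's norm construction -/
abbrev m06_Q (N : ℕ) : Type :=
  ↥(𝒮ℒ) ⧸ ((Gamma0 N : Subgroup (GL (Fin 2) ℝ)).subgroupOf 𝒮ℒ)

local notation "𝒬N" => m06_Q N

theorem idx_pos : 0 < idx N := by
  unfold idx
  exact Nat.card_pos

omit [NeZero N] in
lemma m06_idx_eq [Fintype 𝒬N] : idx N = Fintype.card 𝒬N := by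
  unfold idx
  exact Nat.card_eq_fintype_card

/-- coefficients of `∏_q (g_q a - f_q b)` over the cosets `q` of `Γ₀(N)` in `SL₂ℤ`. -/
theorem exists_pairNorm {kf kg : ℤ} {f g : ℍ → ℂ}
    (hf : IsMF N kf f) (hg : IsMF N kg g) (hg0 : g ≠ 0) :
    ∃ c : ℕ → ℍ → ℂ, (∀ r ≤ idx N, IsMF1 (r * kg + ((idx N : ℤ) - r) * kf) (c r)) ∧
      c (idx N) ≠ 0 ∧
      ∑ r ∈ Finset.range (idx N + 1), c r * f ^ r * g ^ (idx N - r) = 0 := by
  classical
  obtain ⟨F, rfl⟩ := hf
  obtain ⟨G, rfl⟩ := hg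
  let _ : Fintype 𝒬N := Fintype.ofFinite _
  have hidx : idx N = Fintype.card 𝒬N := m06_idx_eq N
  refine ⟨fun r => m06_coef 𝒮ℒ F G r, ?_, ?_, ?_⟩
  · intro r _
    rw [hidx]
    exact ⟨m06_form 𝒮ℒ F G r, rfl⟩
  · show m06_coef 𝒮ℒ F G (idx N) ≠ 0
    rw [hidx, m06_coef_top]
    have h1 := ModularForm.norm_ne_zero 𝒮ℒ (f := G) hg0
    intro h2
    apply h1
    apply DFunLike.coe_injective
    rw [ModularForm.coe_norm]
    simpa using h2
  · show ∑ r ∈ Finset.range (idx N + 1), m06_coef 𝒮ℒ F G r * (⇑F) ^ r * (⇑G) ^ (idx N - r) = 0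
    rw [hidx]
    exact m06_relation F G

lemma m06_quotientFunc_one (q : 𝒬N) :
    quotientFunc (1 : ModularForm (Gamma0 N : Subgroup (GL (Fin 2) ℝ)) 0) q = 1 := by
  induction q using Quotient.inductionOn with
  | h r =>
    rw [quotientFunc_mk, ModularForm.one_coe_eq_one]
    have h := (1 : ModularForm 𝒮ℒ 0).slash_action_eq' (r.val)⁻¹ (inv_mem r.2)
    rw [SlashInvariantForm.toFun_eq_coe] at h
    simpa using h

/-- monic version (`g = 1`): characteristic polynomial of `f` over level one. -/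
theorem exists_charpoly {k : ℤ} {f : ℍ → ℂ} (hf : IsMF N k f) :
    ∃ a : ℕ → ℍ → ℂ, a 0 = 1 ∧ (∀ i : ℕ, IsMF1 (k * (i : ℤ)) (a i)) ∧
      ∑ i ∈ Finset.range (idx N + 1), a i * f ^ (idx N - i) = 0 := by
  classical
  obtain ⟨F, rfl⟩ := hf
  let _ : Fintype 𝒬N := Fintype.ofFinite _
  have hidx : idx N = Fintype.card 𝒬N := m06_idx_eq N
  set G : ModularForm (Gamma0 N : Subgroup (GL (Fin 2) ℝ)) 0 := 1 with hG
  refine ⟨fun i => if i ≤ idx N then m06_coef 𝒮ℒ F G (idx N - i) else 0, ?_, ?_, ?_⟩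
  · simp only [zero_le, if_true, Nat.sub_zero]
    rw [hidx, m06_coef_top]
    simp_rw [hG, m06_quotientFunc_one]
    simp
  · intro i
    by_cases hi : i ≤ idx N
    · simp only [hi, if_true]
      have hw : ((idx N - i : ℕ) : ℤ) * 0 + ((Fintype.card 𝒬N : ℤ) - ((idx N - i : ℕ) : ℤ)) * k =
          k * (i : ℤ) := by
        rw [← hidx, Nat.cast_sub hi]
        ring
      rw [← hw]
      exact ⟨m06_form 𝒮ℒ F G (idx N - i), rfl⟩
    · simp only [hi, if_false]
      exact ⟨0, rfl⟩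
  · have hrel := m06_relation (ℋ := 𝒮ℒ) F G
    rw [← hidx] at hrel
    rw [← Finset.sum_range_reflect] at hrel
    rw [← hrel]
    refine Finset.sum_congr rfl fun i hi => ?_
    have hi' : i ≤ idx N := Nat.lt_succ_iff.mp (Finset.mem_range.mp hi)
    simp only [hi', if_true, Nat.add_sub_cancel]
    rw [Nat.sub_sub_self hi', hG, ModularForm.one_coe_eq_one, one_pow, mul_one]

end level

end

end Fermat.Agent.S23x
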