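import Fermat.Agent.S23x.SigmaMFCore
import Fermat.Agent.S23x.LevelOne
import Fermat.Agent.S23x.PairNorm
import Fermat.Agent.S23x.FieldGen

/-!
# S23 project, module M12 (SigmaMF): conjugates of modular forms are modular forms

Exact-`Spec` statement `exists_isMF_sigP`, obtained from the core `exists_isMF_sigP_of`
(`SigmaMFCore.lean`) by plugging in M05 (`exists_isMF1_sigP`), M06 (`exists_charpoly`) and
M10 (`IsRatio.sigL`).
-/

set_option autoImplicit false

namespace Fermat.Agent.S23x

open UpperHalfPlane ModularForm ModularFormClass CongruenceSubgroup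
open scoped MatrixGroups Manifold

/-- **M12**: conjugates of modular forms are modular forms. -/
theorem exists_isMF_sigP (N : ℕ) [NeZero N] (σ : ℂ ≃+* ℂ) {k : ℤ} (hk : Even k) {f : ℍ → ℂ}
    (hf : IsMF N k f) : ∃ f', IsMF N k f' ∧ qExpansion 1 f' = sigP σ (qExpansion 1 f) :=
  exists_isMF_sigP_of N σ hf (IsRatio.sigL σ hk (isRatio_qL hf)) (exists_charpoly N hf)
    (fun h => exists_isMF1_sigP σ h)

end Fermat.Agent.S23x
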