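/-
S23 project, module M09a_JAsymp: the `j`-function is `SL₂(ℤ)`-invariant and `j(z) - e^{-2πiz}` is
bounded on `{Im z ≥ 1}`.
-/
import Fermat.Agent.S23x.Defs

set_option autoImplicit false

namespace Fermat.Agent.S23x

open UpperHalfPlane ModularForm ModularFormClass CongruenceSubgroup Function
open scoped MatrixGroups Manifold

local notation "𝕢" => Periodic.qParam

theorem ja_mem (γ : SL(2, ℤ)) : (γ : GL (Fin 2) ℝ) ∈ 𝒮ℒ := ⟨γ, rfl⟩

theorem ja_E4_smul (γ : SL(2, ℤ)) (z : ℍ) : E₄ (γ • z) = (denom γ z) ^ (4 : ℤ) * E₄ z := by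
  have := SlashInvariantForm.slash_action_eqn'' E₄ (ja_mem γ) z
  simpa using this

theorem ja_disc_smul (γ : SL(2, ℤ)) (z : ℍ) :
    ModularForm.discriminant (γ • z) = (denom γ z) ^ (12 : ℤ) * ModularForm.discriminant z := by
  have := SlashInvariantForm.slash_action_eqn'' CuspForm.discriminant (ja_mem γ) z
  simpa using this

/-- `jFn` is `SL₂ℤ`-invariant. -/
theorem jFn_smul (γ : SL(2, ℤ)) (z : ℍ) : jFn (γ • z) = jFn z := by
  unfold jFn
  rw [ja_E4_smul, ja_disc_smul]
  have hd : denom γ z ≠ 0 := denom_ne_zero γ z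
  have hΔ := ModularForm.discriminant_ne_zero z
  have h12 : (denom γ z) ^ (12 : ℤ) = ((denom γ z) ^ (4 : ℤ)) ^ 3 := by
    rw [← zpow_natCast, ← zpow_mul]; norm_num
  rw [h12]
  have h4 : (denom γ z) ^ (4 : ℤ) ≠ 0 := zpow_ne_zero _ hd
  field_simp

/-- The product `∏ (1 - q^(n+1))^24`. -/
noncomputable def jaP (q : ℂ) : ℂ := ∏' n : ℕ, (1 - q ^ (n + 1)) ^ 24

theorem jaP_differentiableOn : DifferentiableOn ℂ jaP (Metric.ball (0 : ℂ) 1) :=
  differentiableOn_tprod_one_sub_pow_pow 24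

theorem jaP_zero : jaP 0 = 1 := by
  simp [jaP]

theorem ja_disc_eq (z : ℍ) :
    ModularForm.discriminant z = 𝕢 1 z * jaP (𝕢 1 z) := by
  rw [ModularForm.discriminant_eq_q_prod]
  congr 1

theorem jaP_ne_zero {q : ℂ} (hq : ‖q‖ < 1) : jaP q ≠ 0 := by
  by_cases hq0 : q = 0
  · rw [hq0, jaP_zero]; exact one_ne_zero
  · have him := Periodic.im_invQParam_pos_of_norm_lt_one one_pos hq hq0
    have hqq : 𝕢 1 (Periodic.invQParam 1 q) = q := Periodic.qParam_right_inv one_ne_zero hq0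
    have h := ModularForm.discriminant_ne_zero ⟨_, him⟩
    rw [ja_disc_eq] at h
    rw [hqq] at h
    exact right_ne_zero_of_mul h

/-- `E₄³` as a function of `q`. -/
noncomputable def jaA (q : ℂ) : ℂ := (cuspFunction 1 (⇑E₄) q) ^ 3

theorem jaA_differentiableOn : DifferentiableOn ℂ jaA (Metric.ball (0 : ℂ) 1) := by
  intro q hq
  have hq' : ‖q‖ < 1 := by simpa using hq
  exact ((ModularFormClass.differentiableAt_cuspFunction E₄ one_pos one_mem_strictPeriods_SL
    hq').pow 3).differentiableWithinAt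

theorem jaA_zero : jaA 0 = 1 := by
  have h := EisensteinSeries.E_qExpansion_coeff_zero (k := 4) (by norm_num) ⟨2, rfl⟩
  simp only [qExpansion_coeff, Nat.factorial_zero, Nat.cast_one, inv_one, iteratedDeriv_zero,
    one_mul] at h
  unfold jaA
  change (cuspFunction 1 (⇑(E (k := 4) (by norm_num))) 0) ^ 3 = 1
  rw [h, one_pow]

theorem jaA_apply (z : ℍ) : jaA (𝕢 1 z) = E₄ z ^ 3 := by
  unfold jaA
  rw [SlashInvariantFormClass.eq_cuspFunction E₄ z one_mem_strictPeriods_SL one_ne_zero]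

/-- The numerator `E₄³ - ∏(1-qⁿ)^24` as a function of `q`; it vanishes at `q = 0`. -/
noncomputable def jaN (q : ℂ) : ℂ := jaA q - jaP q

theorem jaN_differentiableOn : DifferentiableOn ℂ jaN (Metric.ball (0 : ℂ) 1) :=
  jaA_differentiableOn.sub jaP_differentiableOn

theorem jaN_zero : jaN 0 = 0 := by
  simp [jaN, jaA_zero, jaP_zero]

theorem ja_key (z : ℍ) :
    jFn z - Complex.exp (-2 * Real.pi * Complex.I * z) =
      dslope jaN 0 (𝕢 1 z) / jaP (𝕢 1 z) := by
  set q := 𝕢 1 z with hq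
  have hq0 : q ≠ 0 := by
    rw [hq]; unfold Periodic.qParam; exact Complex.exp_ne_zero _
  have hq1 : ‖q‖ < 1 := by
    rw [hq]; exact_mod_cast norm_qParam_lt_one 1 z
  have hP := jaP_ne_zero hq1
  have hexp : Complex.exp (-2 * Real.pi * Complex.I * z) = q⁻¹ := by
    rw [hq]; unfold Periodic.qParam
    rw [← Complex.exp_neg]
    congr 1
    simp
  have hN : q * dslope jaN 0 q = jaA q - jaP q := by
    have := sub_smul_dslope jaN 0 q
    rw [jaN_zero, sub_zero, sub_zero, smul_eq_mul] at this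
    rw [this, jaN]
  unfold jFn
  rw [hexp, ja_disc_eq, ← hq, ← jaA_apply z, ← hq]
  field_simp
  rw [hN]

/-- `j(z) - e^{-2πiz}` is bounded on `{Im z ≥ 1}`. -/
theorem exists_bound_jFn_sub_exp :
    ∃ C : ℝ, ∀ z : ℍ, 1 ≤ z.im →
      ‖jFn z - Complex.exp (-2 * Real.pi * Complex.I * z)‖ ≤ C := by
  set r : ℝ := Real.exp (-2 * Real.pi) with hr
  have hr1 : r < 1 := by
    rw [hr]; exact Real.exp_lt_one_iff.mpr (by nlinarith [Real.pi_pos])
  have hr0 : 0 < r := Real.exp_pos _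
  have hsub : Metric.closedBall (0 : ℂ) r ⊆ Metric.ball (0 : ℂ) 1 :=
    Metric.closedBall_subset_ball hr1
  have hNcont : ContinuousOn jaN (Metric.closedBall (0 : ℂ) r) :=
    (jaN_differentiableOn.mono hsub).continuousOn
  have hNdiff : DifferentiableAt ℂ jaN 0 :=
    jaN_differentiableOn.differentiableAt (Metric.ball_mem_nhds _ one_pos)
  have hBcont : ContinuousOn (dslope jaN 0) (Metric.closedBall (0 : ℂ) r) :=
    (continuousOn_dslope (Metric.closedBall_mem_nhds _ hr0)).mpr ⟨hNcont, hNdiff⟩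
  have hPcont : ContinuousOn jaP (Metric.closedBall (0 : ℂ) r) :=
    (jaP_differentiableOn.mono hsub).continuousOn
  have hquot : ContinuousOn (fun q => dslope jaN 0 q / jaP q) (Metric.closedBall (0 : ℂ) r) :=
    hBcont.div hPcont fun q hq => jaP_ne_zero (by simpa using hsub hq)
  obtain ⟨C, hC⟩ := (isCompact_closedBall (0 : ℂ) r).exists_bound_of_continuousOn hquot
  refine ⟨C, fun z hz => ?_⟩
  rw [ja_key]
  apply hC
  rw [mem_closedBall_zero_iff, Periodic.norm_qParam, hr]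
  apply Real.exp_le_exp.mpr
  have : (z : ℂ).im = z.im := rfl
  rw [this]
  have hpi := Real.pi_pos
  rw [div_one]
  nlinarith

end Fermat.Agent.S23x
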