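import Fermat.Agent.S23x.CosetsCore
import Fermat.Agent.S23x.JAsymp

/-! S23 project, module M09b: the `idx N` conjugates of `j_N` take pairwise distinct values at a
suitable point (`CosetsCore` + the facts about `j` from `JAsymp`). -/

set_option autoImplicit false

namespace Fermat.Agent.S23x

open UpperHalfPlane
open scoped MatrixGroups

theorem exists_point_conjugates_distinct (N : ℕ) [NeZero N] (p : Polynomial ℂ) (hp : p ≠ 0) :
    ∃ (z : ℍ) (S : Finset ℂ), S.card = idx N ∧ p.eval (jFn z) ≠ 0 ∧
      ∀ w ∈ S, ∃ γ : SL(2, ℤ), w = jFn (mulN N (γ • z)) := by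
  obtain ⟨C, hC⟩ := exists_bound_jFn_sub_exp
  exact m09b_exists_point_conjugates_distinct_of jFn_smul hC N p hp

end Fermat.Agent.S23x
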