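import Fermat.Agent.S23x.QRing
import Fermat.Agent.S23x.Cosets

/-!
# S23 project, module M09c: `[ℂ(j, j_N) : ℂ(j)] ≥ idx N`

Any nonzero polynomial over `Kj = ℂ(j)` killing `j_N` has degree at least `idx N`.
-/

set_option autoImplicit false

namespace Fermat.Agent.S23x

open UpperHalfPlane ModularForm ModularFormClass CongruenceSubgroup Polynomial
open scoped MatrixGroups Manifold

/-- `Δ` as a level-one modular form. -/
theorem m09c_isMF1_discriminant : IsMF1 12 ModularForm.discriminant := by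
  refine ⟨⟨CuspForm.discriminant.toSlashInvariantForm, CuspForm.discriminant.holo', ?_⟩, rfl⟩
  intro c hc g hg
  exact (CuspForm.discriminant.zero_at_cusps' hc g hg).isBoundedAtImInfty

theorem m09c_isMF1_E4 : IsMF1 4 (⇑E₄) := ⟨E₄, rfl⟩

/-- every element of `Kj` is a ratio of polynomials in `jL`. -/
theorem m09c_exists_ratio (x : Kj) :
    ∃ r s : ℂ[X], aeval jL s ≠ 0 ∧ (x : LS) * aeval jL s = aeval jL r := by
  obtain ⟨r, s, h⟩ := (IntermediateField.mem_adjoin_simple_iff ℂ (x : LS)).mp x.2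
  by_cases hs : aeval jL s = 0
  · refine ⟨0, 1, by simp, ?_⟩
    rw [h, hs]; simp
  · exact ⟨r, s, hs, by rw [h, div_mul_cancel₀ _ hs]⟩


theorem m09c_algebraMap_eq (c : ℂ) : algebraMap ℂ LS c = HahnSeries.C c := by
  rw [HahnSeries.algebraMap_apply']
  simp

theorem m09c_smul_eq_mul (c : ℂ) (x : LS) :
    @HSMul.hSMul ℂ LS LS (@instHSMul ℂ LS HahnSeries.instSMul) c x = algebraMap ℂ LS c * x := by
  rw [m09c_algebraMap_eq, HahnSeries.C_mul_eq_smul]

theorem m09c_periodic_nat {f : ℍ → ℂ} (hf : ∀ z : ℍ, f ((1 : ℝ) +ᵥ z) = f z) (n : ℕ) (z : ℍ) :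
    f ((n : ℝ) +ᵥ z) = f z := by
  induction n with
  | zero => simp
  | succ k ih =>
    have : (((k + 1 : ℕ) : ℝ)) +ᵥ z = (1 : ℝ) +ᵥ ((k : ℝ) +ᵥ z) := by
      rw [vadd_vadd]; congr 1; push_cast; ring
    rw [this, hf, ih]

theorem m09c_mulN_vadd (N : ℕ) [NeZero N] (z : ℍ) :
    mulN N ((1 : ℝ) +ᵥ z) = (N : ℝ) +ᵥ mulN N z := by
  apply UpperHalfPlane.ext
  simp [mulN, UpperHalfPlane.coe_vadd]
  ring

theorem m09c_isNice_comp_mulN (N : ℕ) [NeZero N] {f : ℍ → ℂ} (hf : IsNice f) :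
    IsNice (fun z => f (mulN N z)) := by
  obtain ⟨hd, hp, hb⟩ := hf
  refine ⟨?_, ?_, ?_⟩
  · rw [UpperHalfPlane.mdifferentiable_iff] at hd ⊢
    have hN : (0 : ℝ) < N := Nat.cast_pos.mpr (NeZero.pos N)
    have hmaps : Set.MapsTo (fun z : ℂ => (N : ℂ) * z) {z : ℂ | 0 < z.im} {z : ℂ | 0 < z.im} := by
      intro z hz
      simp only [Set.mem_ofPred_eq] at hz ⊢
      simpa using mul_pos hN hz
    have h1 : DifferentiableOn ℂ ((f ∘ ofComplex) ∘ fun z : ℂ => (N : ℂ) * z) {z : ℂ | 0 < z.im} :=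
      hd.comp (by fun_prop) hmaps
    refine h1.congr fun z hz => ?_
    simp only [Function.comp_apply]
    congr 1
    apply UpperHalfPlane.ext
    have hz' : 0 < ((N : ℂ) * z).im := hmaps hz
    rw [UpperHalfPlane.ofComplex_apply_of_im_pos hz']
    simp [mulN, UpperHalfPlane.ofComplex_apply_of_im_pos hz]
  · intro z
    show f (mulN N ((1 : ℝ) +ᵥ z)) = f (mulN N z)
    rw [m09c_mulN_vadd, m09c_periodic_nat hp]
  · rw [UpperHalfPlane.isBoundedAtImInfty_iff] at hb ⊢
    obtain ⟨M, A, h⟩ := hb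
    refine ⟨M, max A 0, fun z hz => h _ ?_⟩
    have hN : (1 : ℝ) ≤ N := by exact_mod_cast NeZero.one_le
    have him : (mulN N z).im = N * z.im := by
      show ((N : ℂ) * (z : ℂ)).im = N * z.im
      simp
    rw [him]
    have hz0 : 0 ≤ z.im := z.im_pos.le
    nlinarith [le_max_left A 0, le_max_right A 0]

section FunIdentity

variable (N : ℕ) [NeZero N]

/-- the function `z ↦ E₄(Nz)` -/
noncomputable def m09c_e4N : ℍ → ℂ := fun z => E₄ (mulN N z)
/-- the function `z ↦ Δ(Nz)` -/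
noncomputable def m09c_DlN : ℍ → ℂ := fun z => ModularForm.discriminant (mulN N z)

theorem m09c_nice_e4 : IsNice (⇑E₄) := IsMF1.isNice m09c_isMF1_E4
theorem m09c_nice_Dl : IsNice ModularForm.discriminant := IsMF1.isNice m09c_isMF1_discriminant
theorem m09c_nice_e4N : IsNice (m09c_e4N N) := m09c_isNice_comp_mulN N m09c_nice_e4
theorem m09c_nice_DlN : IsNice (m09c_DlN N) := m09c_isNice_comp_mulN N m09c_nice_Dl

theorem m09c_DeltaL_ne_zero : DeltaL ≠ 0 := by
  intro h
  have := (qL_eq_zero_iff m09c_nice_Dl).mp h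
  exact ModularForm.discriminant_ne_zero _ (congrFun this UpperHalfPlane.I)

theorem m09c_qL_DlN_ne_zero : qL (m09c_DlN N) ≠ 0 := by
  intro h
  have := (qL_eq_zero_iff (m09c_nice_DlN N)).mp h
  have h1 := congrFun this UpperHalfPlane.I
  exact ModularForm.discriminant_ne_zero _ h1

theorem m09c_jNL_eq : jNL N = qL (m09c_e4N N) ^ 3 / qL (m09c_DlN N) := rfl

/-- homogenisation of a polynomial in `j` of degree `≤ d` into a function on `ℍ`. -/
noncomputable def m09c_hom (d : ℕ) (q : ℂ[X]) : ℍ → ℂ :=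
  ∑ a ∈ Finset.range (d + 1), (q.coeff a) • ((⇑E₄) ^ (3 * a) * ModularForm.discriminant ^ (d - a))

theorem m09c_hom_nice (d : ℕ) (q : ℂ[X]) : IsNice (m09c_hom d q) := by
  unfold m09c_hom
  refine isNice_sum _ _ fun a _ => ?_
  exact IsNice.smul (IsNice.mul (IsNice.pow m09c_nice_e4 _)
    (IsNice.pow m09c_nice_Dl _)) _

theorem m09c_qL_hom (d : ℕ) (q : ℂ[X]) (hq : q.natDegree ≤ d) :
    qL (m09c_hom d q) = DeltaL ^ d * aeval jL q := by
  unfold m09c_hom
  rw [qL_sum _ _ (fun a _ => IsNice.smul (IsNice.mul (IsNice.pow m09c_nice_e4 _)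
    (IsNice.pow m09c_nice_Dl _)) _)]
  rw [Polynomial.aeval_eq_sum_range' (Nat.lt_succ_of_le hq), Finset.mul_sum]
  refine Finset.sum_congr rfl fun a ha => ?_
  have ha' : a ≤ d := Nat.lt_succ_iff.mp (Finset.mem_range.mp ha)
  rw [qL_smul (IsNice.mul (IsNice.pow m09c_nice_e4 _)
    (IsNice.pow m09c_nice_Dl _)), qL_mul (IsNice.pow m09c_nice_e4 _)
    (IsNice.pow m09c_nice_Dl _), qL_pow m09c_nice_e4, qL_pow m09c_nice_Dl]
  have hD : DeltaL ≠ 0 := m09c_DeltaL_ne_zero
  rw [m09c_smul_eq_mul, Algebra.smul_def]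
  have : DeltaL ^ d = DeltaL ^ (d - a) * DeltaL ^ a := by rw [← pow_add, Nat.sub_add_cancel ha']
  show algebraMap ℂ LS (q.coeff a) * (E4L ^ (3 * a) * DeltaL ^ (d - a))
    = DeltaL ^ d * (algebraMap ℂ LS (q.coeff a) * jL ^ a)
  rw [jL, div_pow, this, ← pow_mul]
  field_simp

theorem m09c_hom_apply (d : ℕ) (q : ℂ[X]) (hq : q.natDegree ≤ d) (z : ℍ) :
    m09c_hom d q z = ModularForm.discriminant z ^ d * q.eval (jFn z) := by
  unfold m09c_hom
  rw [Polynomial.eval_eq_sum_range' (Nat.lt_succ_of_le hq), Finset.mul_sum, Finset.sum_apply]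
  refine Finset.sum_congr rfl fun a ha => ?_
  have ha' : a ≤ d := Nat.lt_succ_iff.mp (Finset.mem_range.mp ha)
  have hD : ModularForm.discriminant z ≠ 0 := ModularForm.discriminant_ne_zero z
  have : ModularForm.discriminant z ^ d
      = ModularForm.discriminant z ^ (d - a) * ModularForm.discriminant z ^ a := by
    rw [← pow_add, Nat.sub_add_cancel ha']
  simp only [Pi.smul_apply, Pi.mul_apply, Pi.pow_apply, smul_eq_mul]
  rw [jFn, div_pow, this, ← pow_mul]
  field_simp

theorem m09c_fun_identity (n : ℕ) (p : ℕ → ℂ[X])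
    (h : ∑ b ∈ Finset.range (n + 1), aeval jL (p b) * jNL N ^ b = 0) (z : ℍ) :
    ∑ b ∈ Finset.range (n + 1), (p b).eval (jFn z) * jFn (mulN N z) ^ b = 0 := by
  set d := (Finset.range (n + 1)).sup (fun b => (p b).natDegree) with hd
  have hdeg : ∀ b ∈ Finset.range (n + 1), (p b).natDegree ≤ d := fun b hb =>
    Finset.le_sup (f := fun b => (p b).natDegree) hb
  have hterm : ∀ b, IsNice (m09c_hom d (p b) * ((m09c_e4N N) ^ (3 * b) * (m09c_DlN N) ^ (n - b))) :=
    fun b => IsNice.mul (m09c_hom_nice d (p b))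
      (IsNice.mul (IsNice.pow (m09c_nice_e4N N) _) (IsNice.pow (m09c_nice_DlN N) _))
  set G : ℍ → ℂ := ∑ b ∈ Finset.range (n + 1),
    m09c_hom d (p b) * ((m09c_e4N N) ^ (3 * b) * (m09c_DlN N) ^ (n - b)) with hG
  have hGnice : IsNice G := isNice_sum _ _ fun b _ => hterm b
  have hDN : qL (m09c_DlN N) ≠ 0 := m09c_qL_DlN_ne_zero N
  have hqG : qL G = DeltaL ^ d * qL (m09c_DlN N) ^ n *
      ∑ b ∈ Finset.range (n + 1), aeval jL (p b) * jNL N ^ b := by
    rw [hG, qL_sum _ _ (fun b _ => hterm b), Finset.mul_sum]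
    refine Finset.sum_congr rfl fun b hb => ?_
    have hb' : b ≤ n := Nat.lt_succ_iff.mp (Finset.mem_range.mp hb)
    rw [qL_mul (m09c_hom_nice d (p b))
      (IsNice.mul (IsNice.pow (m09c_nice_e4N N) _) (IsNice.pow (m09c_nice_DlN N) _)),
      qL_mul (IsNice.pow (m09c_nice_e4N N) _) (IsNice.pow (m09c_nice_DlN N) _),
      qL_pow (m09c_nice_e4N N), qL_pow (m09c_nice_DlN N), m09c_qL_hom d (p b) (hdeg b hb),
      m09c_jNL_eq]
    have : qL (m09c_DlN N) ^ n = qL (m09c_DlN N) ^ (n - b) * qL (m09c_DlN N) ^ b := by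
      rw [← pow_add, Nat.sub_add_cancel hb']
    rw [div_pow, this, ← pow_mul]
    field_simp
  have hG0 : G = 0 := by
    rw [← qL_eq_zero_iff hGnice, hqG, h, mul_zero]
  have hGz : G z = 0 := by rw [hG0]; rfl
  have hD : ModularForm.discriminant z ≠ 0 := ModularForm.discriminant_ne_zero z
  have hDN' : ModularForm.discriminant (mulN N z) ≠ 0 := ModularForm.discriminant_ne_zero _
  have hexp : G z = ModularForm.discriminant z ^ d * ModularForm.discriminant (mulN N z) ^ n *
      ∑ b ∈ Finset.range (n + 1), (p b).eval (jFn z) * jFn (mulN N z) ^ b := by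
    rw [hG, Finset.sum_apply, Finset.mul_sum]
    refine Finset.sum_congr rfl fun b hb => ?_
    have hb' : b ≤ n := Nat.lt_succ_iff.mp (Finset.mem_range.mp hb)
    have : ModularForm.discriminant (mulN N z) ^ n
        = ModularForm.discriminant (mulN N z) ^ (n - b) * ModularForm.discriminant (mulN N z) ^ b := by
      rw [← pow_add, Nat.sub_add_cancel hb']
    simp only [Pi.mul_apply, Pi.pow_apply]
    rw [m09c_hom_apply d (p b) (hdeg b hb) z, this]
    show _ * (E₄ (mulN N z) ^ (3 * b) * ModularForm.discriminant (mulN N z) ^ (n - b)) = _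
    have hj : jFn (mulN N z) = E₄ (mulN N z) ^ 3 / ModularForm.discriminant (mulN N z) := rfl
    rw [hj, div_pow, ← pow_mul]
    field_simp
  rw [hexp] at hGz
  exact (mul_eq_zero.mp hGz).resolve_left (mul_ne_zero (pow_ne_zero _ hD) (pow_ne_zero _ hDN'))

end FunIdentity

/-- **M09c**: any nonzero polynomial over `ℂ(j)` killing `j_N` has degree at least `idx N`. -/
theorem natDegree_ge_of_aeval_jNL_eq_zero (N : ℕ) [NeZero N] (P : Polynomial Kj) (hP : P ≠ 0)
    (h : Polynomial.aeval (jNL N) P = 0) : idx N ≤ P.natDegree := by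
  classical
  set n := P.natDegree with hn
  choose r s hs hrs using fun b : ℕ => m09c_exists_ratio (P.coeff b)
  set S : ℂ[X] := ∏ b ∈ Finset.range (n + 1), s b with hSdef
  set p : ℕ → ℂ[X] := fun b => r b * ∏ c ∈ (Finset.range (n + 1)).erase b, s c with hpdef
  have hS : aeval jL S ≠ 0 := by
    rw [hSdef, map_prod]
    exact Finset.prod_ne_zero_iff.mpr fun b _ => hs b
  have hp : ∀ b ∈ Finset.range (n + 1), aeval jL (p b) = ((P.coeff b : Kj) : LS) * aeval jL S := by
    intro b hb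
    have h1 : S = s b * ∏ c ∈ (Finset.range (n + 1)).erase b, s c := by
      rw [hSdef, Finset.mul_prod_erase _ _ hb]
    rw [hpdef, h1]
    simp only [map_mul]
    rw [← hrs b]
    ring
  have hae : aeval (jNL N) P
      = ∑ b ∈ Finset.range (n + 1), ((P.coeff b : Kj) : LS) * jNL N ^ b := by
    rw [aeval_eq_sum_range]
    refine Finset.sum_congr rfl fun b _ => ?_
    rw [Algebra.smul_def]
    rfl
  have hrel : ∑ b ∈ Finset.range (n + 1), aeval jL (p b) * jNL N ^ b = 0 := by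
    have h2 : ∑ b ∈ Finset.range (n + 1), aeval jL (p b) * jNL N ^ b
        = aeval jL S * ∑ b ∈ Finset.range (n + 1), ((P.coeff b : Kj) : LS) * jNL N ^ b := by
      rw [Finset.mul_sum]
      refine Finset.sum_congr rfl fun b hb => ?_
      rw [hp b hb]
      ring
    rw [h2, ← hae, h, mul_zero]
  have hlead : aeval jL (p n) ≠ 0 := by
    rw [hp n (Finset.self_mem_range_succ n)]
    refine mul_ne_zero ?_ hS
    have : P.coeff n ≠ 0 := by
      rw [hn]; exact Polynomial.leadingCoeff_ne_zero.mpr hP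
    exact fun h0 => this (Subtype.ext h0)
  have hpn : p n ≠ 0 := fun h0 => hlead (by rw [h0, map_zero])
  obtain ⟨z, T, hcard, hz, hT⟩ := exists_point_conjugates_distinct N (p n) hpn
  set R : ℂ[X] := ∑ b ∈ Finset.range (n + 1), C ((p b).eval (jFn z)) * X ^ b with hR
  have hRdeg : R.natDegree ≤ n := by
    rw [hR]
    refine Polynomial.natDegree_sum_le_of_forall_le _ _ fun b hb => ?_
    refine (Polynomial.natDegree_C_mul_X_pow_le _ _).trans ?_
    exact Nat.lt_succ_iff.mp (Finset.mem_range.mp hb)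
  have hRcoeff : R.coeff n = (p n).eval (jFn z) := by
    rw [hR, Polynomial.finsetSum_coeff]
    rw [Finset.sum_eq_single n]
    · simp
    · intro b _ hbn
      rw [Polynomial.coeff_C_mul_X_pow]
      simp [Ne.symm hbn]
    · intro hnn
      exact absurd (Finset.self_mem_range_succ n) hnn
  have hRne : R ≠ 0 := by
    intro h0
    rw [h0, Polynomial.coeff_zero] at hRcoeff
    exact hz hRcoeff.symm
  have hroots : ∀ w ∈ T, R.IsRoot w := by
    intro w hw
    obtain ⟨γ, rfl⟩ := hT w hw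
    have h3 := m09c_fun_identity N n p hrel (γ • z)
    rw [Polynomial.IsRoot.def, hR, Polynomial.eval_finsetSum]
    rw [← h3]
    refine Finset.sum_congr rfl fun b _ => ?_
    rw [Polynomial.eval_mul, Polynomial.eval_C, Polynomial.eval_pow, Polynomial.eval_X,
      jFn_smul]
  calc idx N = T.card := hcard.symm
    _ ≤ R.natDegree := Polynomial.card_le_degree_of_subset_roots
        (fun w hw => (Polynomial.mem_roots hRne).mpr (hroots w (Finset.mem_val.mp hw)))
    _ ≤ n := hRdeg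

end Fermat.Agent.S23x
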