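import Mathlib

/-!
# S23 project, module M01 (AutC): the fixed field of all field automorphisms of `ℂ` is `ℚ`

Route: an automorphism of a polynomial ring on a transcendence basis extends to the algebraic
closure (`IsAlgClosure.equivOfEquiv`).
* transcendental `x`: put `x` in a transcendence basis over `ℚ`, shift that variable by `1`;
* algebraic `x ∉ ℚ`: some `τ ∈ Gal(Qbar/ℚ)` moves `x` (`Qbar` the algebraic closure of `ℚ` in `ℂ`);
  let `τ` act on the coefficients of polynomials over `Qbar` in a transcendence basis of `ℂ/Qbar`.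
-/

set_option autoImplicit false

namespace Fermat.Agent.S23x

open MvPolynomial

/-- Extension lemma: `K` algebraically closed, `v` an `R`-transcendence basis of `K`; every ring
automorphism `φ` of `MvPolynomial ι R` extends to a ring automorphism of `K`. -/
theorem m01_exists_extension {R K ι : Type*} [Field R] [Field K] [Algebra R K] [IsAlgClosed K]
    (v : ι → K) (hv : IsTranscendenceBasis R v)
    (φ : MvPolynomial ι R ≃+* MvPolynomial ι R) :
    ∃ σ : K ≃+* K, ∀ p : MvPolynomial ι R, σ (aeval v p) = aeval v (φ p) := by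
  have := IsAlgClosed.isAlgClosure_of_transcendence_basis v hv
  let E : MvPolynomial ι R ≃ₐ[R] Algebra.adjoin R (Set.range v) := hv.1.aevalEquiv
  let e : Algebra.adjoin R (Set.range v) ≃+* Algebra.adjoin R (Set.range v) :=
    (E.symm.toRingEquiv.trans φ).trans E.toRingEquiv
  refine ⟨IsAlgClosure.equivOfEquiv K K e, fun p => ?_⟩
  have h1 : ∀ q : MvPolynomial ι R,
      algebraMap (Algebra.adjoin R (Set.range v)) K (E q) = aeval v q := by
    intro q
    exact hv.1.algebraMap_aevalEquiv q
  rw [← h1 p, IsAlgClosure.equivOfEquiv_algebraMap, ← h1 (φ p)]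
  congr 1
  simp [e]

/-- The shift automorphism `X i₀ ↦ X i₀ + c` of a polynomial ring. -/
noncomputable def m01_shift {R ι : Type*} [CommRing R] [DecidableEq ι] (i₀ : ι) (c : R) :
    MvPolynomial ι R ≃ₐ[R] MvPolynomial ι R :=
  AlgEquiv.ofAlgHom
    (aeval fun i => if i = i₀ then X i + C c else X i)
    (aeval fun i => if i = i₀ then X i - C c else X i)
    (by
      ext i
      by_cases h : i = i₀
      · subst h; simp
      · simp [h])
    (by
      ext i
      by_cases h : i = i₀
      · subst h; simp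
      · simp [h])

theorem m01_shift_X {R ι : Type*} [CommRing R] [DecidableEq ι] (i₀ : ι) (c : R) :
    m01_shift i₀ c (X i₀) = X i₀ + C c := by
  simp [m01_shift]

/-- A transcendental element of an algebraically closed field is moved by some automorphism. -/
theorem m01_exists_aut_ne_of_transcendental {K : Type*} [Field K] [Algebra ℚ K] [IsAlgClosed K]
    (x : K) (hx : Transcendental ℚ x) : ∃ σ : K ≃+* K, σ x ≠ x := by
  classical
  have hs : AlgebraicIndepOn ℚ id ({x} : Set K) := by
    have : AlgebraicIndependent ℚ (fun i : ({x} : Set K) => id (i : K)) := by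
      rw [algebraicIndependent_singleton_iff (⟨x, rfl⟩ : ({x} : Set K))]
      exact hx
    exact this
  obtain ⟨t, hxt, ht⟩ := exists_isTranscendenceBasis_superset hs
  have hx_mem : x ∈ t := hxt rfl
  obtain ⟨σ, hσ⟩ := m01_exists_extension (R := ℚ) ((↑) : t → K) ht
    (m01_shift (⟨x, hx_mem⟩ : t) (1 : ℚ)).toRingEquiv
  refine ⟨σ, ?_⟩
  have h := hσ (X ⟨x, hx_mem⟩)
  simp only [aeval_X, AlgEquiv.coe_ringEquiv, m01_shift_X, map_add, map_one] at h
  rw [h]
  simp

/-- An algebraic, non-rational element of an algebraically closed field of characteristic zero is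
moved by some automorphism. -/
theorem m01_exists_aut_ne_of_isAlgebraic {K : Type*} [Field K] [Algebra ℚ K] [IsAlgClosed K]
    (x : K) (hx : IsAlgebraic ℚ x) (hxq : x ∉ Set.range (algebraMap ℚ K)) :
    ∃ σ : K ≃+* K, σ x ≠ x := by
  classical
  -- the algebraic closure of `ℚ` in `K`
  let Qb : IntermediateField ℚ K := algebraicClosure ℚ K
  have hxQ : x ∈ Qb := mem_algebraicClosure_iff.mpr hx
  let xt : Qb := ⟨x, hxQ⟩
  let _ : Algebra ℚ Qb := (algebraicClosure ℚ K).algebra'
  have : IsAlgClosure ℚ Qb := algebraicClosure.isAlgClosure ℚ K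
  have : IsGalois ℚ Qb := by
    have h1 : Algebra.IsAlgebraic ℚ Qb := IsAlgClosure.isAlgebraic
    have h2 : Algebra.IsSeparable ℚ Qb := Algebra.IsAlgebraic.isSeparable_of_perfectField
    have h3 : Normal ℚ Qb := IsAlgClosure.normal ℚ Qb
    exact isGalois_iff.mpr ⟨h2, h3⟩
  -- some Galois automorphism moves `xt`
  have hmove : ∃ τ : Qb ≃ₐ[ℚ] Qb, τ xt ≠ xt := by
    by_contra hcon
    push Not at hcon
    obtain ⟨r, hr⟩ := (InfiniteGalois.mem_range_algebraMap_iff_fixed xt).mpr hcon
    apply hxq
    refine ⟨r, ?_⟩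
    have := congrArg (fun z : Qb => (z : K)) hr
    simpa [xt] using this
  obtain ⟨τ, hτ⟩ := hmove
  obtain ⟨ι, v, hv⟩ := exists_isTranscendenceBasis' Qb K
  obtain ⟨σ, hσ⟩ := m01_exists_extension (R := Qb) v hv (MvPolynomial.mapEquiv ι τ.toRingEquiv)
  refine ⟨σ, ?_⟩
  have h := hσ (C xt)
  simp only [aeval_C, mapEquiv_apply, map_C] at h
  have h' : σ x = ((τ xt : Qb) : K) := by
    simpa [xt] using h
  rw [h']
  intro hcon
  apply hτ
  exact Subtype.ext hcon

/-- **M01**: a complex number fixed by every field automorphism of `ℂ` is rational. -/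
theorem exists_rat_of_forall_aut_fixed (x : ℂ) (h : ∀ σ : ℂ ≃+* ℂ, σ x = x) :
    ∃ r : ℚ, x = (r : ℂ) := by
  by_contra hcon
  push Not at hcon
  have hxq : x ∉ Set.range (algebraMap ℚ ℂ) := by
    rintro ⟨r, hr⟩
    exact hcon r (by simpa using hr.symm)
  by_cases hx : IsAlgebraic ℚ x
  · obtain ⟨σ, hσ⟩ := m01_exists_aut_ne_of_isAlgebraic x hx hxq
    exact hσ (h σ)
  · obtain ⟨σ, hσ⟩ := m01_exists_aut_ne_of_transcendental x hx
    exact hσ (h σ)

end Fermat.Agent.S23x
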