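import Fermat.Agent.S23x.AutFixed

/-!
# Descent along `Aut(ℂ)` for finite-dimensional coordinate subspaces (towards S23)
-/

set_option autoImplicit false

namespace Fermat.Agent.S23x

open Module

/-- A finite-dimensional `ℂ`-subspace of a coordinate space `I → ℂ` which is stable under the
coordinatewise action of all ring automorphisms of `ℂ` is spanned by its vectors with rational
coordinates. -/
theorem ad_descent {I : Type*} (W : Submodule ℂ (I → ℂ)) [FiniteDimensional ℂ W]
    (hW : ∀ σ : ℂ ≃+* ℂ, ∀ w ∈ W, (fun i => σ (w i)) ∈ W) :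
    W ≤ Submodule.span ℂ {w | w ∈ W ∧ ∀ i, ∃ r : ℚ, w i = (r : ℂ)} := by
  classical
  -- evaluation functionals
  let ev : I → Dual ℂ W := fun i => (LinearMap.proj i).comp W.subtype
  have hev : ∀ (i : I) (w : W), ev i w = (w : I → ℂ) i := fun i w => rfl
  have hspan : Submodule.span ℂ (Set.range ev) = ⊤ := by
    apply Submodule.span_eq_top_of_ne_zero
    intro z hz
    by_contra hcon
    push Not at hcon
    apply hz
    ext i
    have := hcon (ev i) ⟨i, rfl⟩
    simpa [hev] using this
  obtain ⟨b, hb_sub, hb_span, hb_li⟩ := exists_linearIndependent ℂ (Set.range ev)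
  let B : Basis b ℂ (Dual ℂ W) := Basis.mk hb_li (by
    rw [Subtype.range_coe, hb_span, hspan])
  have hB : ∀ β : b, B β = (β : Dual ℂ W) := fun β => by simp [B]
  have : Finite b := Module.Finite.finite_basis B
  have : Fintype b := Fintype.ofFinite b
  let B' : Basis b ℂ W := B.dualBasis.map (evalEquiv ℂ W).symm
  have hB' : ∀ β β' : b, (β' : Dual ℂ W) (B' β) = if β' = β then 1 else 0 := by
    intro β β'
    have h1 : (β' : Dual ℂ W) (B' β) = B.dualBasis β (β' : Dual ℂ W) := by
      simp only [B', Basis.map_apply]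
      exact apply_evalEquiv_symm_apply ℂ W _ _
    rw [h1, ← hB β', Basis.dualBasis_apply_self]
  -- indices
  have hidx : ∀ β : b, ∃ i : I, ev i = (β : Dual ℂ W) := fun β => hb_sub β.2
  choose idx hidx' using hidx
  -- each basis vector is fixed by all automorphisms
  have hfix : ∀ (σ : ℂ ≃+* ℂ) (β : b) (i : I),
      σ ((B' β : I → ℂ) i) = (B' β : I → ℂ) i := by
    intro σ β i
    have hmem := hW σ (B' β : I → ℂ) (B' β).2
    let u : W := ⟨_, hmem⟩
    have hu : u = B' β := by
      apply (evalEquiv ℂ W).injective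
      apply B.ext
      intro β'
      rw [hB β']
      show (β' : Dual ℂ W) u = (β' : Dual ℂ W) (B' β)
      rw [hB' β β', ← hidx' β', hev]
      show σ ((B' β : I → ℂ) (idx β')) = _
      rw [← hev, hidx' β', hB' β β']
      split_ifs <;> simp
    have := congrArg (fun w : W => (w : I → ℂ) i) hu
    exact this
  -- hence rational
  have hrat : ∀ β : b, (B' β : I → ℂ) ∈
      {w | w ∈ W ∧ ∀ i, ∃ r : ℚ, w i = (r : ℂ)} := by
    intro β
    refine ⟨(B' β).2, fun i => ?_⟩
    obtain ⟨r, hr⟩ := af_complex_rat_of_fixed _ (fun σ => hfix σ β i)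
    exact ⟨r, hr.symm⟩
  intro w hw
  have hsum := B'.sum_repr ⟨w, hw⟩
  have hsum' : w = ∑ β : b, (B'.repr ⟨w, hw⟩ β) • (B' β : I → ℂ) := by
    have := congrArg (fun x : W => (x : I → ℂ)) hsum
    simp only [Submodule.coe_sum, Submodule.coe_smul] at this
    exact this.symm
  rw [hsum']
  exact Submodule.sum_mem _ fun β _ => Submodule.smul_mem _ _ (Submodule.subset_span (hrat β))

end Fermat.Agent.S23x
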