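import Fermat.Agent.S23x.Defs
import Fermat.Agent.S22x.Hermite

/-! S23 project, module M09b (core): the `idx N` conjugates `j(N γ z)` of `j_N` take pairwise
distinct values at a suitable point `z` (Hermite normal form of `diag(N,1) γ` + asymptotics of `j`).
The two facts about `j` from module M09a (invariance and asymptotics) are taken as hypotheses here;
`Cosets.lean` plugs them in. -/

set_option autoImplicit false

namespace Fermat.Agent.S23x

open UpperHalfPlane ModularForm ModularFormClass CongruenceSubgroup Matrix.SpecialLinearGroup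
open Filter Topology
open scoped MatrixGroups Manifold

/-- `idx N` is the index of `Γ₀(N)` in `SL(2, ℤ)`. -/
theorem m09b_idx_eq (N : ℕ) : idx N = (Gamma0 N).index := by
  unfold idx
  have h1 : Nat.card (↥(𝒮ℒ) ⧸ ((Gamma0 N : Subgroup (GL (Fin 2) ℝ)).subgroupOf 𝒮ℒ))
      = (Gamma0 N : Subgroup (GL (Fin 2) ℝ)).relIndex 𝒮ℒ := rfl
  rw [h1, MonoidHom.range_eq_map]
  have hinj : Function.Injective (mapGL ℝ : SL(2, ℤ) →* GL (Fin 2) ℝ) := mapGL_injective
  show ((Gamma0 N).map (mapGL ℝ)).relIndex ((⊤ : Subgroup SL(2, ℤ)).map (mapGL ℝ)) = _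
  rw [Subgroup.relIndex_map_map_of_injective _ _ hinj, Subgroup.relIndex_top_right]

/-- Hermite normal form of `diag(N,1) * γ`, pure integer version with positive diagonal. -/
theorem m09b_hermite (N : ℕ) [NeZero N] (γ : SL(2, ℤ)) :
    ∃ (δ : SL(2, ℤ)) (a b d : ℤ), 0 < a ∧ 0 < d ∧ a * d = N ∧
      !![(N : ℤ) * γ.1 0 0, (N : ℤ) * γ.1 0 1; γ.1 1 0, γ.1 1 1] = δ.1 * !![a, b; 0, d] := by
  have hN : (0 : ℤ) < N := by exact_mod_cast NeZero.pos N
  have hdet : γ.1 0 0 * γ.1 1 1 - γ.1 0 1 * γ.1 1 0 = 1 := by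
    have h := γ.2
    rw [Matrix.det_fin_two] at h
    exact h
  have hac : ¬ ((N : ℤ) * γ.1 0 0 = 0 ∧ γ.1 1 0 = 0) := by
    rintro ⟨h1, h2⟩
    have h3 : γ.1 0 0 = 0 := by
      rcases mul_eq_zero.mp h1 with h | h
      · exact absurd h hN.ne'
      · exact h
    rw [h3, h2] at hdet
    simp at hdet
  obtain ⟨e, a', c', x, y, he0, ha, hc, hone⟩ :=
    Fermat.Agent.S22x.exists_bezout_column ((N : ℤ) * γ.1 0 0) (γ.1 1 0) hac
  -- normalise the sign of `e`
  obtain ⟨e, a', c', x, y, he0, ha, hc, hone⟩ :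
      ∃ e a' c' x y : ℤ, 0 < e ∧ (N : ℤ) * γ.1 0 0 = e * a' ∧ γ.1 1 0 = e * c' ∧
        a' * x + c' * y = 1 := by
    rcases lt_or_gt_of_ne he0 with h | h
    · exact ⟨-e, -a', -c', -x, -y, by linarith, by rw [ha]; ring, by rw [hc]; ring,
        by rw [← hone]; ring⟩
    · exact ⟨e, a', c', x, y, h, ha, hc, hone⟩
  have hed : e * (a' * γ.1 1 1 - c' * ((N : ℤ) * γ.1 0 1)) = N := by
    have : e * (a' * γ.1 1 1 - c' * ((N : ℤ) * γ.1 0 1))
        = (e * a') * γ.1 1 1 - (e * c') * ((N : ℤ) * γ.1 0 1) := by ring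
    rw [this, ← ha, ← hc]
    linear_combination (N : ℤ) * hdet
  have hd : 0 < a' * γ.1 1 1 - c' * ((N : ℤ) * γ.1 0 1) := by
    by_contra hneg
    replace hneg := not_lt.mp hneg
    have : e * (a' * γ.1 1 1 - c' * ((N : ℤ) * γ.1 0 1)) ≤ 0 :=
      mul_nonpos_of_nonneg_of_nonpos he0.le hneg
    linarith
  refine ⟨⟨!![a', -y; c', x], by rw [Matrix.det_fin_two_of]; linarith⟩, e,
    x * ((N : ℤ) * γ.1 0 1) + y * γ.1 1 1, a' * γ.1 1 1 - c' * ((N : ℤ) * γ.1 0 1),
    he0, hd, hed, ?_⟩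
  ext i j
  fin_cases i <;> fin_cases j
  · simp [Matrix.mul_apply, Fin.sum_univ_two]
    linarith
  · simp [Matrix.mul_apply, Fin.sum_univ_two]
    linear_combination (-((N : ℤ) * γ.1 0 1)) * hone
  · simp [Matrix.mul_apply, Fin.sum_univ_two]
    linarith
  · simp [Matrix.mul_apply, Fin.sum_univ_two]
    linear_combination (-(γ.1 1 1)) * hone


/-- the point `(a z + b) / d` of the upper half plane -/
noncomputable def m09b_pt (a b d : ℤ) (ha : 0 < a) (hd : 0 < d) (z : ℍ) : ℍ :=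
  ⟨((a : ℂ) * z + b) / d, by
    have ha' : (0 : ℝ) < a := by exact_mod_cast ha
    have hd' : (0 : ℝ) < d := by exact_mod_cast hd
    have h1 : (((a : ℂ) * z + b) / d).im = (a : ℝ) * z.im / d := by
      have : ((a : ℂ) * z + b) / d = (((a : ℝ) : ℂ) * z + ((b : ℝ) : ℂ)) / ((d : ℝ) : ℂ) := by
        push_cast; rfl
      rw [this, Complex.div_ofReal_im]
      simp
    rw [h1]
    exact div_pos (mul_pos ha' z.im_pos) hd'⟩

theorem m09b_pt_coe (a b d : ℤ) (ha : 0 < a) (hd : 0 < d) (z : ℍ) :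
    ((m09b_pt a b d ha hd z : ℍ) : ℂ) = ((a : ℂ) * z + b) / d := rfl

theorem m09b_pt_im (a b d : ℤ) (ha : 0 < a) (hd : 0 < d) (z : ℍ) :
    (m09b_pt a b d ha hd z).im = (a : ℝ) * z.im / d := by
  show (((a : ℂ) * z + b) / d).im = _
  have : ((a : ℂ) * z + b) / d = (((a : ℝ) : ℂ) * z + ((b : ℝ) : ℂ)) / ((d : ℝ) : ℂ) := by
    push_cast; rfl
  rw [this, Complex.div_ofReal_im]
  simp

/-- `N • (γ z) = δ ((a z + b)/d)` when `diag(N,1) γ = δ (a b; 0 d)`. -/
theorem m09b_mulN_smul (N : ℕ) [NeZero N] (γ δ : SL(2, ℤ)) (a b d : ℤ) (ha : 0 < a) (hd : 0 < d)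
    (h : !![(N : ℤ) * γ.1 0 0, (N : ℤ) * γ.1 0 1; γ.1 1 0, γ.1 1 1] = δ.1 * !![a, b; 0, d])
    (z : ℍ) : mulN N (γ • z) = δ • m09b_pt a b d ha hd z := by
  have h00 : (N : ℤ) * γ.1 0 0 = δ.1 0 0 * a := by
    have := congrFun (congrFun h 0) 0
    simpa [Matrix.mul_apply, Fin.sum_univ_two] using this
  have h01 : (N : ℤ) * γ.1 0 1 = δ.1 0 0 * b + δ.1 0 1 * d := by
    have := congrFun (congrFun h 0) 1
    simpa [Matrix.mul_apply, Fin.sum_univ_two] using this
  have h10 : γ.1 1 0 = δ.1 1 0 * a := by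
    have := congrFun (congrFun h 1) 0
    simpa [Matrix.mul_apply, Fin.sum_univ_two] using this
  have h11 : γ.1 1 1 = δ.1 1 0 * b + δ.1 1 1 * d := by
    have := congrFun (congrFun h 1) 1
    simpa [Matrix.mul_apply, Fin.sum_univ_two] using this
  have hdC : (d : ℂ) ≠ 0 := by exact_mod_cast hd.ne'
  apply UpperHalfPlane.ext
  show (N : ℂ) * ((γ • z : ℍ) : ℂ) = ((δ • m09b_pt a b d ha hd z : ℍ) : ℂ)
  rw [coe_specialLinearGroup_apply, coe_specialLinearGroup_apply, m09b_pt_coe]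
  simp only [algebraMap_int_eq, Int.coe_castRingHom, Complex.ofReal_intCast]
  have e00 : (N : ℂ) * (γ.1 0 0 : ℂ) = (δ.1 0 0 : ℂ) * a := by exact_mod_cast h00
  have e01 : (N : ℂ) * (γ.1 0 1 : ℂ) = (δ.1 0 0 : ℂ) * b + (δ.1 0 1 : ℂ) * d := by exact_mod_cast h01
  have e10 : (γ.1 1 0 : ℂ) = (δ.1 1 0 : ℂ) * a := by exact_mod_cast h10
  have e11 : (γ.1 1 1 : ℂ) = (δ.1 1 0 : ℂ) * b + (δ.1 1 1 : ℂ) * d := by exact_mod_cast h11
  have hnum : (δ.1 0 0 : ℂ) * (((a : ℂ) * z + b) / d) + (δ.1 0 1 : ℂ)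
      = ((N : ℂ) * ((γ.1 0 0 : ℂ) * z + (γ.1 0 1 : ℂ))) / d := by
    field_simp
    linear_combination (-(z : ℂ)) * e00 - e01
  have hden : (δ.1 1 0 : ℂ) * (((a : ℂ) * z + b) / d) + (δ.1 1 1 : ℂ)
      = ((γ.1 1 0 : ℂ) * z + (γ.1 1 1 : ℂ)) / d := by
    field_simp
    linear_combination (-(z : ℂ)) * e10 - e11
  rw [hnum, hden, div_div_div_cancel_right₀ hdC, mul_div_assoc]


/-- coset criterion: same `(a, d)` and `b' ≡ b (mod d)` forces `γ' γ⁻¹ ∈ Γ₀(N)`. -/
theorem m09b_mem_Gamma0 (N : ℕ) (γ γ' δ δ' : SL(2, ℤ)) (a b b' d m : ℤ) (had : a * d = N)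
    (h : !![(N : ℤ) * γ.1 0 0, (N : ℤ) * γ.1 0 1; γ.1 1 0, γ.1 1 1] = δ.1 * !![a, b; 0, d])
    (h' : !![(N : ℤ) * γ'.1 0 0, (N : ℤ) * γ'.1 0 1; γ'.1 1 0, γ'.1 1 1] = δ'.1 * !![a, b'; 0, d])
    (hb : b' = b + m * d) : γ' * γ⁻¹ ∈ Gamma0 N := by
  have h10 : γ.1 1 0 = δ.1 1 0 * a := by
    have := congrFun (congrFun h 1) 0
    simpa [Matrix.mul_apply, Fin.sum_univ_two] using this
  have h11 : γ.1 1 1 = δ.1 1 0 * b + δ.1 1 1 * d := by
    have := congrFun (congrFun h 1) 1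
    simpa [Matrix.mul_apply, Fin.sum_univ_two] using this
  have h10' : γ'.1 1 0 = δ'.1 1 0 * a := by
    have := congrFun (congrFun h' 1) 0
    simpa [Matrix.mul_apply, Fin.sum_univ_two] using this
  have h11' : γ'.1 1 1 = δ'.1 1 0 * b' + δ'.1 1 1 * d := by
    have := congrFun (congrFun h' 1) 1
    simpa [Matrix.mul_apply, Fin.sum_univ_two] using this
  rw [Gamma0_mem]
  have hentry : (γ' * γ⁻¹).1 1 0 = γ'.1 1 0 * γ.1 1 1 - γ'.1 1 1 * γ.1 1 0 := by
    rw [Matrix.SpecialLinearGroup.coe_mul, Matrix.SpecialLinearGroup.SL2_inv_expl,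
      Matrix.mul_apply, Fin.sum_univ_two]
    simp
    ring
  rw [hentry, ZMod.intCast_zmod_eq_zero_iff_dvd]
  refine ⟨δ'.1 1 0 * δ.1 1 1 - δ'.1 1 0 * m * δ.1 1 0 - δ'.1 1 1 * δ.1 1 0, ?_⟩
  rw [h10, h11, h10', h11', hb, ← had]
  ring

/-- the leading term of `j` at the point `(a z + b)/d` -/
noncomputable def m09b_E (a b d : ℤ) (z : ℍ) : ℂ :=
  Complex.exp (-2 * Real.pi * Complex.I * (((a : ℂ) * z + b) / d))

theorem m09b_norm_E (a b d : ℤ) (z : ℍ) :
    ‖m09b_E a b d z‖ = Real.exp (2 * Real.pi * ((a : ℝ) / d) * z.im) := by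
  unfold m09b_E
  rw [Complex.norm_exp]
  congr 1
  have : ((a : ℂ) * z + b) / d = (((a : ℝ) : ℂ) * z + ((b : ℝ) : ℂ)) / ((d : ℝ) : ℂ) := by
    push_cast; rfl
  have him : (((a : ℂ) * z + b) / d).im = (a : ℝ) * z.im / d := by
    rw [this, Complex.div_ofReal_im]
    simp
  have h2 : (-2 * (Real.pi : ℂ) * Complex.I * (((a : ℂ) * z + b) / d)).re
      = 2 * Real.pi * (((a : ℂ) * z + b) / d).im := by
    simp [Complex.mul_re, Complex.mul_im]
  rw [h2, him]
  ring

theorem m09b_E_eq_mul (a b d : ℤ) (z : ℍ) :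
    m09b_E a b d z = Complex.exp (-2 * Real.pi * Complex.I * ((a : ℂ) * z / d)) *
      Complex.exp (-2 * Real.pi * Complex.I * ((b : ℂ) / d)) := by
  unfold m09b_E
  rw [← Complex.exp_add]
  congr 1
  ring

theorem m09b_jFn_sub_E_le (N : ℕ) {C : ℝ}
    (hC : ∀ z : ℍ, 1 ≤ z.im → ‖jFn z - Complex.exp (-2 * Real.pi * Complex.I * z)‖ ≤ C)
    (a b d : ℤ) (ha : 0 < a) (hd : 0 < d) (had : a * d = N) (z : ℍ) (hz : (N : ℝ) ≤ z.im) :
    ‖jFn (m09b_pt a b d ha hd z) - m09b_E a b d z‖ ≤ C := by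
  have ha' : (1 : ℝ) ≤ a := by exact_mod_cast ha
  have hd' : (0 : ℝ) < d := by exact_mod_cast hd
  have hadR : (a : ℝ) * d = N := by exact_mod_cast had
  have h1 : 1 ≤ (m09b_pt a b d ha hd z).im := by
    rw [m09b_pt_im, le_div_iff₀ hd', one_mul]
    have hdN : (d : ℝ) ≤ N := by
      rw [← hadR]
      nlinarith
    have : z.im ≤ (a : ℝ) * z.im := by
      have := z.im_pos
      nlinarith
    linarith
  have := hC (m09b_pt a b d ha hd z) h1
  rwa [m09b_pt_coe] at this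

theorem m09b_tendsto_abs_exp_sub {l l' : ℝ} (hl : 0 ≤ l) (hl' : 0 ≤ l') (h : l ≠ l') :
    Tendsto (fun y : ℝ => |Real.exp (l * y) - Real.exp (l' * y)|) atTop atTop := by
  wlog hlt : l < l' generalizing l l'
  · have hlt' : l' < l := lt_of_le_of_ne (not_lt.mp hlt) (Ne.symm h)
    have := this hl' hl (Ne.symm h) hlt'
    refine this.congr fun y => ?_
    rw [abs_sub_comm]
  have hpos : 0 < l' - l := sub_pos.mpr hlt
  have h1 : Tendsto (fun y : ℝ => Real.exp ((l' - l) * y) - 1) atTop atTop := by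
    apply tendsto_atTop_add_const_right
    exact Real.tendsto_exp_atTop.comp (Tendsto.const_mul_atTop hpos tendsto_id)
  refine tendsto_atTop_mono' atTop ?_ h1
  filter_upwards [eventually_ge_atTop (0 : ℝ)] with y hy
  have e1 : Real.exp (l' * y) = Real.exp (l * y) * Real.exp ((l' - l) * y) := by
    rw [← Real.exp_add]; congr 1; ring
  have e2 : 1 ≤ Real.exp (l * y) := Real.one_le_exp (mul_nonneg hl hy)
  have e3 : 1 ≤ Real.exp ((l' - l) * y) := Real.one_le_exp (mul_nonneg hpos.le hy)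
  rw [abs_sub_comm, e1]
  have : Real.exp ((l' - l) * y) - 1 ≤ Real.exp (l * y) * Real.exp ((l' - l) * y) - Real.exp (l * y) := by
    nlinarith
  exact this.trans (le_abs_self _)

theorem m09b_tendsto_E_sub_of_ne (a b d a' b' d' : ℤ) (ha : 0 < a) (hd : 0 < d) (ha' : 0 < a')
    (hd' : 0 < d') (h : (a : ℝ) / d ≠ (a' : ℝ) / d') :
    Tendsto (fun z : ℍ => ‖m09b_E a b d z - m09b_E a' b' d' z‖) atImInfty atTop := by
  have haR : (0 : ℝ) < a := by exact_mod_cast ha
  have hdR : (0 : ℝ) < d := by exact_mod_cast hd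
  have haR' : (0 : ℝ) < a' := by exact_mod_cast ha'
  have hdR' : (0 : ℝ) < d' := by exact_mod_cast hd'
  have hl : 0 ≤ 2 * Real.pi * ((a : ℝ) / d) := by positivity
  have hl' : 0 ≤ 2 * Real.pi * ((a' : ℝ) / d') := by positivity
  have hne : 2 * Real.pi * ((a : ℝ) / d) ≠ 2 * Real.pi * ((a' : ℝ) / d') := by
    intro hh
    apply h
    have hpi : (2 * Real.pi) ≠ 0 := by positivity
    exact mul_left_cancel₀ hpi hh
  have h1 := (m09b_tendsto_abs_exp_sub hl hl' hne).comp (tendsto_comap (f := UpperHalfPlane.im) (x := atTop))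
  refine tendsto_atTop_mono (fun z => ?_) h1
  show |Real.exp (2 * Real.pi * ((a : ℝ) / d) * z.im) - Real.exp (2 * Real.pi * ((a' : ℝ) / d') * z.im)| ≤ _
  rw [← m09b_norm_E a b d z, ← m09b_norm_E a' b' d' z]
  exact abs_norm_sub_norm_le _ _

theorem m09b_tendsto_E_sub_same (a b b' d : ℤ) (ha : 0 < a) (hd : 0 < d)
    (h : ¬ ∃ m : ℤ, b' = b + m * d) :
    Tendsto (fun z : ℍ => ‖m09b_E a b d z - m09b_E a b' d z‖) atImInfty atTop := by
  have haR : (0 : ℝ) < a := by exact_mod_cast ha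
  have hdR : (0 : ℝ) < d := by exact_mod_cast hd
  have hdC : (d : ℂ) ≠ 0 := by exact_mod_cast hd.ne'
  set u : ℂ := Complex.exp (-2 * Real.pi * Complex.I * ((b : ℂ) / d)) with hu
  set u' : ℂ := Complex.exp (-2 * Real.pi * Complex.I * ((b' : ℂ) / d)) with hu'
  have huu : u ≠ u' := by
    intro heq
    rw [hu, hu', Complex.exp_eq_exp_iff_exists_int] at heq
    obtain ⟨n, hn⟩ := heq
    apply h
    refine ⟨n, ?_⟩
    have hpi : (2 * (Real.pi : ℂ) * Complex.I) ≠ 0 := by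
      simp [Real.pi_ne_zero]
    have h3 : (b' : ℂ) = b + n * d := by
      field_simp at hn
      linear_combination hn
    exact_mod_cast h3
  have hc : 0 < ‖u - u'‖ := norm_pos_iff.mpr (sub_ne_zero.mpr huu)
  have hl : 0 < 2 * Real.pi * ((a : ℝ) / d) := by positivity
  have h1 : Tendsto (fun z : ℍ => Real.exp (2 * Real.pi * ((a : ℝ) / d) * z.im) * ‖u - u'‖)
      atImInfty atTop := by
    apply Tendsto.atTop_mul_const hc
    exact Real.tendsto_exp_atTop.comp
      (Tendsto.const_mul_atTop hl (tendsto_comap (f := UpperHalfPlane.im) (x := atTop)))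
  refine h1.congr fun z => ?_
  rw [m09b_E_eq_mul a b d z, m09b_E_eq_mul a b' d z, ← mul_sub, norm_mul]
  congr 1
  have := m09b_norm_E a 0 d z
  rw [m09b_E_eq_mul] at this
  simpa using this.symm

theorem m09b_eventually_ne {v v' e e' : ℍ → ℂ} {C : ℝ}
    (hv : ∀ᶠ z in atImInfty, ‖v z - e z‖ ≤ C) (hv' : ∀ᶠ z in atImInfty, ‖v' z - e' z‖ ≤ C)
    (he : Tendsto (fun z => ‖e z - e' z‖) atImInfty atTop) :
    ∀ᶠ z in atImInfty, v z ≠ v' z := by
  filter_upwards [hv, hv', he.eventually_gt_atTop (2 * C)] with z h1 h2 h3 heq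
  have : e z - e' z = -(v z - e z) + (v' z - e' z) := by rw [heq]; ring
  rw [this] at h3
  have h4 := norm_add_le (-(v z - e z)) (v' z - e' z)
  rw [norm_neg] at h4
  linarith

theorem m09b_tendsto_norm_jFn {C : ℝ}
    (hC : ∀ z : ℍ, 1 ≤ z.im → ‖jFn z - Complex.exp (-2 * Real.pi * Complex.I * z)‖ ≤ C) :
    Tendsto (fun z : ℍ => ‖jFn z‖) atImInfty atTop := by
  have h1 : Tendsto (fun z : ℍ => Real.exp (2 * Real.pi * z.im) - C) atImInfty atTop := by
    apply tendsto_atTop_add_const_right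
    exact Real.tendsto_exp_atTop.comp
      (Tendsto.const_mul_atTop (by positivity) (tendsto_comap (f := UpperHalfPlane.im) (x := atTop)))
  refine tendsto_atTop_mono' atImInfty ?_ h1
  have hmem : ∀ᶠ z : ℍ in atImInfty, 1 ≤ z.im :=
    (tendsto_comap (f := UpperHalfPlane.im) (x := atTop)).eventually (eventually_ge_atTop 1)
  filter_upwards [hmem] with z hz
  have h2 := hC z hz
  have h3 : ‖Complex.exp (-2 * Real.pi * Complex.I * z)‖ = Real.exp (2 * Real.pi * z.im) := by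
    rw [Complex.norm_exp]
    congr 1
    simp [Complex.mul_re, Complex.mul_im]
  have h4 : ‖Complex.exp (-2 * Real.pi * Complex.I * z)‖ ≤
      ‖jFn z‖ + ‖jFn z - Complex.exp (-2 * Real.pi * Complex.I * z)‖ := by
    have := norm_sub_le (jFn z) (jFn z - Complex.exp (-2 * Real.pi * Complex.I * z))
    simpa using this
  rw [h3] at h4
  show Real.exp (2 * Real.pi * z.im) - C ≤ ‖jFn z‖
  linarith

theorem m09b_eventually_eval_ne {C : ℝ}
    (hC : ∀ z : ℍ, 1 ≤ z.im → ‖jFn z - Complex.exp (-2 * Real.pi * Complex.I * z)‖ ≤ C)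
    (p : Polynomial ℂ) (hp : p ≠ 0) : ∀ᶠ z in atImInfty, p.eval (jFn z) ≠ 0 := by
  by_cases hdeg : 0 < p.degree
  · have := p.tendsto_norm_atTop hdeg (m09b_tendsto_norm_jFn hC)
    filter_upwards [this.eventually_gt_atTop 0] with z hz
    exact norm_pos_iff.mp hz
  · have hp' : p = Polynomial.C (p.coeff 0) :=
      Polynomial.eq_C_of_degree_le_zero (not_lt.mp hdeg)
    have hc : p.coeff 0 ≠ 0 := by
      intro h0
      rw [h0, Polynomial.C_0] at hp'
      exact hp hp'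
    refine Filter.Eventually.of_forall fun z => ?_
    rw [hp', Polynomial.eval_C]
    exact hc

theorem m09b_eq_of_ratio_eq {N a d a' d' : ℤ} (ha : 0 < a) (hd : 0 < d) (ha' : 0 < a')
    (hd' : 0 < d') (had : a * d = N) (had' : a' * d' = N)
    (h : (a : ℝ) / d = (a' : ℝ) / d') : a = a' := by
  have hdR : (d : ℝ) ≠ 0 := by exact_mod_cast hd.ne'
  have hdR' : (d' : ℝ) ≠ 0 := by exact_mod_cast hd'.ne'
  rw [div_eq_div_iff hdR hdR'] at h
  have h1 : a * d' = a' * d := by exact_mod_cast h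
  have h2 : (a * a - a' * a') * d' = 0 := by
    have e1 : a * a * d' = a * (a' * d) := by rw [← h1]; ring
    have e2 : a * (a' * d) = a' * (a * d) := by ring
    have e3 : a' * a' * d' = a' * (a' * d') := by ring
    rw [sub_mul, e1, e2, e3, had, had']
    ring
  have h3 : a * a - a' * a' = 0 := by
    rcases mul_eq_zero.mp h2 with h | h
    · exact h
    · exact absurd h hd'.ne'
  have h4 : a * a = a' * a' := by linarith
  rcases mul_self_eq_mul_self_iff.mp h4 with h | h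
  · exact h
  · linarith

/-- **M09b** (core): there is a point where the `idx N` conjugates `j(N γ z)` take pairwise
distinct values and a given nonzero polynomial in `j(z)` does not vanish, given the invariance and
the asymptotics of `j`. -/
theorem m09b_exists_point_conjugates_distinct_of
    (hsmul : ∀ (γ : SL(2, ℤ)) (z : ℍ), jFn (γ • z) = jFn z) {C : ℝ}
    (hC : ∀ z : ℍ, 1 ≤ z.im → ‖jFn z - Complex.exp (-2 * Real.pi * Complex.I * z)‖ ≤ C)
    (N : ℕ) [NeZero N] (p : Polynomial ℂ) (hp : p ≠ 0) :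
    ∃ (z : ℍ) (S : Finset ℂ), S.card = idx N ∧ p.eval (jFn z) ≠ 0 ∧
      ∀ w ∈ S, ∃ γ : SL(2, ℤ), w = jFn (mulN N (γ • z)) := by
  have : Finite (SL(2, ℤ) ⧸ Gamma0 N) := Subgroup.finite_quotient_of_finiteIndex
  haveI : Fintype (SL(2, ℤ) ⧸ Gamma0 N) := Fintype.ofFinite _
  let g : SL(2, ℤ) ⧸ Gamma0 N → SL(2, ℤ) := fun q => (Quotient.out q)⁻¹
  have hg : ∀ q q', g q' * (g q)⁻¹ ∈ Gamma0 N → q = q' := by
    intro q q' h
    have h1 : ((Quotient.out q' : SL(2, ℤ)) : SL(2, ℤ) ⧸ Gamma0 N) = (Quotient.out q : SL(2, ℤ)) :=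
      QuotientGroup.eq.mpr (by simpa [g] using h)
    rw [QuotientGroup.out_eq', QuotientGroup.out_eq'] at h1
    exact h1.symm
  choose δ a b d ha hd had hM using fun q => m09b_hermite N (g q)
  let v : SL(2, ℤ) ⧸ Gamma0 N → ℍ → ℂ := fun q z => jFn (mulN N (g q • z))
  have hv : ∀ q z, v q z = jFn (m09b_pt (a q) (b q) (d q) (ha q) (hd q) z) := by
    intro q z
    show jFn (mulN N (g q • z)) = _
    rw [m09b_mulN_smul N (g q) (δ q) _ _ _ (ha q) (hd q) (hM q) z, hsmul]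
  have hbound : ∀ q, ∀ᶠ z in atImInfty, ‖v q z - m09b_E (a q) (b q) (d q) z‖ ≤ C := by
    intro q
    have hmem : ∀ᶠ z : ℍ in atImInfty, (N : ℝ) ≤ z.im :=
      (tendsto_comap (f := UpperHalfPlane.im) (x := atTop)).eventually (eventually_ge_atTop _)
    filter_upwards [hmem] with z hz
    rw [hv]
    exact m09b_jFn_sub_E_le N hC _ _ _ (ha q) (hd q) (had q) z hz
  have hne : ∀ q q', q ≠ q' → ∀ᶠ z in atImInfty, v q z ≠ v q' z := by
    intro q q' hqq
    apply m09b_eventually_ne (hbound q) (hbound q')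
    by_cases haa : a q = a q'
    · have hdd : d q = d q' := by
        have h1 := had q
        have h2 := had q'
        rw [← haa, ← h1] at h2
        exact (mul_left_cancel₀ (ha q).ne' h2).symm
      have hb : ¬ ∃ m : ℤ, b q' = b q + m * d q := by
        rintro ⟨m, hm⟩
        apply hqq
        apply hg
        have hM' := hM q'
        rw [← haa, ← hdd] at hM'
        exact m09b_mem_Gamma0 N (g q) (g q') (δ q) (δ q') (a q) (b q) (b q') (d q) m (had q)
          (hM q) hM' hm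
      have := m09b_tendsto_E_sub_same (a q) (b q) (b q') (d q) (ha q) (hd q) hb
      rw [← haa, ← hdd]
      exact this
    · apply m09b_tendsto_E_sub_of_ne _ _ _ _ _ _ (ha q) (hd q) (ha q') (hd q')
      intro hratio
      exact haa (m09b_eq_of_ratio_eq (ha q) (hd q) (ha q') (hd q') (had q) (had q') hratio)
  have hall : ∀ᶠ z in atImInfty, (∀ q q', q ≠ q' → v q z ≠ v q' z) ∧ p.eval (jFn z) ≠ 0 := by
    have h1 : ∀ᶠ z in atImInfty, ∀ q q', q ≠ q' → v q z ≠ v q' z := by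
      rw [Filter.eventually_all]
      intro q
      rw [Filter.eventually_all]
      intro q'
      by_cases hqq : q = q'
      · exact Filter.Eventually.of_forall fun z h => absurd hqq h
      · exact (hne q q' hqq).mono fun z hz _ => hz
    exact h1.and (m09b_eventually_eval_ne hC p hp)
  obtain ⟨z, hz1, hz2⟩ := hall.exists
  refine ⟨z, Finset.univ.image (fun q => v q z), ?_, hz2, ?_⟩
  · rw [Finset.card_image_of_injective _ (fun q q' h => by
      by_contra hne'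
      exact hz1 q q' hne' h)]
    rw [Finset.card_univ, m09b_idx_eq, Subgroup.index, Nat.card_eq_fintype_card]
  · intro w hw
    obtain ⟨q, -, rfl⟩ := Finset.mem_image.mp hw
    exact ⟨g q, rfl⟩

end Fermat.Agent.S23x
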