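/-
S23 project, module M02_Descent (helper98): a finite-dimensional space of power series which is
stable under all coefficientwise field automorphisms of `ℂ` is spanned by its rational elements.
-/
import Fermat.Agent.S23x.Defs
import Fermat.Agent.S23x.AutC

set_option autoImplicit false

namespace Fermat.Agent.S23x

open PowerSeries

/-- Echelon basis: every finite-dimensional subspace of `ℂ⟦X⟧` of dimension `d` has `d` pivot
indices `n i` and vectors `w j ∈ V` with `coeff (n i) (w j) = δ_ij`, and every `p ∈ V` is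
`∑ j, coeff (n j) p • w j`. -/
theorem m02_exists_echelon (d : ℕ) :
    ∀ V : Submodule ℂ (PowerSeries ℂ), FiniteDimensional ℂ V → Module.finrank ℂ V = d →
      ∃ (n : Fin d → ℕ) (w : Fin d → PowerSeries ℂ), (∀ j, w j ∈ V) ∧
        (∀ i j, PowerSeries.coeff (n i) (w j) = if i = j then 1 else 0) ∧
        ∀ p ∈ V, p = ∑ j, PowerSeries.coeff (n j) p • w j := by
  induction d with
  | zero =>
    intro V _ hV
    refine ⟨Fin.elim0, Fin.elim0, fun j => j.elim0, fun i => i.elim0, ?_⟩
    intro p hp
    have hbot : V = ⊥ := Submodule.finrank_eq_zero.mp hV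
    rw [hbot, Submodule.mem_bot] at hp
    simp [hp]
  | succ d ih =>
    intro V hfd hV
    -- pick a nonzero element and a pivot
    have hne : V ≠ ⊥ := by
      intro h
      rw [h, finrank_bot] at hV
      omega
    obtain ⟨p, hpV, hp0⟩ := Submodule.exists_mem_ne_zero_of_ne_bot hne
    obtain ⟨n0, hn0⟩ : ∃ n0, PowerSeries.coeff n0 p ≠ 0 := by
      by_contra hcon
      push Not at hcon
      exact hp0 (PowerSeries.ext fun n => by simpa using hcon n)
    set p0 : PowerSeries ℂ := (PowerSeries.coeff n0 p)⁻¹ • p with hp0def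
    have hp0V : p0 ∈ V := V.smul_mem _ hpV
    have hp0c : PowerSeries.coeff n0 p0 = 1 := by
      rw [hp0def, PowerSeries.coeff_smul, smul_eq_mul, inv_mul_cancel₀ hn0]
    -- the functional `coeff n0` restricted to `V`
    set φ : V →ₗ[ℂ] ℂ := (PowerSeries.coeff (R := ℂ) n0).comp V.subtype with hφ
    have hφsurj : Function.Surjective φ := by
      intro c
      refine ⟨c • ⟨p0, hp0V⟩, ?_⟩
      simp [hφ, hp0c]
    set V1 : Submodule ℂ (PowerSeries ℂ) := V ⊓ LinearMap.ker (PowerSeries.coeff (R := ℂ) n0)
      with hV1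
    have hV1le : V1 ≤ V := inf_le_left
    have hfd1 : FiniteDimensional ℂ V1 := Submodule.finiteDimensional_of_le hV1le
    have hker : LinearMap.ker φ = V1.comap V.subtype := by
      ext x
      simp [hφ, hV1]
    have hrank : Module.finrank ℂ V1 = d := by
      have h1 := LinearMap.finrank_range_add_finrank_ker φ
      rw [LinearMap.range_eq_top.mpr hφsurj, finrank_top, Module.finrank_self, hV, hker] at h1
      have h2 : Module.finrank ℂ (V1.comap V.subtype) = Module.finrank ℂ V1 :=
        (Submodule.comapSubtypeEquivOfLe hV1le).finrank_eq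
      omega
    obtain ⟨n', w', hw'V, hw'c, hw'span⟩ := ih V1 hfd1 hrank
    have hw'n0 : ∀ j, PowerSeries.coeff n0 (w' j) = 0 := by
      intro j
      have := (hw'V j)
      rw [hV1, Submodule.mem_inf, LinearMap.mem_ker] at this
      exact this.2
    set w0 : PowerSeries ℂ := p0 - ∑ j, PowerSeries.coeff (n' j) p0 • w' j with hw0
    have hw0V : w0 ∈ V :=
      V.sub_mem hp0V (V.sum_mem fun j _ => V.smul_mem _ (hV1le (hw'V j)))
    have hw0n0 : PowerSeries.coeff n0 w0 = 1 := by
      rw [hw0, map_sub, hp0c, map_sum]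
      simp [hw'n0]
    have hw0n' : ∀ i, PowerSeries.coeff (n' i) w0 = 0 := by
      intro i
      rw [hw0, map_sub, map_sum]
      simp [hw'c]
    refine ⟨Fin.cons n0 n', Fin.cons w0 w', ?_, ?_, ?_⟩
    · intro j
      refine Fin.cases ?_ (fun j => ?_) j
      · simpa using hw0V
      · simpa using hV1le (hw'V j)
    · intro i j
      refine Fin.cases ?_ (fun i => ?_) i <;> refine Fin.cases ?_ (fun j => ?_) j
      · simp [hw0n0]
      · simp [hw'n0, Fin.ext_iff]
      · simp [hw0n', Fin.ext_iff]
      · simp [hw'c, Fin.ext_iff]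
    · intro q hq
      have hq1 : q - PowerSeries.coeff n0 q • w0 ∈ V1 := by
        rw [hV1, Submodule.mem_inf, LinearMap.mem_ker]
        refine ⟨V.sub_mem hq (V.smul_mem _ hw0V), ?_⟩
        rw [map_sub, PowerSeries.coeff_smul, hw0n0]
        simp
      have hq2 := hw'span _ hq1
      have hq3 : ∀ j, PowerSeries.coeff (n' j) (q - PowerSeries.coeff n0 q • w0) =
          PowerSeries.coeff (n' j) q := by
        intro j
        rw [map_sub, PowerSeries.coeff_smul, hw0n' j]
        simp
      simp only [hq3] at hq2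
      rw [Fin.sum_univ_succ]
      simp only [Fin.cons_zero, Fin.cons_succ]
      rw [← hq2]
      abel

/-- `sigP` acts coefficientwise. -/
theorem m02_coeff_sigP (σ : ℂ ≃+* ℂ) (p : PowerSeries ℂ) (n : ℕ) :
    PowerSeries.coeff n (sigP σ p) = σ (PowerSeries.coeff n p) := by
  simp [sigP]

/-- Main theorem of M02, relative to the fixed-field statement of M01. -/
theorem span_rat_of_sigP_stable_of
    (hfix : ∀ x : ℂ, (∀ σ : ℂ ≃+* ℂ, σ x = x) → ∃ r : ℚ, x = (r : ℂ))
    (V : Submodule ℂ (PowerSeries ℂ)) [FiniteDimensional ℂ V]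
    (hσ : ∀ σ : ℂ ≃+* ℂ, ∀ p ∈ V, sigP σ p ∈ V) :
    Submodule.span ℂ {p | p ∈ V ∧ IsRatPS p} = V := by
  apply le_antisymm
  · exact Submodule.span_le.mpr fun p hp => hp.1
  · obtain ⟨n, w, hwV, hwc, hwspan⟩ := m02_exists_echelon (Module.finrank ℂ V) V inferInstance rfl
    have hwfix : ∀ (σ : ℂ ≃+* ℂ) j, sigP σ (w j) = w j := by
      intro σ j
      have h1 := hwspan _ (hσ σ _ (hwV j))
      rw [h1]
      have h2 : ∀ i, PowerSeries.coeff (n i) (sigP σ (w j)) = if i = j then 1 else 0 := by
        intro i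
        rw [m02_coeff_sigP, hwc]
        split_ifs <;> simp
      simp only [h2]
      simp
    have hwrat : ∀ j, IsRatPS (w j) := by
      intro j m
      apply hfix
      intro σ
      have := congrArg (PowerSeries.coeff m) (hwfix σ j)
      rwa [m02_coeff_sigP] at this
    intro p hp
    rw [hwspan p hp]
    exact Submodule.sum_mem _ fun j _ =>
      Submodule.smul_mem _ _ (Submodule.subset_span ⟨hwV j, hwrat j⟩)

/-- M02 (exact Spec signature): a finite-dimensional space of power series stable under all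
`sigP σ` is spanned by its rational elements. -/
theorem span_rat_of_sigP_stable (V : Submodule ℂ (PowerSeries ℂ)) [FiniteDimensional ℂ V]
    (hσ : ∀ σ : ℂ ≃+* ℂ, ∀ p ∈ V, sigP σ p ∈ V) :
    Submodule.span ℂ {p | p ∈ V ∧ IsRatPS p} = V :=
  span_rat_of_sigP_stable_of exists_rat_of_forall_aut_fixed V hσ

end Fermat.Agent.S23x
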