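/-
S23 project, module M11 (helper68): a ratio of `Γ₀(N)`-forms which is integral over level-one forms
is (the `q`-expansion of) a holomorphic modular form.
-/
import Fermat.Agent.S23x.Defs
import Fermat.Agent.S23x.QRing

set_option autoImplicit false

namespace Fermat.Agent.S23x

open UpperHalfPlane ModularForm ModularFormClass CongruenceSubgroup Filter Topology
open scoped MatrixGroups Manifold

/-! ### Cauchy's root bound -/

theorem m11_cauchy_bound (n : ℕ) (c : ℕ → ℂ) (hc0 : c 0 = 1) (w : ℂ)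
    (h : ∑ i ∈ Finset.range (n + 1), c i * w ^ (n - i) = 0) :
    ‖w‖ ≤ 1 + ∑ i ∈ Finset.range (n + 1), ‖c i‖ := by
  have hsum_nonneg : 0 ≤ ∑ i ∈ Finset.range (n + 1), ‖c i‖ :=
    Finset.sum_nonneg fun i _ => norm_nonneg _
  by_cases hw : ‖w‖ ≤ 1
  · linarith
  rw [not_le] at hw
  cases n with
  | zero =>
    simp [hc0] at h
  | succ n =>
    rw [Finset.sum_range_succ'] at h
    simp only [hc0, one_mul, Nat.sub_zero] at h
    have hw0 : 0 < ‖w‖ := by linarith
    have h1 : w ^ (n + 1) = - ∑ i ∈ Finset.range (n + 1), c (i + 1) * w ^ (n + 1 - (i + 1)) := by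
      rw [eq_neg_iff_add_eq_zero, add_comm]; exact h
    have h2 : ‖w‖ ^ (n + 1) ≤ (∑ i ∈ Finset.range (n + 1), ‖c (i + 1)‖) * ‖w‖ ^ n := by
      calc ‖w‖ ^ (n + 1) = ‖w ^ (n + 1)‖ := (norm_pow _ _).symm
        _ = ‖∑ i ∈ Finset.range (n + 1), c (i + 1) * w ^ (n + 1 - (i + 1))‖ := by
            rw [h1, norm_neg]
        _ ≤ ∑ i ∈ Finset.range (n + 1), ‖c (i + 1) * w ^ (n + 1 - (i + 1))‖ := norm_sum_le _ _
        _ ≤ ∑ i ∈ Finset.range (n + 1), ‖c (i + 1)‖ * ‖w‖ ^ n := by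
            apply Finset.sum_le_sum
            intro i hi
            rw [norm_mul, norm_pow]
            apply mul_le_mul_of_nonneg_left _ (norm_nonneg _)
            apply pow_le_pow_right₀ hw.le
            omega
        _ = (∑ i ∈ Finset.range (n + 1), ‖c (i + 1)‖) * ‖w‖ ^ n := by
            rw [Finset.sum_mul]
    have h3 : ‖w‖ ≤ ∑ i ∈ Finset.range (n + 1), ‖c (i + 1)‖ := by
      have hpos : 0 < ‖w‖ ^ n := pow_pos hw0 n
      rw [pow_succ, mul_comm] at h2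
      exact le_of_mul_le_mul_right h2 hpos
    have h4 : ∑ i ∈ Finset.range (n + 1), ‖c (i + 1)‖ ≤
        ∑ i ∈ Finset.range (n + 1 + 1), ‖c i‖ := by
      rw [Finset.sum_range_succ' (fun i => ‖c i‖)]
      have : 0 ≤ ‖c 0‖ := norm_nonneg _
      linarith
    linarith

/-! ### Division of holomorphic functions with a locally bounded quotient -/

theorem m11_eventually_ne_zero {Q : ℂ → ℂ} {U : Set ℂ} (hU : IsOpen U) (hUc : IsPreconnected U)
    (hQ : DifferentiableOn ℂ Q U) (hQ0 : ∃ z ∈ U, Q z ≠ 0) {z₀ : ℂ} (hz₀ : z₀ ∈ U) :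
    ∀ᶠ z in 𝓝[≠] z₀, Q z ≠ 0 := by
  have hQa : AnalyticOnNhd ℂ Q U := hQ.analyticOnNhd hU
  rcases (hQa z₀ hz₀).eventually_eq_zero_or_eventually_ne_zero with h | h
  · exfalso
    obtain ⟨z, hz, hQz⟩ := hQ0
    exact hQz (hQa.eqOn_zero_of_preconnected_of_eventuallyEq_zero hUc hz₀ h hz)
  · exact h

theorem m11_eq_zero_of_forall_ne {Q u : ℂ → ℂ} {U : Set ℂ} (hU : IsOpen U)
    (hUc : IsPreconnected U) (hQ : DifferentiableOn ℂ Q U) (hQ0 : ∃ z ∈ U, Q z ≠ 0)
    (hu : ContinuousOn u U) (h : ∀ z ∈ U, Q z ≠ 0 → u z = 0) : ∀ z ∈ U, u z = 0 := by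
  intro z₀ hz₀
  have h1 : ∀ᶠ z in 𝓝[≠] z₀, u z = 0 := by
    have hUm : ∀ᶠ z in 𝓝[≠] z₀, z ∈ U := nhdsWithin_le_nhds (hU.mem_nhds hz₀)
    filter_upwards [m11_eventually_ne_zero hU hUc hQ hQ0 hz₀, hUm] with z hz hzU
    exact h z hzU hz
  have h2 : Tendsto u (𝓝[≠] z₀) (𝓝 (u z₀)) :=
    ((hu.continuousAt (hU.mem_nhds hz₀)).tendsto).mono_left nhdsWithin_le_nhds
  have h3 : Tendsto u (𝓝[≠] z₀) (𝓝 0) :=
    (tendsto_congr' h1).mpr tendsto_const_nhds
  exact tendsto_nhds_unique h2 h3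

theorem m11_exists_div {P Q : ℂ → ℂ} {B : ℂ → ℝ} {U : Set ℂ} (hU : IsOpen U)
    (hUc : IsPreconnected U) (hP : DifferentiableOn ℂ P U) (hQ : DifferentiableOn ℂ Q U)
    (hQ0 : ∃ z ∈ U, Q z ≠ 0) (hB : ContinuousOn B U)
    (hbd : ∀ z ∈ U, Q z ≠ 0 → ‖P z‖ ≤ B z * ‖Q z‖) :
    ∃ φ : ℂ → ℂ, DifferentiableOn ℂ φ U ∧ ∀ z ∈ U, φ z * Q z = P z := by
  set h : ℂ → ℂ := fun w => P w / Q w with hh
  set φ : ℂ → ℂ := fun z => limUnder (𝓝[≠] z) h with hφ
  -- `φ = h` wherever `Q ≠ 0`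
  have hφh : ∀ z ∈ U, Q z ≠ 0 → φ z = h z := by
    intro z hz hQz
    have hc : ContinuousAt h z :=
      ((hP.differentiableAt (hU.mem_nhds hz)).continuousAt).div
        ((hQ.differentiableAt (hU.mem_nhds hz)).continuousAt) hQz
    exact (hc.tendsto.mono_left nhdsWithin_le_nhds).limUnder_eq
  -- local analysis at each point
  have key : ∀ z₀ ∈ U, DifferentiableAt ℂ φ z₀ := by
    intro z₀ hz₀
    have e1 : ∀ᶠ z in 𝓝 z₀, z ∈ U := hU.mem_nhds hz₀
    have e2 : ∀ᶠ z in 𝓝 z₀, B z < B z₀ + 1 :=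
      (hB.continuousAt (hU.mem_nhds hz₀)).eventually (gt_mem_nhds (by linarith))
    have e3 : ∀ᶠ z in 𝓝 z₀, z ≠ z₀ → Q z ≠ 0 :=
      eventually_nhdsWithin_iff.mp (m11_eventually_ne_zero hU hUc hQ hQ0 hz₀)
    set s : Set ℂ := {z | z ∈ U ∧ B z < B z₀ + 1 ∧ (z ≠ z₀ → Q z ≠ 0)} with hs
    have hs_nhds : s ∈ 𝓝 z₀ := by
      filter_upwards [e1, e2, e3] with z h1 h2 h3
      exact ⟨h1, h2, h3⟩
    have hd : DifferentiableOn ℂ h (s \ {z₀}) := by
      rintro z ⟨⟨hzU, -, hzQ⟩, hne⟩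
      exact ((hP.differentiableAt (hU.mem_nhds hzU)).div
        (hQ.differentiableAt (hU.mem_nhds hzU)) (hzQ hne)).differentiableWithinAt
    have hb : BddAbove (norm ∘ h '' (s \ {z₀})) := by
      refine ⟨B z₀ + 1, ?_⟩
      rintro _ ⟨z, ⟨⟨hzU, hzB, hzQ⟩, hne⟩, rfl⟩
      have hQz : Q z ≠ 0 := hzQ hne
      have hQpos : 0 < ‖Q z‖ := norm_pos_iff.mpr hQz
      simp only [Function.comp_apply, hh, norm_div]
      rw [div_le_iff₀ hQpos]
      calc ‖P z‖ ≤ B z * ‖Q z‖ := hbd z hzU hQz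
        _ ≤ (B z₀ + 1) * ‖Q z‖ := by
            apply mul_le_mul_of_nonneg_right hzB.le (norm_nonneg _)
    have hdiff := Complex.differentiableOn_update_limUnder_of_bddAbove hs_nhds hd hb
    have hdiffAt := hdiff.differentiableAt hs_nhds
    refine hdiffAt.congr_of_eventuallyEq ?_
    filter_upwards [hs_nhds] with z hz
    by_cases hne : z = z₀
    · subst hne
      simp [hφ]
    · rw [Function.update_of_ne hne]
      exact hφh z hz.1 (hz.2.2 hne)
  refine ⟨φ, fun z hz => (key z hz).differentiableWithinAt, ?_⟩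
  -- the identity `φ * Q = P`
  have hcont : ContinuousOn (fun z => φ z * Q z - P z) U := by
    intro z hz
    exact (((key z hz).continuousAt.mul (hQ.differentiableAt (hU.mem_nhds hz)).continuousAt).sub
      (hP.differentiableAt (hU.mem_nhds hz)).continuousAt).continuousWithinAt
  have := m11_eq_zero_of_forall_ne hU hUc hQ hQ0 hcont (by
    intro z hz hQz
    rw [hφh z hz hQz, hh]
    field_simp
    ring)
  intro z hz
  exact sub_eq_zero.mp (this z hz)


/-! ### Transfer to the upper half plane -/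

theorem m11_upperHalfPlaneSet_preconnected : IsPreconnected {z : ℂ | 0 < z.im} :=
  (convex_halfSpace_im_gt 0).isPreconnected

theorem m11_eq_zero_of_forall_ne_uhp {g u : ℍ → ℂ} (hg : MDiff g) (hg0 : g ≠ 0) (hu : MDiff u)
    (h : ∀ z, g z ≠ 0 → u z = 0) : u = 0 := by
  have hQ := UpperHalfPlane.mdifferentiable_iff.mp hg
  have hU := UpperHalfPlane.mdifferentiable_iff.mp hu
  obtain ⟨z₁, hz₁⟩ := Function.ne_iff.mp hg0
  have hQ0 : ∃ z ∈ {z : ℂ | 0 < z.im}, (g ∘ ofComplex) z ≠ 0 :=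
    ⟨(z₁ : ℂ), z₁.im_pos, by simpa using hz₁⟩
  have := m11_eq_zero_of_forall_ne isOpen_upperHalfPlaneSet m11_upperHalfPlaneSet_preconnected
    hQ hQ0 hU.continuousOn (fun z _ hz => h _ hz)
  funext z
  simpa using this (z : ℂ) z.im_pos


/-- If `w = F/g` at a point where `g ≠ 0`, the integral relation for `F, g` gives the monic
relation for `w`. -/
theorem m11_quot_rel (n : ℕ) (c : ℕ → ℂ) (x y : ℂ) (hy : y ≠ 0)
    (h : ∑ i ∈ Finset.range (n + 1), c i * x ^ (n - i) * y ^ i = 0) :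
    ∑ i ∈ Finset.range (n + 1), c i * (x / y) ^ (n - i) = 0 := by
  have hyn : y ^ n ≠ 0 := pow_ne_zero _ hy
  apply mul_right_cancel₀ hyn
  rw [zero_mul, Finset.sum_mul, ← h]
  apply Finset.sum_congr rfl
  intro i hi
  have hi' : i ≤ n := Nat.lt_succ_iff.mp (Finset.mem_range.mp hi)
  have : y ^ n = y ^ (n - i) * y ^ i := by rw [← pow_add, Nat.sub_add_cancel hi']
  rw [this, div_pow]
  have hyi : y ^ (n - i) ≠ 0 := pow_ne_zero _ hy
  field_simp


/-- Bound at `i∞` for finitely many level-one forms. -/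
theorem m11_exists_bound (n : ℕ) (a : ℕ → ℍ → ℂ) (ha : ∀ i, IsBoundedAtImInfty (a i)) :
    ∃ M A : ℝ, ∀ z : ℍ, A ≤ z.im → 1 + ∑ i ∈ Finset.range (n + 1), ‖a i z‖ ≤ M := by
  choose M A hMA using fun i => isBoundedAtImInfty_iff.mp (ha i)
  refine ⟨1 + ∑ i ∈ Finset.range (n + 1), M i,
    (Finset.range (n + 1)).sup' ⟨0, Finset.mem_range.mpr (Nat.succ_pos n)⟩ A, ?_⟩
  intro z hz
  have : ∑ i ∈ Finset.range (n + 1), ‖a i z‖ ≤ ∑ i ∈ Finset.range (n + 1), M i := by
    apply Finset.sum_le_sum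
    intro i hi
    exact hMA i z ((Finset.le_sup' A hi).trans hz)
  linarith

/-- Core of M11: if `F, g` are forms of weights `m + k`, `m` with `g ≠ 0` and `F / g` satisfies a
monic relation whose coefficients are level-one forms, then `F / g` is a holomorphic modular form
of weight `k`. -/
theorem m11_core (N : ℕ) [NeZero N] {k m : ℤ} {F g : ℍ → ℂ} (hF : IsMF N (m + k) F)
    (hg : IsMF N m g) (hg0 : g ≠ 0) (n : ℕ) (a : ℕ → ℍ → ℂ) (ha0 : a 0 = 1)
    (ha : ∀ i : ℕ, IsMF1 (k * (i : ℤ)) (a i))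
    (hR : ∀ z : ℍ, ∑ i ∈ Finset.range (n + 1), a i z * F z ^ (n - i) * g z ^ i = 0) :
    ∃ φ : ℍ → ℂ, IsMF N k φ ∧ φ * g = F := by
  obtain ⟨F', rfl⟩ := hF
  obtain ⟨g', rfl⟩ := hg
  choose a' ha' using ha
  have haMD : ∀ i, MDiff (a i) := fun i => by rw [← ha' i]; exact ModularFormClass.holo (a' i)
  have haB : ∀ i, IsBoundedAtImInfty (a i) := fun i => by
    rw [← ha' i]; exact ModularFormClass.bdd_at_infty (a' i)
  have hFMD : MDiff (F' : ℍ → ℂ) := ModularFormClass.holo F'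
  have hgMD : MDiff (g' : ℍ → ℂ) := ModularFormClass.holo g'
  set U : Set ℂ := {z : ℂ | 0 < z.im} with hUdef
  have hUo : IsOpen U := isOpen_upperHalfPlaneSet
  have hUc : IsPreconnected U := m11_upperHalfPlaneSet_preconnected
  have hP := UpperHalfPlane.mdifferentiable_iff.mp hFMD
  have hQ := UpperHalfPlane.mdifferentiable_iff.mp hgMD
  have haD : ∀ i, DifferentiableOn ℂ (a i ∘ ofComplex) U := fun i =>
    UpperHalfPlane.mdifferentiable_iff.mp (haMD i)
  obtain ⟨z₁, hz₁⟩ := Function.ne_iff.mp hg0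
  have hQ0 : ∃ z ∈ U, ((g' : ℍ → ℂ) ∘ ofComplex) z ≠ 0 :=
    ⟨(z₁ : ℂ), z₁.im_pos, by simpa using hz₁⟩
  -- the bound
  set B : ℂ → ℝ := fun w => 1 + ∑ i ∈ Finset.range (n + 1), ‖a i (ofComplex w)‖ with hBdef
  have hB : ContinuousOn B U := by
    refine continuousOn_const.add (continuousOn_finsetSum _ fun i _ => ?_)
    exact (haD i).continuousOn.norm
  have hquot : ∀ z : ℍ, g' z ≠ 0 →
      ∑ i ∈ Finset.range (n + 1), a i z * (F' z / g' z) ^ (n - i) = 0 :=
    fun z hz => m11_quot_rel n (fun i => a i z) (F' z) (g' z) hz (hR z)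
  have hbd : ∀ w ∈ U, ((g' : ℍ → ℂ) ∘ ofComplex) w ≠ 0 →
      ‖((F' : ℍ → ℂ) ∘ ofComplex) w‖ ≤ B w * ‖((g' : ℍ → ℂ) ∘ ofComplex) w‖ := by
    intro w _ hw
    simp only [Function.comp_apply] at hw ⊢
    have h1 := m11_cauchy_bound n (fun i => a i (ofComplex w)) (by simp [ha0])
      (F' (ofComplex w) / g' (ofComplex w)) (hquot _ hw)
    rw [norm_div, div_le_iff₀ (norm_pos_iff.mpr hw)] at h1
    exact h1
  obtain ⟨φc, hφcD, hφcM⟩ := m11_exists_div hUo hUc hP hQ hQ0 hB hbd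
  set φ : ℍ → ℂ := fun z => φc (z : ℂ) with hφdef
  have hφg : ∀ z : ℍ, φ z * g' z = F' z := by
    intro z
    have := hφcM (z : ℂ) z.im_pos
    simpa using this
  have hφMD : MDiff φ := by
    rw [UpperHalfPlane.mdifferentiable_iff]
    refine hφcD.congr ?_
    intro w hw
    simp only [Function.comp_apply, hφdef]
    rw [ofComplex_apply_of_im_pos hw]
  have hφq : ∀ z : ℍ, g' z ≠ 0 → φ z = F' z / g' z := fun z hz => by
    rw [eq_div_iff hz]; exact hφg z
  -- the monic relation for `φ`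
  have hS : ∀ z : ℍ, ∑ i ∈ Finset.range (n + 1), a i z * φ z ^ (n - i) = 0 := by
    have hSMD : MDiff (fun z : ℍ => ∑ i ∈ Finset.range (n + 1), a i z * φ z ^ (n - i)) := by
      rw [UpperHalfPlane.mdifferentiable_iff]
      have hφD := UpperHalfPlane.mdifferentiable_iff.mp hφMD
      have : DifferentiableOn ℂ (fun w => ∑ i ∈ Finset.range (n + 1),
          (a i ∘ ofComplex) w * (φ ∘ ofComplex) w ^ (n - i)) U :=
        DifferentiableOn.fun_sum fun i _ => (haD i).mul (hφD.pow _)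
      exact this
    have := m11_eq_zero_of_forall_ne_uhp hgMD hg0 hSMD (fun z hz => by
      simp only [hφq z hz]; exact hquot z hz)
    intro z
    exact congrFun this z
  -- slash invariance
  have hslash : ∀ γ : SL(2, ℤ), γ ∈ Gamma0 N → φ ∣[k] γ = φ := by
    intro γ hγ
    have hγ' : Matrix.SpecialLinearGroup.mapGL ℝ γ ∈ (Gamma0 N : Subgroup (GL (Fin 2) ℝ)) :=
      ⟨γ, hγ, rfl⟩
    have hFs : (F' : ℍ → ℂ) ∣[k + m] γ = F' := by
      rw [add_comm]; exact SlashInvariantForm.slash_action_eqn F' _ hγ'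
    have hgs : (g' : ℍ → ℂ) ∣[m] γ = g' := SlashInvariantForm.slash_action_eqn g' _ hγ'
    have hFφg : (F' : ℍ → ℂ) = φ * g' := by funext z; simp [hφg z]
    have h1 : (φ ∣[k] γ) * g' = φ * g' := by
      have := mul_slash_SL2 k m γ φ g'
      rw [← hFφg, hFs, hgs] at this
      rw [← this, hFφg]
    have hu : MDiff (φ ∣[k] γ - φ) := by
      have h2 : MDiff (φ ∣[k] γ) := by
        rw [SL_slash]; exact hφMD.slash k _
      exact h2.sub hφMD
    have := m11_eq_zero_of_forall_ne_uhp hgMD hg0 hu (fun z hz => by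
      have := congrFun h1 z
      simp only [Pi.mul_apply] at this
      have := mul_right_cancel₀ hz this
      simp [this])
    exact sub_eq_zero.mp this
  -- boundedness at the cusps
  have hbdd : ∀ γ : SL(2, ℤ), IsBoundedAtImInfty (φ ∣[k] γ) := by
    intro γ
    obtain ⟨M, A, hMA⟩ := m11_exists_bound n a haB
    rw [isBoundedAtImInfty_iff]
    refine ⟨M, A, fun z hz => ?_⟩
    refine le_trans ?_ (hMA z hz)
    have hγ' : Matrix.SpecialLinearGroup.mapGL ℝ γ ∈ 𝒮ℒ := ⟨γ, rfl⟩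
    have hd : denom γ z ≠ 0 := denom_ne_zero γ z
    have hai : ∀ i, a i (γ • z) = denom γ z ^ (k * (i : ℤ)) * a i z := fun i => by
      rw [← ha' i]
      exact SlashInvariantForm.slash_action_eqn'' (a' i) hγ' z
    have hψ : (φ ∣[k] γ) z = φ (γ • z) * denom γ z ^ (-k) := SL_slash_apply _ _ _
    have hφγ : φ (γ • z) = (φ ∣[k] γ) z * denom γ z ^ k := by
      rw [hψ, mul_assoc, ← zpow_add₀ hd]; simp
    apply m11_cauchy_bound n (fun i => a i z) (by simp [ha0])
    have h1 := hS (γ • z)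
    have hdn : denom γ z ^ (k * (n : ℤ)) ≠ 0 := zpow_ne_zero _ hd
    apply mul_left_cancel₀ hdn
    rw [mul_zero, ← h1, Finset.mul_sum]
    apply Finset.sum_congr rfl
    intro i hi
    have hi' : i ≤ n := Nat.lt_succ_iff.mp (Finset.mem_range.mp hi)
    rw [hai i, hφγ, mul_pow, ← zpow_natCast (denom γ z ^ k), ← zpow_mul]
    have : denom γ z ^ (k * (n : ℤ)) =
        denom γ z ^ (k * (i : ℤ)) * denom γ z ^ (k * ((n - i : ℕ) : ℤ)) := by
      rw [← zpow_add₀ hd, ← mul_add]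
      congr 2
      push_cast [Nat.cast_sub hi']
      ring
    rw [this]
    ring
  -- assemble
  refine ⟨φ, ⟨{ toFun := φ
                slash_action_eq' := ?_
                holo' := hφMD
                bdd_at_cusps' := ?_ }, rfl⟩, ?_⟩
  · rintro _ ⟨γ, hγ, rfl⟩
    exact hslash γ hγ
  · intro c hc
    rw [Subgroup.IsArithmetic.isCusp_iff_isCusp_SL2Z] at hc
    rw [OnePoint.isBoundedAt_iff_forall_SL2Z hc]
    intro γ _
    exact hbdd γ
  · funext z
    simp [hφg z]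


/-- **M11**: a ratio of `Γ₀(N)`-forms of weight `k` which satisfies a monic relation with level-one
coefficients is the `q`-expansion of a holomorphic modular form of weight `k`. -/
theorem isMF_of_isRatio_of_integral (N : ℕ) [NeZero N] {k : ℤ} {x : LS} (hx : IsRatio N k x)
    (n : ℕ) (a : ℕ → ℍ → ℂ) (ha0 : a 0 = 1) (ha : ∀ i : ℕ, IsMF1 (k * (i : ℤ)) (a i))
    (hrel : ∑ i ∈ Finset.range (n + 1), qL (a i) * x ^ (n - i) = 0) :
    ∃ f, IsMF N k f ∧ qL f = x := by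
  obtain ⟨m, F, g, hF, hg, hg0, hxg⟩ := hx
  have hFn : IsNice F := IsMF.isNice hF
  have hgn : IsNice g := IsMF.isNice hg
  have han : ∀ i, IsNice (a i) := fun i => IsMF1.isNice (ha i)
  have hterm : ∀ i, IsNice (a i * F ^ (n - i) * g ^ i) := fun i =>
    IsNice.mul (IsNice.mul (han i) (IsNice.pow hFn _)) (IsNice.pow hgn _)
  -- the relation between functions
  have hRfun : (∑ i ∈ Finset.range (n + 1), a i * F ^ (n - i) * g ^ i) = 0 := by
    rw [← qL_eq_zero_iff (isNice_sum _ _ fun i _ => hterm i), qL_sum _ _ fun i _ => hterm i]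
    have : ∀ i ∈ Finset.range (n + 1), qL (a i * F ^ (n - i) * g ^ i) =
        (qL (a i) * x ^ (n - i)) * qL g ^ n := by
      intro i hi
      have hi' : i ≤ n := Nat.lt_succ_iff.mp (Finset.mem_range.mp hi)
      rw [qL_mul (IsNice.mul (han i) (IsNice.pow hFn _)) (IsNice.pow hgn _),
        qL_mul (han i) (IsNice.pow hFn _), qL_pow hFn, qL_pow hgn, ← hxg, mul_pow]
      have : qL g ^ n = qL g ^ (n - i) * qL g ^ i := by
        rw [← pow_add, Nat.sub_add_cancel hi']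
      rw [this]
      ring
    rw [Finset.sum_congr rfl this, ← Finset.sum_mul, hrel, zero_mul]
  have hR : ∀ z : ℍ, ∑ i ∈ Finset.range (n + 1), a i z * F z ^ (n - i) * g z ^ i = 0 := by
    intro z
    have := congrFun hRfun z
    simpa [Finset.sum_apply] using this
  obtain ⟨φ, hφ, hφg⟩ := m11_core N hF hg hg0 n a ha0 ha hR
  refine ⟨φ, hφ, ?_⟩
  have hφn : IsNice φ := IsMF.isNice hφ
  have hqg : qL g ≠ 0 := fun h => hg0 ((qL_eq_zero_iff hgn).mp h)
  apply mul_right_cancel₀ hqg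
  rw [← qL_mul hφn hgn, hφg, hxg]

end Fermat.Agent.S23x
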