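import Fermat.Agent.S23x.Defs
import Fermat.Agent.S23x.QRing
import Fermat.Agent.S23x.Ratio
import Fermat.Agent.S23x.LevelOne

/-!
# S23 project, module M08 (LevelRaise), "rationality" half

The statements of M08 which do not involve the level-raising operator `f ↦ f(N z)`:
`E4L`, `E6L`, `DeltaL`, `jL` are nonzero / fixed by `sigL σ`, and `jL` is a ratio of level `N`.
For the `j_N` statements the two facts about `f(N z)` (it is a modular form of level `N` and its
`q`-expansion is `q ↦ q^N` substituted) are taken as hypotheses: `m08s_isRatio_jNL_of`,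
`m08s_sigL_jNL_of`.
-/

set_option autoImplicit false

namespace Fermat.Agent.S23x

open UpperHalfPlane ModularForm ModularFormClass CongruenceSubgroup
open scoped MatrixGroups Manifold

theorem m08s_sigL_E4L (σ : ℂ ≃+* ℂ) : sigL σ E4L = E4L := m05_sigL_E4L σ

theorem m08s_sigL_E6L (σ : ℂ ≃+* ℂ) : sigL σ E6L = E6L := m05_sigL_E6L σ

theorem m08s_sigL_DeltaL (σ : ℂ ≃+* ℂ) : sigL σ DeltaL = DeltaL := by
  unfold DeltaL qL
  rw [sigL_coe, sigP_eq_self_of_isRatPS σ isRatPS_discriminant]

theorem m08s_E4L_ne_zero : E4L ≠ 0 := m05_E4L_ne_zero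

theorem m08s_E6L_ne_zero : E6L ≠ 0 := m05_E6L_ne_zero

theorem m08s_DeltaL_ne_zero : DeltaL ≠ 0 := m05_DeltaL_ne_zero

theorem m08s_sigL_jL (σ : ℂ ≃+* ℂ) : sigL σ jL = jL := by
  unfold jL
  rw [map_div₀, map_pow, m08s_sigL_E4L, m08s_sigL_DeltaL]

theorem m08s_jL_ne_zero : jL ≠ 0 := by
  unfold jL
  exact div_ne_zero (pow_ne_zero _ m08s_E4L_ne_zero) m08s_DeltaL_ne_zero

theorem m08s_discriminant_ne_zero : (ModularForm.discriminant : ℍ → ℂ) ≠ 0 := by
  intro h
  exact ModularForm.discriminant_ne_zero UpperHalfPlane.I (congrFun h _)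

theorem m08s_isRatio_jL (N : ℕ) [NeZero N] : IsRatio N 0 jL := by
  refine ⟨12, (⇑E₄) ^ 3, ModularForm.discriminant, ?_, ?_, m08s_discriminant_ne_zero, ?_⟩
  · exact ((IsMF1.isMF N m05_isMF1_E4).pow 3).cast (by norm_num)
  · exact IsMF1.isMF N m05_isMF1_discriminant
  · rw [qL_pow m05_isMF1_E4.isNice]
    show E4L ^ 3 / DeltaL * DeltaL = E4L ^ 3
    exact div_mul_cancel₀ _ m08s_DeltaL_ne_zero

/-! ### The `j_N` statements, modulo the two facts about `f(N z)` -/

theorem m08s_comp_mulN_discriminant_ne_zero (N : ℕ) [NeZero N] :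
    (fun z : ℍ => ModularForm.discriminant (mulN N z)) ≠ 0 := by
  intro h
  exact ModularForm.discriminant_ne_zero (mulN N UpperHalfPlane.I) (congrFun h UpperHalfPlane.I)

/-- `j_N` is a ratio of level `N`, given that `E₄(N z)` and `Δ(N z)` are forms of level `N`. -/
theorem m08s_isRatio_jNL_of (N : ℕ) [NeZero N]
    (h4 : IsMF N 4 (fun z => E₄ (mulN N z)))
    (hΔ : IsMF N 12 (fun z => ModularForm.discriminant (mulN N z))) :
    IsRatio N 0 (jNL N) := by
  have hne : qL (fun z : ℍ => ModularForm.discriminant (mulN N z)) ≠ 0 := by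
    rw [Ne, qL_eq_zero_iff hΔ.isNice]
    exact m08s_comp_mulN_discriminant_ne_zero N
  refine ⟨12, (fun z => E₄ (mulN N z)) ^ 3, fun z => ModularForm.discriminant (mulN N z),
    (h4.pow 3).cast (by norm_num), hΔ, m08s_comp_mulN_discriminant_ne_zero N, ?_⟩
  rw [qL_pow h4.isNice]
  unfold jNL
  exact div_mul_cancel₀ _ hne

/-- a power series whose coefficients are `0` or coefficients of a rational power series is
rational. -/
theorem m08s_isRatPS_of_coeff (N : ℕ) {p q : PowerSeries ℂ} (hq : IsRatPS q)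
    (h : ∀ n : ℕ, PowerSeries.coeff n p = if N ∣ n then PowerSeries.coeff (n / N) q else 0) :
    IsRatPS p := by
  intro n
  rw [h n]
  split_ifs
  · exact hq _
  · exact ⟨0, by simp⟩

/-- `j_N` has rational coefficients, given that the `q`-expansions of `E₄(N z)` and `Δ(N z)`
do. -/
theorem m08s_sigL_jNL_of (σ : ℂ ≃+* ℂ) (N : ℕ) [NeZero N]
    (h4 : IsRatPS (qExpansion 1 (fun z => E₄ (mulN N z))))
    (hΔ : IsRatPS (qExpansion 1 (fun z => ModularForm.discriminant (mulN N z)))) :
    sigL σ (jNL N) = jNL N := by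
  unfold jNL qL
  rw [map_div₀, map_pow, sigL_coe, sigL_coe, sigP_eq_self_of_isRatPS σ h4,
    sigP_eq_self_of_isRatPS σ hΔ]

end Fermat.Agent.S23x
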