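import Fermat.Agent.S23x.Defs
import Fermat.Agent.S23x.QRing
import Fermat.Agent.S23x.Ratio
import Fermat.Agent.S23x.Integral

/-!
# S23 project, module M12 (SigmaMF, core): conjugates of modular forms are modular forms

`exists_isMF_sigP_of` is the M12 statement with the three inputs that are proved in other
modules taken as explicit hypotheses:

* `hsig`  : (M10, `IsRatio.sigL`)  the conjugate of the ratio `qL f` is a ratio;
* `hchar` : (M06, `exists_charpoly`) `f` is a root of a monic polynomial with level-one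
  coefficients;
* `hlev1` : (M05, `exists_isMF1_sigP`) conjugates of level-one forms are level-one forms.

The exact-`Spec` statement `exists_isMF_sigP` is the one-line wrapper in `SigmaMF.lean`.
-/

set_option autoImplicit false

namespace Fermat.Agent.S23x

open UpperHalfPlane ModularForm ModularFormClass CongruenceSubgroup Polynomial
open scoped MatrixGroups Manifold

/-- `qL` of the zero function. -/
theorem m12_qL_zero : qL (0 : ℍ → ℂ) = 0 := by
  have h : IsNice (0 : ℍ → ℂ) := by
    have := isNice_const 0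
    exact this
  exact (qL_eq_zero_iff h).mpr rfl

/-- `qL` of the constant function one. -/
theorem m12_qL_one : qL (1 : ℍ → ℂ) = 1 := by
  have h := qL_const 1
  rw [map_one] at h
  exact h

theorem m12_isNice_one : IsNice (1 : ℍ → ℂ) := isNice_const 1

/-- **M12** (core): conjugates of modular forms are modular forms, with the inputs from
M05, M06 and M10 as hypotheses. -/
theorem exists_isMF_sigP_of (N : ℕ) [NeZero N] (σ : ℂ ≃+* ℂ) {k : ℤ} {f : ℍ → ℂ}
    (hf : IsMF N k f)
    (hsig : IsRatio N k (sigL σ (qL f)))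
    (hchar : ∃ a : ℕ → ℍ → ℂ, a 0 = 1 ∧ (∀ i : ℕ, IsMF1 (k * (i : ℤ)) (a i)) ∧
      ∑ i ∈ Finset.range (idx N + 1), a i * f ^ (idx N - i) = 0)
    (hlev1 : ∀ {k' : ℤ} {g : ℍ → ℂ}, IsMF1 k' g →
      ∃ g', IsMF1 k' g' ∧ qExpansion 1 g' = sigP σ (qExpansion 1 g)) :
    ∃ f', IsMF N k f' ∧ qExpansion 1 f' = sigP σ (qExpansion 1 f) := by
  classical
  have hfn : IsNice f := IsMF.isNice hf
  -- characteristic polynomial over level one
  obtain ⟨a, ha0, ha, hrel⟩ := hchar
  set μ := idx N with hμ
  have han : ∀ i, IsNice (a i) := fun i => IsMF1.isNice (ha i)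
  -- apply qL
  have hrelq : ∑ i ∈ Finset.range (μ + 1), qL (a i) * qL f ^ (μ - i) = 0 := by
    have h1 : qL (∑ i ∈ Finset.range (μ + 1), a i * f ^ (μ - i)) = 0 := by
      rw [hrel]; exact m12_qL_zero
    rw [qL_sum _ _ (fun i _ => IsNice.mul (han i) (IsNice.pow hfn _))] at h1
    rw [← h1]
    refine Finset.sum_congr rfl fun i _ => ?_
    rw [qL_mul (han i) (IsNice.pow hfn _), qL_pow hfn]
  -- conjugate level-one coefficients
  have hex : ∀ i : ℕ, ∃ b : ℍ → ℂ, IsMF1 (k * (i : ℤ)) b ∧
      qExpansion 1 b = sigP σ (qExpansion 1 (a i)) := fun i => hlev1 (ha i)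
  choose b hb1 hb2 using hex
  let a' : ℕ → ℍ → ℂ := fun i => if i = 0 then 1 else b i
  have ha'0 : a' 0 = 1 := by simp [a']
  have ha' : ∀ i : ℕ, IsMF1 (k * (i : ℤ)) (a' i) := by
    intro i
    by_cases hi : i = 0
    · subst hi
      have := ha 0
      rw [ha0] at this
      simpa [a'] using this
    · simpa [a', hi] using hb1 i
  have hqa' : ∀ i, qL (a' i) = sigL σ (qL (a i)) := by
    intro i
    by_cases hi : i = 0
    · subst hi
      simp only [a', if_true, ha0, m12_qL_one, map_one]
    · simp only [a', hi, if_false]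
      unfold qL
      rw [sigL_coe, hb2 i]
  -- apply sigL σ to the relation
  have hrelσ : ∑ i ∈ Finset.range (μ + 1), qL (a' i) * sigL σ (qL f) ^ (μ - i) = 0 := by
    have h2 := congrArg (sigL σ) hrelq
    rw [map_sum, map_zero] at h2
    rw [← h2]
    refine Finset.sum_congr rfl fun i _ => ?_
    rw [map_mul, map_pow, hqa' i]
  obtain ⟨f', hf', hqf'⟩ := isMF_of_isRatio_of_integral N hsig μ a' ha'0 ha' hrelσ
  refine ⟨f', hf', ?_⟩
  have h3 : ((qExpansion 1 f' : PowerSeries ℂ) : LaurentSeries ℂ) =
      ((sigP σ (qExpansion 1 f) : PowerSeries ℂ) : LaurentSeries ℂ) := by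
    have : qL f' = sigL σ (qL f) := hqf'
    unfold qL at this
    rw [sigL_coe] at this
    exact this
  exact HahnSeries.ofPowerSeries_injective h3

end Fermat.Agent.S23x
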