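import Fermat.Agent.S23x.Defs
import Fermat.Prelude.Def_CuspForm_HeckeAlgebra

/-! S23 project: INTERFACE SPEC. Every statement is a stub (proof omitted); the real proofs live in
the module files named in table `s23_plan` (namespace `Fermat.Agent.S23x`, same names without
`Spec`). This file is never imported by the final `S23.lean`. -/

set_option autoImplicit false

namespace Fermat.Agent.S23x.Spec

open UpperHalfPlane ModularForm ModularFormClass CongruenceSubgroup Polynomial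
open scoped MatrixGroups Manifold

/-! ## M01 AutC : the fixed field of all field automorphisms of ℂ is ℚ -/

theorem exists_rat_of_forall_aut_fixed (x : ℂ) (h : ∀ σ : ℂ ≃+* ℂ, σ x = x) :
    ∃ r : ℚ, x = (r : ℂ) := sorry

/-! ## M02 Descent : a finite-dimensional space of power series stable under all `sigP σ` is spanned
by its rational elements (reduced echelon basis is fixed by every σ) -/

theorem span_rat_of_sigP_stable (V : Submodule ℂ (PowerSeries ℂ)) [FiniteDimensional ℂ V]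
    (hσ : ∀ σ : ℂ ≃+* ℂ, ∀ p ∈ V, sigP σ p ∈ V) :
    Submodule.span ℂ {p | p ∈ V ∧ IsRatPS p} = V := sorry

/-! ## M03 QRing : `qL` is an injective ring hom on nice functions -/

theorem IsMF.isNice {N : ℕ} [NeZero N] {k : ℤ} {f : ℍ → ℂ} (h : IsMF N k f) : IsNice f := sorry
theorem IsMF1.isNice {k : ℤ} {f : ℍ → ℂ} (h : IsMF1 k f) : IsNice f := sorry
theorem IsNice.mul {f g : ℍ → ℂ} (hf : IsNice f) (hg : IsNice g) : IsNice (f * g) := sorry
theorem IsNice.add {f g : ℍ → ℂ} (hf : IsNice f) (hg : IsNice g) : IsNice (f + g) := sorry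
theorem IsNice.smul {f : ℍ → ℂ} (hf : IsNice f) (c : ℂ) : IsNice (c • f) := sorry
theorem IsNice.pow {f : ℍ → ℂ} (hf : IsNice f) (n : ℕ) : IsNice (f ^ n) := sorry
theorem isNice_const (c : ℂ) : IsNice (fun _ => c) := sorry
theorem isNice_sum {ι : Type} (s : Finset ι) (f : ι → ℍ → ℂ) (h : ∀ i ∈ s, IsNice (f i)) :
    IsNice (∑ i ∈ s, f i) := sorry
theorem qL_mul {f g : ℍ → ℂ} (hf : IsNice f) (hg : IsNice g) : qL (f * g) = qL f * qL g := sorry
theorem qL_add {f g : ℍ → ℂ} (hf : IsNice f) (hg : IsNice g) : qL (f + g) = qL f + qL g := sorry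
theorem qL_smul {f : ℍ → ℂ} (hf : IsNice f) (c : ℂ) : qL (c • f) = c • qL f := sorry
theorem qL_pow {f : ℍ → ℂ} (hf : IsNice f) (n : ℕ) : qL (f ^ n) = qL f ^ n := sorry
theorem qL_const (c : ℂ) : qL (fun _ => c) = algebraMap ℂ LS c := sorry
theorem qL_sum {ι : Type} (s : Finset ι) (f : ι → ℍ → ℂ) (h : ∀ i ∈ s, IsNice (f i)) :
    qL (∑ i ∈ s, f i) = ∑ i ∈ s, qL (f i) := sorry
theorem qL_eq_zero_iff {f : ℍ → ℂ} (hf : IsNice f) : qL f = 0 ↔ f = 0 := sorry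
theorem qL_injective {f g : ℍ → ℂ} (hf : IsNice f) (hg : IsNice g) (h : qL f = qL g) : f = g := sorry
/-- compatibility of `sigL` with `sigP` on power series -/
theorem sigL_coe (σ : ℂ ≃+* ℂ) (p : PowerSeries ℂ) :
    sigL σ ((p : PowerSeries ℂ) : LaurentSeries ℂ) = ((sigP σ p : PowerSeries ℂ) : LaurentSeries ℂ) := sorry
theorem sigL_algebraMap (σ : ℂ ≃+* ℂ) (c : ℂ) : sigL σ (algebraMap ℂ LS c) = algebraMap ℂ LS (σ c) := sorry
theorem sigP_eq_self_of_isRatPS (σ : ℂ ≃+* ℂ) {p : PowerSeries ℂ} (hp : IsRatPS p) : sigP σ p = p := sorry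

/-! ## M04 Ratio : algebra of ratios; the field of weight-0 ratios -/

theorem IsMF.mul {N : ℕ} [NeZero N] {k l : ℤ} {f g : ℍ → ℂ} (hf : IsMF N k f) (hg : IsMF N l g) :
    IsMF N (k + l) (f * g) := sorry
theorem IsMF.add {N : ℕ} [NeZero N] {k : ℤ} {f g : ℍ → ℂ} (hf : IsMF N k f) (hg : IsMF N k g) :
    IsMF N k (f + g) := sorry
theorem IsMF.smul {N : ℕ} [NeZero N] {k : ℤ} {f : ℍ → ℂ} (hf : IsMF N k f) (c : ℂ) :
    IsMF N k (c • f) := sorry
theorem IsMF.pow {N : ℕ} [NeZero N] {k : ℤ} {f : ℍ → ℂ} (hf : IsMF N k f) (n : ℕ) :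
    IsMF N (n * k) (f ^ n) := sorry
theorem isMF_const (N : ℕ) [NeZero N] (c : ℂ) : IsMF N 0 (fun _ => c) := sorry
theorem IsMF1.isMF (N : ℕ) [NeZero N] {k : ℤ} {f : ℍ → ℂ} (h : IsMF1 k f) : IsMF N k f := sorry
theorem IsMF.eq_zero_of_neg {N : ℕ} [NeZero N] {k : ℤ} (hk : k < 0) {f : ℍ → ℂ} (h : IsMF N k f) :
    f = 0 := sorry
theorem isRatio_qL {N : ℕ} [NeZero N] {k : ℤ} {f : ℍ → ℂ} (h : IsMF N k f) : IsRatio N k (qL f) := sorry
theorem IsRatio.mul {N : ℕ} [NeZero N] {k l : ℤ} {x y : LS} (hx : IsRatio N k x) (hy : IsRatio N l y) :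
    IsRatio N (k + l) (x * y) := sorry
theorem IsRatio.add {N : ℕ} [NeZero N] {k : ℤ} {x y : LS} (hx : IsRatio N k x) (hy : IsRatio N k y) :
    IsRatio N k (x + y) := sorry
theorem IsRatio.neg {N : ℕ} [NeZero N] {k : ℤ} {x : LS} (hx : IsRatio N k x) : IsRatio N k (-x) := sorry
theorem IsRatio.inv {N : ℕ} [NeZero N] {k : ℤ} {x : LS} (hx : IsRatio N k x) : IsRatio N (-k) x⁻¹ := sorry
theorem isRatio_algebraMap (N : ℕ) [NeZero N] (c : ℂ) : IsRatio N 0 (algebraMap ℂ LS c) := sorry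

/-- The field of `q`-expansions of weight-0 ratios of `Γ₀(N)`-forms. -/
noncomputable def ratioField (N : ℕ) [NeZero N] : IntermediateField ℂ LS := sorry
theorem mem_ratioField_iff {N : ℕ} [NeZero N] {x : LS} : x ∈ ratioField N ↔ IsRatio N 0 x := sorry

/-! ## M05 LevelOne : M_*(SL₂ℤ) = ℂ[E₄,E₆] and consequences -/

theorem isRatPS_E4 : IsRatPS (qExpansion 1 (⇑E₄)) := sorry
theorem isRatPS_E6 : IsRatPS (qExpansion 1 (⇑E₆)) := sorry
theorem isRatPS_discriminant : IsRatPS (qExpansion 1 ModularForm.discriminant) := sorry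
/-- structure theorem (by induction on the weight, dividing by Δ) -/
theorem exists_mvPolynomial_of_isMF1 {k : ℤ} {f : ℍ → ℂ} (h : IsMF1 k f) :
    ∃ P : MvPolynomial (Fin 2) ℂ,
      (∀ m ∈ P.support, (4 * (m 0 : ℤ) + 6 * (m 1 : ℤ)) = k) ∧
      ∀ z : ℍ, f z = MvPolynomial.eval ![E₄ z, E₆ z] P := sorry
theorem exists_isMF1_sigP (σ : ℂ ≃+* ℂ) {k : ℤ} {f : ℍ → ℂ} (h : IsMF1 k f) :
    ∃ f', IsMF1 k f' ∧ qExpansion 1 f' = sigP σ (qExpansion 1 f) := sorry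
theorem qL_div_mem_Kj {k : ℤ} {f g : ℍ → ℂ} (hf : IsMF1 k f) (hg : IsMF1 k g) :
    qL f / qL g ∈ Kj := sorry

/-! ## M06 PairNorm : symmetric functions of the conjugates -/

theorem idx_pos (N : ℕ) [NeZero N] : 0 < idx N := sorry
/-- coefficients of `∏_q (g_q a - f_q b)` over the cosets `q` of `Γ₀(N)` in `SL₂ℤ`. -/
theorem exists_pairNorm (N : ℕ) [NeZero N] {kf kg : ℤ} {f g : ℍ → ℂ}
    (hf : IsMF N kf f) (hg : IsMF N kg g) (hg0 : g ≠ 0) :
    ∃ c : ℕ → ℍ → ℂ, (∀ r ≤ idx N, IsMF1 (r * kg + ((idx N : ℤ) - r) * kf) (c r)) ∧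
      c (idx N) ≠ 0 ∧
      ∑ r ∈ Finset.range (idx N + 1), c r * f ^ r * g ^ (idx N - r) = 0 := sorry
/-- monic version (`g = 1`): characteristic polynomial of `f` over level one. -/
theorem exists_charpoly (N : ℕ) [NeZero N] {k : ℤ} {f : ℍ → ℂ} (hf : IsMF N k f) :
    ∃ a : ℕ → ℍ → ℂ, a 0 = 1 ∧ (∀ i : ℕ, IsMF1 (k * (i : ℤ)) (a i)) ∧
      ∑ i ∈ Finset.range (idx N + 1), a i * f ^ (idx N - i) = 0 := sorry

/-! ## M07 DegreeLe -/

theorem exists_monic_of_isRatio (N : ℕ) [NeZero N] {x : LS} (hx : IsRatio N 0 x) :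
    ∃ P : Polynomial Kj, P.Monic ∧ P.natDegree = idx N ∧ Polynomial.aeval x P = 0 := sorry

/-! ## M08 LevelRaise : the forms `f(Nz)`; `j` and `j_N` -/

theorem isMF_comp_mulN (N : ℕ) [NeZero N] {k : ℤ} {f : ℍ → ℂ} (h : IsMF1 k f) :
    IsMF N k (fun z => f (mulN N z)) := sorry
theorem qExpansion_comp_mulN_coeff (N : ℕ) [NeZero N] {k : ℤ} {f : ℍ → ℂ} (h : IsMF1 k f) (n : ℕ) :
    PowerSeries.coeff n (qExpansion 1 (fun z => f (mulN N z))) =
      if N ∣ n then PowerSeries.coeff (n / N) (qExpansion 1 f) else 0 := sorry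
theorem isRatio_jL (N : ℕ) [NeZero N] : IsRatio N 0 jL := sorry
theorem isRatio_jNL (N : ℕ) [NeZero N] : IsRatio N 0 (jNL N) := sorry
theorem sigL_jL (σ : ℂ ≃+* ℂ) : sigL σ jL = jL := sorry
theorem sigL_jNL (σ : ℂ ≃+* ℂ) (N : ℕ) [NeZero N] : sigL σ (jNL N) = jNL N := sorry
theorem sigL_E4L (σ : ℂ ≃+* ℂ) : sigL σ E4L = E4L := sorry
theorem sigL_E6L (σ : ℂ ≃+* ℂ) : sigL σ E6L = E6L := sorry
theorem sigL_DeltaL (σ : ℂ ≃+* ℂ) : sigL σ DeltaL = DeltaL := sorry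
theorem E4L_ne_zero : E4L ≠ 0 := sorry
theorem E6L_ne_zero : E6L ≠ 0 := sorry
theorem DeltaL_ne_zero : DeltaL ≠ 0 := sorry

/-! ## M09 DegreeGe : `[ℂ(j, j_N) : ℂ(j)] ≥ idx N` -/

/-- `jFn` is `SL₂ℤ`-invariant. -/
theorem jFn_smul (γ : SL(2, ℤ)) (z : ℍ) : jFn (γ • z) = jFn z := sorry
/-- asymptotics of `j`: `j(z) - exp(-2πiz)` is bounded on `Im z ≥ 1`. -/
theorem exists_bound_jFn_sub_exp :
    ∃ C : ℝ, ∀ z : ℍ, 1 ≤ z.im → ‖jFn z - Complex.exp (-2 * Real.pi * Complex.I * z)‖ ≤ C := sorry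
/-- there is a point where the `idx N` conjugates `j(N γ z)` take pairwise distinct values and a
given nonzero polynomial in `j(z)` does not vanish. -/
theorem exists_point_conjugates_distinct (N : ℕ) [NeZero N] (p : Polynomial ℂ) (hp : p ≠ 0) :
    ∃ (z : ℍ) (S : Finset ℂ), S.card = idx N ∧ p.eval (jFn z) ≠ 0 ∧
      ∀ w ∈ S, ∃ γ : SL(2, ℤ), w = jFn (mulN N (γ • z)) := sorry
theorem natDegree_ge_of_aeval_jNL_eq_zero (N : ℕ) [NeZero N] (P : Polynomial Kj) (hP : P ≠ 0)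
    (h : Polynomial.aeval (jNL N) P = 0) : idx N ≤ P.natDegree := sorry

/-! ## M10 FieldGen : the ratio field is ℂ(j, j_N), hence stable under `sigL` -/

theorem ratioField_eq (N : ℕ) [NeZero N] :
    ratioField N = IntermediateField.adjoin ℂ {jL, jNL N} := sorry
theorem IsRatio.sigL_zero {N : ℕ} [NeZero N] (σ : ℂ ≃+* ℂ) {x : LS} (hx : IsRatio N 0 x) :
    IsRatio N 0 (sigL σ x) := sorry
theorem IsRatio.sigL {N : ℕ} [NeZero N] (σ : ℂ ≃+* ℂ) {k : ℤ} (hk : Even k) {x : LS}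
    (hx : IsRatio N k x) : IsRatio N k (sigL σ x) := sorry

/-! ## M11 Integral : a ratio which is integral over level-one forms is a holomorphic form -/

theorem isMF_of_isRatio_of_integral (N : ℕ) [NeZero N] {k : ℤ} {x : LS} (hx : IsRatio N k x)
    (n : ℕ) (a : ℕ → ℍ → ℂ) (ha0 : a 0 = 1) (ha : ∀ i : ℕ, IsMF1 (k * (i : ℤ)) (a i))
    (hrel : ∑ i ∈ Finset.range (n + 1), qL (a i) * x ^ (n - i) = 0) :
    ∃ f, IsMF N k f ∧ qL f = x := sorry

/-! ## M12 SigmaMF : conjugates of modular forms are modular forms -/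

theorem exists_isMF_sigP (N : ℕ) [NeZero N] (σ : ℂ ≃+* ℂ) {k : ℤ} (hk : Even k) {f : ℍ → ℂ}
    (hf : IsMF N k f) : ∃ f', IsMF N k f' ∧ qExpansion 1 f' = sigP σ (qExpansion 1 f) := sorry

/-! ## M13 CuspCrit : algebraic criterion for cuspidality -/

theorem isCF_iff_pow_eq_discriminant_mul (N : ℕ) [NeZero N] {k : ℤ} {f : ℍ → ℂ} (hf : IsMF N k f) :
    IsCF N k f ↔ ∃ g, IsMF N ((N : ℤ) * k - 12) g ∧ f ^ N = ModularForm.discriminant * g := sorry

/-! ## M14 SigmaCF -/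

theorem exists_isCF_sigP (N : ℕ) [NeZero N] (σ : ℂ ≃+* ℂ) {k : ℤ} (hk : Even k) {f : ℍ → ℂ}
    (hf : IsCF N k f) : ∃ f', IsCF N k f' ∧ qExpansion 1 f' = sigP σ (qExpansion 1 f) := sorry

/-! ## M15 FinDim (from the prelude Sturm bound) -/

theorem finiteDimensional_cuspForm (N : ℕ) [NeZero N] (k : ℤ) :
    FiniteDimensional ℂ (CuspForm (Gamma0 N) k) := sorry

/-! ## M16 RatSpan -/

theorem span_rat_cuspForm (N : ℕ) [NeZero N] :
    Submodule.span ℂ {f : CuspForm (Gamma0 N) 2 | IsRatPS (qExpansion 1 (⇑f))} = ⊤ := sorry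

/-! ## M17 BddDenom (uses the landed S22: the Hecke algebra is a finitely generated ℤ-module) -/

theorem exists_int_smul_isIntPS (N : ℕ) [NeZero N] (f : CuspForm (Gamma0 N) 2)
    (hf : IsRatPS (qExpansion 1 (⇑f))) :
    ∃ c : ℤ, c ≠ 0 ∧ IsIntPS (qExpansion 1 (⇑((c : ℂ) • f))) := sorry

/-! ## M18 final -/

theorem s23 (N : ℕ) [NeZero N] : CuspForm.HasIntegralStructure N 2 := sorry

end Fermat.Agent.S23x.Spec
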